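import Fermat.Agent.EigenSystems.ModularModel
import Fermat.Agent.HeckeEigen.EigenBound
import Fermat.Agent.Engine.TRep.TwistChain

/-!
# From eigen systems back to residual modularity

A system which occurs at level `N` with the residual traces of `W` at almost all primes makes `W`
residually modular of level `N`; residual modularity passes to multiples of the level.
-/

set_option autoImplicit false
set_option linter.style.haveILetI false

noncomputable section

open CongruenceSubgroup IsLocalRing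
open scoped MatrixGroups

namespace Fermat.Agent.Engine.Top

open EigenSystems HeckeModule

/-- A maximal ideal of the algebraic integers under a map to an extension of a local ring. -/
theorem exists_maximal_congr {O' : Type} [CommRing O'] [IsLocalRing O'] {K : Type} [Field K]
    [Algebra O' K] (hinj : Function.Injective (algebraMap O' K))
    (θ : integralClosure ℤ ℂ →+* K) {p : ℕ} [Fact p.Prime] (hp : (p : O') ∈ maximalIdeal O') :
    ∃ 𝔪 : Ideal (integralClosure ℤ ℂ), 𝔪.IsMaximal ∧ (p : integralClosure ℤ ℂ) ∈ 𝔪 ∧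
      ∀ (a : integralClosure ℤ ℂ) (c : O') (b : ℤ), θ a = algebraMap O' K c →
        c - b ∈ maximalIdeal O' → a - b ∈ 𝔪 := by
  let B := integralClosure O' K
  have hint : ∀ a, θ a ∈ B := fun a => by
    have h : IsIntegral ℤ (θ a) := (Algebra.IsIntegral.isIntegral (R := ℤ) a).map θ.toIntAlgHom
    exact h.tower_top
  let θ' : integralClosure ℤ ℂ →+* B := θ.codRestrict B hint
  have hOB : Function.Injective (algebraMap O' B) := fun x y h => hinj (congrArg Subtype.val h)
  obtain ⟨P, hP, hP'⟩ := Ideal.exists_ideal_over_maximal_of_isIntegral (S := B) (maximalIdeal O')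
    (fun x hx => by rw [RingHom.mem_ker] at hx; rw [hOB (hx.trans (map_zero _).symm)]; exact zero_mem _)
  haveI := hP
  have hmem : ∀ x : O', x ∈ maximalIdeal O' → algebraMap O' B x ∈ P := fun x hx =>
    Ideal.mem_comap.1 (hP'.symm ▸ hx)
  have hpm : (p : integralClosure ℤ ℂ) ∈ P.comap θ' := by
    rw [Ideal.mem_comap, map_natCast, ← map_natCast (algebraMap O' B)]
    exact hmem _ hp
  haveI : (P.comap θ').IsPrime := Ideal.comap_isPrime θ' P
  refine ⟨P.comap θ', ?_, hpm, fun a c b ha hcb => ?_⟩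
  · refine Ideal.isMaximal_of_isIntegral_of_isMaximal_comap (R := ℤ) (P.comap θ') ?_
    have hmax : (Ideal.span {(p : ℤ)}).IsMaximal :=
      PrincipalIdealRing.isMaximal_of_irreducible
        (Nat.prime_iff_prime_int.1 (Fact.out : p.Prime)).irreducible
    have hle : Ideal.span {(p : ℤ)} ≤ (P.comap θ').comap (algebraMap ℤ (integralClosure ℤ ℂ)) := by
      rw [Ideal.span_singleton_le_iff_mem, Ideal.mem_comap, map_natCast]
      exact hpm
    haveI := hmax
    rwa [← hmax.eq_of_le (Ideal.IsPrime.ne_top inferInstance) hle]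
  · rw [Ideal.mem_comap, map_sub, map_intCast, ← map_intCast (algebraMap O' B),
      show θ' a = algebraMap O' B c from Subtype.ext ha, ← map_sub]
    exact hmem _ hcb

/-- **An occurring system congruent to `W` makes `W` residually modular of that level.** -/
theorem isResiduallyModularOfLevel_of_occurs {W : WeierstrassCurve ℤ} (hΔ : W.Δ ≠ 0) {p : ℕ}
    [Fact p.Prime] {O' : Type} [CommRing O'] [IsLocalRing O'] (hp : (p : O') ∈ maximalIdeal O')
    {K : Type} [Field K] [CharZero K] [Algebra O' K]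
    (hinj : Function.Injective (algebraMap O' K)) {N : ℕ} [NeZero N] {S : Finset ℕ}
    {lam : ℕ → O'} (hocc : Engine.Occurs K N 1 S fun ℓ => algebraMap O' K (lam ℓ))
    (hne : NonEisensteinSystem N S fun ℓ => algebraMap O' K (lam ℓ)) (T : Finset ℕ)
    (hcong : ∀ ℓ : ℕ, ℓ.Prime → ℓ ∉ T → lam ℓ - (W.apOfModel ℓ : ℤ) ∈ maximalIdeal O') :
    W.IsResiduallyModularOfLevel p N := by
  classical
  obtain ⟨g, θ, hg, hgl⟩ := exists_eigenform_of_occurs' hocc hne
  letI : Algebra O' (AlgebraicClosure K) :=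
    ((algebraMap K (AlgebraicClosure K)).comp (algebraMap O' K)).toAlgebra
  have hinj' : Function.Injective (algebraMap O' (AlgebraicClosure K)) :=
    (algebraMap K (AlgebraicClosure K)).injective.comp hinj
  obtain ⟨𝔪, h𝔪, hp𝔪, hmem⟩ := exists_maximal_congr (O' := O') hinj' θ hp
  haveI := h𝔪
  haveI : (W.map (Int.castRingHom ℚ)).IsElliptic := by
    rw [WeierstrassCurve.isElliptic_iff, isUnit_iff_ne_zero, WeierstrassCurve.map_Δ,
      map_ne_zero_iff _ (Int.cast_injective (α := ℚ))]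
    exact hΔ
  have hW : W.IsIntegralModelOf (W.map (Int.castRingHom ℚ)) := ⟨1, one_smul _ _⟩
  refine ⟨g, 𝔪, hg, h𝔪, hp𝔪, congr_everywhere (p := p) hW hW hg hp𝔪 (S ∪ T ∪ N.primeFactors)
    fun ℓ hℓ hℓS => ?_⟩
  simp only [Finset.mem_union, Nat.mem_primeFactors, hℓ, true_and, ne_eq, NeZero.ne N,
    not_false_eq_true, and_true, not_or] at hℓS
  obtain ⟨a, ha, hθ⟩ := hgl ℓ hℓ hℓS.1.1 hℓS.2
  exact ⟨a, ha, hmem a _ _ hθ (hcong ℓ hℓ hℓS.1.2)⟩

/-- Coefficients of an eigenform are not Eisenstein. -/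
theorem qCoeff_ne_add_one {N : ℕ} [NeZero N] {g : CuspForm (Gamma0 N) 2}
    (hg : g.IsNormalizedEigenform) {ℓ : ℕ} (hℓ : ℓ.Prime) (hℓN : ¬ ℓ ∣ N) :
    ModularFormClass.qCoeff g ℓ ≠ (ℓ : ℂ) + 1 := fun h => by
  have hb := HeckeEigen.norm_eigenvalue_lt hℓ hg.ne_zero (c := ModularFormClass.qCoeff g ℓ)
    fun τ => by
      rw [← CuspForm.heckeTLin_apply_apply 2 hℓ hℓN,
        HeckeEigen.heckeTLin_apply_of_isNormalizedEigenform hg hℓ hℓN]
      rfl
  rw [h, show (ℓ : ℂ) + 1 = ((ℓ + 1 : ℕ) : ℂ) by push_cast; rfl, Complex.norm_natCast] at hb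
  push_cast at hb
  exact lt_irrefl _ hb

/-- Residual modularity passes to multiples of the level. -/
theorem isResiduallyModularOfLevel_of_dvd {W : WeierstrassCurve ℤ} (hΔ : W.Δ ≠ 0) {p : ℕ}
    [Fact p.Prime] {N N' : ℕ} [NeZero N'] (hd : N ∣ N')
    (hmod : W.IsResiduallyModularOfLevel p N) : W.IsResiduallyModularOfLevel p N' := by
  classical
  haveI : NeZero N := ⟨fun h => NeZero.ne N' (Nat.eq_zero_of_zero_dvd (h ▸ hd))⟩
  obtain ⟨f, 𝔫, hf, h𝔫, hp𝔫, hcong⟩ := hmod
  haveI := h𝔫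
  haveI := h𝔫.isPrime
  -- localised algebraic integers
  let O' := Localization.AtPrime 𝔫
  let θ : integralClosure ℤ ℂ →+* ℂ := algebraMap _ ℂ
  have hθ : Function.Injective θ := FaithfulSMul.algebraMap_injective _ _
  have hu : ∀ y : 𝔫.primeCompl, IsUnit (θ y) := fun y => isUnit_iff_ne_zero.2 fun h0 =>
    y.2 (by rw [(injective_iff_map_eq_zero θ).1 hθ _ h0]; exact zero_mem 𝔫)
  let j : O' →+* ℂ := IsLocalization.lift hu
  letI : Algebra O' ℂ := j.toAlgebra
  have hj : ∀ a, algebraMap O' ℂ (algebraMap _ O' a) = θ a := fun a => IsLocalization.lift_eq hu a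
  have hjinj : Function.Injective (algebraMap O' ℂ) :=
    (injective_iff_map_eq_zero _).2 fun x hx => by
      obtain ⟨a, s, rfl⟩ := IsLocalization.exists_mk'_eq 𝔫.primeCompl x
      change j (IsLocalization.mk' O' a s) = 0 at hx
      rw [IsLocalization.lift_mk', mul_eq_zero] at hx
      rcases hx with hx | hx
      · rw [(injective_iff_map_eq_zero θ).1 hθ _ hx, IsLocalization.mk'_zero]
      · exact absurd hx (Units.ne_zero _)
  have hmap : ∀ x, x ∈ 𝔫 → algebraMap _ O' x ∈ maximalIdeal O' := fun x hx =>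
    (IsLocalization.AtPrime.to_map_mem_maximal_iff O' 𝔫 x).2 hx
  let coef : ℕ → integralClosure ℤ ℂ := fun ℓ =>
    ⟨ModularFormClass.qCoeff f ℓ, isIntegral_qCoeff hf ℓ⟩
  obtain ⟨c, hc0, hc⟩ := occurs_of_eigenform hf θ (W.Δ.natAbs.primeFactors ∪ N'.primeFactors)
  have hd' : 1 * N ∣ N' := by rwa [one_mul]
  have hocc : Engine.Occurs ℂ N' 1 (W.Δ.natAbs.primeFactors ∪ N'.primeFactors)
      fun ℓ => algebraMap O' ℂ (algebraMap _ O' (coef ℓ)) := by
    refine ⟨degen (scalarRep (1 : (ZMod N)ˣ →* ℂ) ℂ) one_ne_zero hd' c, fun h0 =>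
      hc0 (TRep.degen_one_injective hd' 1 (h0.trans (map_zero _).symm)), fun ℓ hℓ hℓS hℓN => ?_⟩
    show heckeOp (pullRep (scalarRep (1 : (ZMod N)ˣ →* ℂ) ℂ) (dvd_of_mul_left_dvd hd')) ℓ _ = _
    rw [← degen_heckeOp _ one_ne_zero hd' hℓ.out.not_dvd_one (fun h => absurd h hℓN),
      hc ℓ hℓS (fun h => hℓN (h.trans hd)), map_smul]
    simp only [hj]
    rfl
  refine isResiduallyModularOfLevel_of_occurs hΔ (hp := ?_) hjinj hocc ?_
    (insert p (W.Δ.natAbs.primeFactors ∪ N'.primeFactors)) fun ℓ hℓ hℓT => ?_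
  · rw [← map_natCast (algebraMap (integralClosure ℤ ℂ) O')]
    exact hmap _ hp𝔫
  · obtain ⟨ℓ, hlt, hℓ, hℓ1⟩ := Nat.forall_exists_prime_gt_and_eq_mod
      (q := N') (a := 1) isUnit_one (W.Δ.natAbs + N')
    have hℓN' : ¬ ℓ ∣ N' := fun h => by
      have := Nat.le_of_dvd (Nat.pos_of_ne_zero (NeZero.ne N')) h; omega
    have hℓΔ : ℓ ∉ W.Δ.natAbs.primeFactors := fun h => by
      have := Nat.le_of_mem_primeFactors h; omega
    refine ⟨ℓ, hℓ, ?_, hℓ1, fun h => qCoeff_ne_add_one hf hℓ (fun h' => hℓN' (h'.trans hd)) ?_⟩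
    · exact fun hm => (Finset.mem_union.1 hm).elim hℓΔ fun h' =>
        hℓN' (Nat.dvd_of_mem_primeFactors h')
    · simp only [hj, show (ℓ : ℂ) + 1 = θ ((ℓ : integralClosure ℤ ℂ) + 1) by simp] at h
      have h' := congrArg Subtype.val (hθ h)
      simpa [coef] using h'
  · simp only [Finset.mem_insert, Finset.mem_union, Nat.mem_primeFactors, hℓ, true_and, ne_eq,
      Int.natAbs_eq_zero, hΔ, NeZero.ne N', not_false_eq_true, and_true, not_or] at hℓT
    obtain ⟨a, ha, hmem⟩ := hcong ℓ hℓ (fun h => hℓT.2.1 (Int.natCast_dvd.mp h))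
      (fun h => hℓT.2.2 (h.trans hd)) hℓT.1
    obtain rfl : a = coef ℓ := Subtype.ext ha
    have := hmap _ hmem
    rwa [map_sub, map_intCast] at this

end Fermat.Agent.Engine.Top

end
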