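import Fermat.Agent.Engine.Top.Place
import Fermat.Agent.Engine.OrdTop.Bad
import Fermat.Agent.Engine.LoweringSetting

/-!
# The ordinary condition holds for the Hecke algebras of the top levels

`topPlaceHyp_ordinary`: at a base level not divisible by `p ^ 2`, with residual representation
ordinary at the place over `p`, the condition `TopPlaceHyp` holds for the ordinary condition.
-/

set_option autoImplicit false

noncomputable section

open IsLocalRing Matrix Fermat.Agent.DefRing Fermat.Agent.Deform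

namespace Fermat.Agent.Engine

open EigenRep HeckeModule TRep

local notation "Qbar" => AlgebraicClosure ℚ

namespace TRep

variable {N p : ℕ} [NeZero N] [Fact p.Prime] (I : RepInputs N p) {O : Type} [CommRing O]
  [IsNoetherianRing O] (ι : ℤ_[p] →+* O) (S : Finset ℕ) (m : Ideal (AwayPoly O (↑S : Set ℕ)))
  [m.IsPrime] {k : Type} [Field k] (lam : AwayPoly O (↑S : Set ℕ) →+* k)

/-- Residual traces, from the traces at Frobenius elements outside a larger finite set. -/
theorem residual_trace_outside (hNS : ∀ q : ℕ, q.Prime → q ∣ N * p → q ∈ S) (S' : Finset ℕ)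
    (res : TLoc I ι S m →+* k) (hres : ∀ P, res (tHom I ι S m P) = lam P) (hpk : (p : k) = 0)
    (ρbar : GQ →* Matrix (Fin 2) (Fin 2) k)
    (hfin : ∃ L : IntermediateField ℚ (AlgebraicClosure ℚ), FiniteDimensional ℚ L ∧
      ∀ σ : GQ, (∀ a ∈ L, σ a = a) → ρbar σ = 1)
    (htr : ∀ (ℓ : ℕ) (hℓ : ℓ.Prime) (hS : ℓ ∉ S), ℓ ∉ S' → ∀ A : ValuationSubring Qbar,
      A.LiesOverPrime ℓ → ∀ σ : GQ, A.IsFrobeniusAt σ ℓ →
        (ρbar σ).trace = lam (MvPolynomial.X ⟨⟨ℓ, hℓ⟩, hS⟩)) (g : GQ) :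
    res (tTrace I ι S m g) = (ρbar g).trace := by
  classical
  obtain ⟨M, hM⟩ := exists_tTrace_congr I ι S m 1
  obtain ⟨L₁, h₁, H₁⟩ := exists_level I M
  obtain ⟨L₂, h₂, H₂⟩ := hfin
  obtain ⟨ℓ, hℓ, hℓS', A, hA, σ, hσ, hg⟩ :=
    I.dense (L₁ ⊔ L₂) (IntermediateField.finiteDimensional_sup L₁ L₂) g (S ∪ S')
  rw [Finset.mem_union, not_or] at hℓS'
  obtain ⟨hℓS, hℓS'⟩ := hℓS'
  have hd : ¬ ℓ ∣ N * p := fun h => hℓS (hNS ℓ hℓ h)
  have hfix := inv_mul_fixes hg
  obtain ⟨e₁, e₂⟩ := H₁ _ fun a ha => hfix a (le_sup_left (a := L₁) (b := L₂) ha)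
  have e₃ := H₂ _ fun a ha => hfix a (le_sup_right (a := L₁) (b := L₂) ha)
  have hgσ : g = σ * (σ⁻¹ * g) := (mul_inv_cancel_left σ g).symm
  have hmem := hM g σ (by rw [hgσ, map_mul, map_mul, e₁, mul_one])
    (by rw [hgσ, map_mul, Units.val_mul, map_mul, e₂, mul_one])
  rw [Submodule.pow_one, Ideal.mem_span_singleton] at hmem
  obtain ⟨x, hx⟩ := hmem
  rw [show ρbar g = ρbar σ by rw [hgσ, map_mul, e₃, mul_one],
    htr ℓ hℓ hℓS hℓS' A hA σ hσ, sub_eq_iff_eq_add.mp hx, map_add, map_mul, map_natCast, hpk,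
    zero_mul, zero_add, tTrace_frobenius I ι S m hℓ hℓS hd hA hσ, hres]

end TRep

namespace Top

/-- An invertible root of `(X - c) (X - 1)` of determinant `c` has trace `1 + c`. -/
theorem trace_eq_one_add {k : Type} [Field k] {X : Matrix (Fin 2) (Fin 2) k} {c : k}
    (hu : IsUnit X) (hdet : X.det = c) (h : (X - c • 1) * (X - 1) = 0) : X.trace = 1 + c := by
  by_contra hne
  have key : (X.trace - 1 - c) • X = 0 := by
    rw [← h]
    ext i j
    fin_cases i <;> fin_cases j <;>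
      simp [Matrix.mul_apply, Fin.sum_univ_two, Matrix.trace_fin_two, ← hdet,
        Matrix.det_fin_two] <;> ring
  rcases smul_eq_zero.1 key with h0 | h0
  · exact hne (by linear_combination h0)
  · exact not_isUnit_zero (h0 ▸ hu : IsUnit (0 : Matrix (Fin 2) (Fin 2) k))

end Top

variable {O : Type} [CommRing O] [IsLocalRing O] [Finite (ResidueField O)] {p : ℕ}
  [Fact p.Prime] {ι₀ : ℤ_[p] →+* O} {N₀ : ℕ} {lam : ℕ → O} {L₀ : LevelData O}

/-- **The ordinary condition at the top levels.** -/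
theorem topPlaceHyp_ordinary (H : BaseSetting p ι₀ N₀ lam L₀) (hN₀ : ¬ p * p ∣ N₀)
    (hA : L₀.place.LiesOverPrime p)
    (hcl : L₀.atPlace = Top.ordinaryClosed L₀.place fun σ => ι₀ (epsilonPadic p σ : ℤ_[p]))
    (hord : Top.IsOrdinaryOn L₀.place (fun σ => ι₀ (epsilonPadic p σ : ℤ_[p])) L₀.D.rbar) :
    TopPlaceHyp p ι₀ N₀ lam L₀ := by
  intro N _ hes hdvd hpN S hS Λ _ _ _ _ _ _ _ _ _ hsΛ
  set I := stdInputs hes
  set ι := (algebraMap O Λ).comp ι₀
  set m := lamIdeal hsΛ S lam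
  intro R hR C _ _ _ _ _ _ _ _ _ F g
  have hker : RingHom.ker (latHom I ι S) ≤ m := by
    intro P hP
    by_contra hPm
    refine (isUnit_tHom I ι S m hPm).map (F : TLoc I ι S m →+* C) |>.ne_zero ?_
    show F (algebraMap (LatAlg I ι S) (TLoc I ι S m) (latHom I ι S P)) = 0
    rw [RingHom.mem_ker.mp hP, map_zero, map_zero]
  obtain ⟨res, hres⟩ := exists_residual I ι S m (lamHom O Λ hsΛ S lam) hker rfl
  have hpk : (p : ResidueField O) = 0 := by
    rw [← map_natCast (residue O)]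
    exact (residue_eq_zero_iff _).2 H.p_mem
  have : CharP (ResidueField O) p :=
    (CharP.charP_iff_prime_eq_zero (Fact.out : p.Prime)).mpr hpk
  have htr := residual_trace_outside I ι S m (lamHom O Λ hsΛ S lam) hS L₀.Sigma res hres hpk
    L₀.D.rbar H.cont.finite_level fun ℓ hℓ hℓS hℓS' A hA σ hσ => by
      rw [lamHom_X]
      exact H.trace_frob ℓ hℓ hℓS' A hA σ hσ
  have hdet : ∀ σ, res (tInt I ι S m (epsilonPadic p σ : ℤ_[p])) = (L₀.D.rbar σ).det := fun σ => by
    rw [H.detbar, ← lamHom_algebraMap hsΛ S lam, ← hres, AlgHom.commutes]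
    rfl
  have hinertia : ∀ σ ∈ L₀.place.inertiaSubgroupIn ℚ,
      (L₀.D.rbar σ).trace = 1 + (L₀.D.rbar σ).det := fun σ hσ => by
    have h1 := hord σ hσ σ hσ
    refine Top.trace_eq_one_add ((Group.isUnit σ).map L₀.D.rbar) rfl ?_
    rw [H.detbar σ]
    exact h1
  have hN : ¬ p * p ∣ N := fun h => by
    obtain ⟨c, rfl⟩ := hdvd
    have hpos : 0 < N₀ := Nat.pos_of_ne_zero (left_ne_zero_of_mul (NeZero.ne (N₀ * c)))
    rw [Nat.mul_div_cancel_left _ hpos] at hpN
    have hc : Nat.Coprime (p * p) c :=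
      ((Fact.out : p.Prime).coprime_iff_not_dvd.2 hpN).mul_left
        ((Fact.out : p.Prime).coprime_iff_not_dvd.2 hpN)
    exact hN₀ (hc.dvd_of_dvd_mul_right h)
  have key : ∀ σ ∈ L₀.place.inertiaSubgroupIn ℚ, ∀ τ ∈ L₀.place.inertiaSubgroupIn ℚ,
      (R σ - tInt I ι S m (epsilonPadic p σ : ℤ_[p]) • 1) * (R τ - 1) = 0 := fun σ hσ τ hτ =>
    hR.ordinary_sq I ι S m res (by have := H.three_le; omega) hN hS
      (fun a ha => by rw [hres]; exact RingHom.mem_ker.mp ha) L₀.D.rbar htr hdet H.span hA hinertia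
      hσ hτ
  let N' : MRep C :=
    { toFun := fun σ => g.1 * mapRep (F : TLoc I ι S m →+* C) R σ * g⁻¹.1
      map_one' := by rw [map_one, mul_one, Units.mul_inv]
      map_mul' := fun σ τ => by
        simp only [map_mul, mul_assoc]
        rw [← mul_assoc (g⁻¹ : GL (Fin 2) C).val g.1, Units.inv_mul, one_mul] }
  have hord' : Top.IsOrdinaryOn L₀.place (fun σ => ι₀ (epsilonPadic p σ : ℤ_[p])) N' :=
    IsTorsionRep.isOrdinaryOn I ι S m key _ (F : TLoc I ι S m →+* C) (fun σ => by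
      show F (algebraMap Λ (TLoc I ι S m) (algebraMap O Λ (ι₀ (epsilonPadic p σ : ℤ_[p])))) = _
      rw [AlgHom.commutes, ← IsScalarTower.algebraMap_apply]) g N' fun σ => rfl
  rw [hcl]
  intro B _ _ _ hB q hq hqs j
  rw [← (Top.ordinaryMap L₀.place _).natural q _ j]
  exact (congrArg q ((Top.ordinaryMap_eq_zero_iff.2 hord') j)).trans (map_zero q)

end Fermat.Agent.Engine

end
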