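import Fermat.Agent.Engine.Top.LowerCases
import Fermat.Agent.Engine.Top.TopPlace
import Fermat.Agent.GalCoh.GW.Final
import Fermat.Agent.MazurPrinciple.IsOld

/-!
# Lowering at a prime `≡ 1 (mod p)`

`loweringAtOneModP_of`: the statement of `Engine.LoweringAtOneModP`, from the modules of auxiliary
levels and from the fact that an unramified system is old.
-/

set_option autoImplicit false

noncomputable section

open IsLocalRing Fermat.Agent.DefRing Fermat.Agent.Deform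

namespace Fermat.Agent.Engine

/-- **Lowering at `q ≡ 1 (mod p)`.** -/
theorem loweringAtOneModP_of
    (hbuild : ∀ (p : ℕ) [Fact p.Prime], Top.LoweringBuildHyp p)
    (hold : ∀ (p : ℕ) [Fact p.Prime] (M q : ℕ) [NeZero M], Top.UnramifiedIsOldAll p M q) :
    LoweringAtOneModP := by
  intro p hp W M q h hq hqp hqM hM hq1 hunr hord hall hmod
  have : NeZero M := ⟨hM.ne_zero⟩
  obtain ⟨C⟩ := Top.nonempty_coeff p
  obtain ⟨R⟩ := Top.nonempty_residualData h.toOdd C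
  obtain ⟨a, f, 𝔪, hf, h𝔪, hp𝔪, ha, hspec⟩ := Top.exists_system h hmod
  have : NeZero (M / q) := ⟨(div_prime_facts hq hqM hM).2.1.ne_zero⟩
  have hqT : q ∈ Top.extraPrimes W p M := Top.mem_extraPrimes.2 ⟨hq, hqM, hM.ne_zero, hqp, hunr⟩
  have hone : ∀ r ∈ Top.extraPrimes W p M, p ∣ r - 1 := fun r hr => by
    obtain ⟨hr1, hr2, -, hr3, hr4⟩ := Top.mem_extraPrimes.1 hr
    exact hall r hr1 hr2 hr3 hr4
  have htr : ∀ ℓ : ℕ, ℓ.Prime → ¬ ℓ ∣ M → ℓ ≠ p → ∀ A : ValuationSubring (AlgebraicClosure ℚ),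
      A.LiesOverPrime ℓ → ∀ σ : GQ, A.IsFrobeniusAt σ ℓ →
        WeierstrassCurve.Affine.Point.galoisTrace ℚ (W.map (Int.castRingHom ℚ)) p σ =
          (a ℓ : ZMod p) := fun ℓ hℓ hℓM hℓp => (hspec ℓ hℓ hℓM hℓp).2
  have hcong : ∀ ℓ : ℕ, ℓ.Prime → ¬ ℓ ∣ M → ℓ ≠ p → ∃ c : integralClosure ℤ ℂ,
      (c : ℂ) = ModularFormClass.qCoeff f ℓ ∧ c - (a ℓ : integralClosure ℤ ℂ) ∈ 𝔪 :=
    fun ℓ hℓ hℓM hℓp => (hspec ℓ hℓ hℓM hℓp).1
  have hinv : GalCoh.Reciprocity p := (CFT.cftInputs p).reciprocity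
  have hGW : GalCoh.GreenbergWilesLe p := GalCoh.greenbergWilesLe p
  by_cases hpM : p ∣ M
  · obtain ⟨Pc⟩ := Top.exists_placeChoice C h.five_le
    have hcase : ¬ W.IsGoodPrimeFor p ∨ ¬ (p : ℤ) ∣ W.apOfModel p := (hord hpM).imp_right And.left
    refine R.lowering_ordinary h hM hqT hone a ha htr hf h𝔪 hp𝔪 hcong (hbuild p) (hold p _ q)
      hinv hGW Pc hord hpM ?_
    exact topPlaceHyp_ordinary (R.baseSetting h hM a htr Pc.P _)
      (Nat.squarefree_iff_prime_squarefree.1 hM p Fact.out) Pc.over_p rfl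
      (R.isOrdinaryOn_rbar Pc h hcase)
  · exact R.lowering_flat h hM hqT hone a ha htr hf h𝔪 hp𝔪 hcong (hbuild p) (hold p _ q)
      hinv hGW hpM

/-- An unramified system is old. -/
theorem Top.unramifiedIsOldAll (p : ℕ) [Fact p.Prime] (M q : ℕ) : Top.UnramifiedIsOldAll p M q :=
  fun _ _ _ _ _ _ _ => MazurPrinciple.unramifiedIsOld M q

/-- **Lowering at `q ≡ 1 (mod p)`, given the modules of auxiliary levels.** -/
theorem loweringAtOneModP_of_build
    (hbuild : ∀ (p : ℕ) [Fact p.Prime], Top.LoweringBuildHyp p) : LoweringAtOneModP :=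
  loweringAtOneModP_of hbuild fun p _ M q _ => Top.unramifiedIsOldAll p M q

end Fermat.Agent.Engine

end
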