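import Fermat.Agent.Engine.Top.Lowering
import Fermat.Agent.Engine.LoweringBuild
import Fermat.Agent.XHLite.Twist.Monodromy

/-!
# Lowering at a prime `≡ 1 (mod p)`, unconditionally

`loweringAtOneModP` proves `LoweringAtOneModP`: the modules of the lowering levels exist
(`Top.loweringBuildHyp`), inertia at the principal series primes having the trace of its characters.
-/

set_option autoImplicit false

noncomputable section

open IsLocalRing

namespace Fermat.Agent.Engine

/-- The modules of lowering levels exist. -/
theorem Top.loweringBuildHyp (p : ℕ) [Fact p.Prime] : Top.LoweringBuildHyp p := by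
  intro O _ _ _ _ _ _ _ ι₀ N₀ _ lam T _ qv L₀ frob tame v ζ ζ' H hplace r r₀ Φ₀ PB X Q hX hbase hflat
  refine H.exists_loweringLevels hplace (fun O' _ _ _ _ _ _ _ N hN q ψ hψ hq => ?_) X Q hX hbase
    hflat
  have : NeZero N := ⟨hN⟩
  have : NeZero q := ⟨hq.ne_zero⟩
  exact XHLite.nebentypusInertia O' p N q ψ hψ hq

/-- **Lowering at `q ≡ 1 (mod p)`.** -/
theorem loweringAtOneModP : LoweringAtOneModP :=
  loweringAtOneModP_of_build fun p _ => Top.loweringBuildHyp p

end Fermat.Agent.Engine

end
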