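import Fermat.Agent.Engine.Crys.RootDefect
import Fermat.Agent.LocalRingP.Generation

/-!
# The quotient character of an ordinary representation

For a representation ordinary on inertia with determinant `χ` on the decomposition group, the unit
root is a character of the decomposition group, trivial on inertia.  If it is prescribed, with
square one, the strict equations hold.
-/

set_option autoImplicit false

noncomputable section

open Fermat.Agent.DefRing

namespace Fermat.Agent.Engine.Top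

local notation "Qbar" => AlgebraicClosure ℚ

variable {O : Type} [CommRing O] {A : Type} [CommRing A] [Algebra O A]

/-- The idempotent of the quotient line. -/
def quotIdem (χ : GQ → O) (σ₀ : GQ) (N : MRep A) : Matrix (Fin 2) (Fin 2) A :=
  algebraMap O A (Ring.inverse (χ σ₀ - 1)) • (algebraMap O A (χ σ₀) • 1 - N σ₀)

/-- The unit root as a trace. -/
theorem unitRoot_eq_trace (χ : GQ → O) (σ₀ g : GQ) (N : MRep A) :
    unitRoot χ σ₀ g N = (quotIdem χ σ₀ N * N g).trace := by
  rw [quotIdem, Matrix.smul_mul, Matrix.trace_smul, Matrix.sub_mul, Matrix.smul_mul, one_mul,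
    Matrix.trace_sub, Matrix.trace_smul, ← map_mul, smul_eq_mul, smul_eq_mul, unitRoot]

variable {P : ValuationSubring Qbar} {χ : GQ → O} {N : MRep A} {σ₀ : GQ}

section

variable (hσ₀ : σ₀ ∈ P.inertiaSubgroupIn ℚ) (hu : IsUnit (χ σ₀ - 1))
  (hord : IsOrdinaryOn P χ N)
  (hdet : ∀ σ ∈ P.decompositionSubgroup ℚ, (N σ).det = algebraMap O A (χ σ))

include hu in
/-- The complement of the idempotent. -/
theorem one_sub_quotIdem :
    1 - quotIdem χ σ₀ N = algebraMap O A (Ring.inverse (χ σ₀ - 1)) • (N σ₀ - 1) := by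
  rw [quotIdem]
  set i := algebraMap O A (Ring.inverse (χ σ₀ - 1)) with hi
  set w := algebraMap O A (χ σ₀) with hw
  have hiw : i * (w - 1) = 1 := by
    rw [hi, hw, ← map_one (algebraMap O A), ← map_sub, ← map_mul, Ring.inverse_mul_cancel _ hu]
  have h1 : (i * w) • (1 : Matrix (Fin 2) (Fin 2) A) = 1 + i • 1 := by
    rw [show i * w = 1 + i by linear_combination hiw, add_smul, one_smul]
  rw [smul_sub, smul_sub, smul_smul, h1]
  abel

include hσ₀ hord in
/-- The idempotent kills `N τ - 1` on inertia. -/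
theorem quotIdem_mul_sub_one {τ : GQ} (hτ : τ ∈ P.inertiaSubgroupIn ℚ) :
    quotIdem χ σ₀ N * (N τ - 1) = 0 := by
  rw [quotIdem, Matrix.smul_mul, ← neg_sub (N σ₀), Matrix.neg_mul, hord σ₀ hσ₀ τ hτ, neg_zero,
    smul_zero]

include hσ₀ hu hord in
/-- `quotIdem` is idempotent. -/
theorem quotIdem_mul_self : quotIdem χ σ₀ N * quotIdem χ σ₀ N = quotIdem χ σ₀ N := by
  have h : quotIdem χ σ₀ N * (1 - quotIdem χ σ₀ N) = 0 := by
    rw [one_sub_quotIdem hu, Matrix.mul_smul, quotIdem_mul_sub_one hσ₀ hord hσ₀, smul_zero]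
  rwa [Matrix.mul_sub, mul_one, sub_eq_zero, eq_comm] at h

include hσ₀ hu hord hdet in
/-- The idempotent has trace `1`. -/
theorem trace_quotIdem : (quotIdem χ σ₀ N).trace = 1 := by
  have hiw : algebraMap O A (Ring.inverse (χ σ₀ - 1)) * (algebraMap O A (χ σ₀) - 1) = 1 := by
    rw [← map_one (algebraMap O A), ← map_sub, ← map_mul, Ring.inverse_mul_cancel _ hu]
  have hd : (N σ₀).det = algebraMap O A (χ σ₀) := hdet σ₀ (mem_decomposition_of_mem_inertia hσ₀)
  set w := algebraMap O A (χ σ₀) with hw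
  have htr : (N σ₀).trace = w + 1 := by
    have h1 := cayley_hamilton_two (N σ₀)
    rw [hd] at h1
    have h2 := hord σ₀ hσ₀ σ₀ hσ₀
    change (N σ₀ - w • 1) * (N σ₀ - 1) = 0 at h2
    have h3 : ((N σ₀).trace - (w + 1)) • N σ₀ = 0 := by
      calc ((N σ₀).trace - (w + 1)) • N σ₀
          = (N σ₀ - w • 1) * (N σ₀ - 1) -
            (N σ₀ * N σ₀ - (N σ₀).trace • N σ₀ + w • 1) := by
            rw [Matrix.sub_mul, Matrix.smul_mul, one_mul, Matrix.mul_sub, mul_one, smul_sub,
              sub_smul, add_smul, one_smul]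
            abel
        _ = 0 := by rw [h1, h2, sub_zero]
    have h4 := congrArg (· * N σ₀⁻¹) h3
    simp only [Matrix.smul_mul, ← map_mul, mul_inv_cancel, map_one, zero_mul] at h4
    have h5 := congrFun (congrFun h4 0) 0
    simpa [sub_eq_zero] using h5
  rw [quotIdem, Matrix.trace_smul, Matrix.trace_sub, Matrix.trace_smul, Matrix.trace_one, htr,
    Fintype.card_fin, smul_eq_mul, smul_eq_mul]
  push_cast
  linear_combination hiw

include hσ₀ hu hord hdet in
/-- The idempotent has determinant `0`. -/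
theorem det_quotIdem : (quotIdem χ σ₀ N).det = 0 :=
  det_eq_zero_of_idempotent (quotIdem_mul_self hσ₀ hu hord) (trace_quotIdem hσ₀ hu hord hdet)

include hσ₀ hu hord in
/-- The idempotent gives a stable line for the decomposition group. -/
theorem quotIdem_mul_mul_one_sub {g : GQ} (hg : g ∈ P.decompositionSubgroup ℚ) :
    quotIdem χ σ₀ N * N g * (1 - quotIdem χ σ₀ N) = 0 := by
  have e : N g * (N σ₀ - 1) = (N (g * σ₀ * g⁻¹) - 1) * N g := by
    rw [Matrix.mul_sub, Matrix.sub_mul, mul_one, one_mul, ← map_mul, ← map_mul,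
      inv_mul_cancel_right]
  rw [one_sub_quotIdem hu, Matrix.mul_smul, mul_assoc, e, ← mul_assoc,
    quotIdem_mul_sub_one hσ₀ hord (conj_mem_inertia hg hσ₀), zero_mul, smul_zero]

include hσ₀ hu hord hdet in
/-- The decomposition group acts on the quotient line by the unit root. -/
theorem quotIdem_mul_eq {g : GQ} (hg : g ∈ P.decompositionSubgroup ℚ) :
    quotIdem χ σ₀ N * N g = unitRoot χ σ₀ g N • quotIdem χ σ₀ N := by
  have h := quotIdem_mul_mul_one_sub hσ₀ hu hord hg
  rw [Matrix.mul_sub, mul_one, sub_eq_zero] at h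
  rw [unitRoot_eq_trace, ← mul_mul_eq_trace_smul (det_quotIdem hσ₀ hu hord hdet)]
  exact h

include hσ₀ hu hord hdet in
/-- The unit root is multiplicative on the decomposition group. -/
theorem unitRoot_mul {g h : GQ} (hg : g ∈ P.decompositionSubgroup ℚ)
    (hh : h ∈ P.decompositionSubgroup ℚ) :
    unitRoot χ σ₀ (g * h) N = unitRoot χ σ₀ g N * unitRoot χ σ₀ h N := by
  rw [unitRoot_eq_trace χ σ₀ (g * h), map_mul, ← mul_assoc, quotIdem_mul_eq hσ₀ hu hord hdet hg,
    Matrix.smul_mul, quotIdem_mul_eq hσ₀ hu hord hdet hh, smul_smul, Matrix.trace_smul,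
    trace_quotIdem hσ₀ hu hord hdet, smul_eq_mul, mul_one]

include hσ₀ hu hord hdet in
/-- The unit root is `1` where the representation is trivial. -/
theorem unitRoot_of_apply_eq_one {g : GQ} (hg : N g = 1) : unitRoot χ σ₀ g N = 1 := by
  rw [unitRoot_eq_trace, hg, mul_one, trace_quotIdem hσ₀ hu hord hdet]

include hσ₀ hu hord hdet in
/-- The unit root is trivial on inertia. -/
theorem unitRoot_inertia {τ : GQ} (hτ : τ ∈ P.inertiaSubgroupIn ℚ) :
    unitRoot χ σ₀ τ N = 1 := by
  have h := quotIdem_mul_sub_one hσ₀ hord hτ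
  rw [Matrix.mul_sub, mul_one, sub_eq_zero] at h
  rw [unitRoot_eq_trace, h, trace_quotIdem hσ₀ hu hord hdet]

include hσ₀ hu hord hdet in
/-- The quotient character as a homomorphism on the decomposition group. -/
theorem exists_unitRootHom : ∃ f : P.decompositionSubgroup ℚ →* A,
    ∀ g, f g = unitRoot χ σ₀ (g : GQ) N :=
  ⟨{ toFun := fun g => unitRoot χ σ₀ (g : GQ) N
     map_one' := unitRoot_of_apply_eq_one hσ₀ hu hord hdet (by rw [Subgroup.coe_one, map_one])
     map_mul' := fun g h => unitRoot_mul hσ₀ hu hord hdet g.2 h.2 }, fun _ => rfl⟩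

include hσ₀ hu hord hdet in
/-- The values of the quotient character are powers of its value at Frobenius. -/
theorem exists_unitRoot_eq_pow {p : ℕ} [Fact p.Prime] (hP : P.LiesOverPrime p)
    (hfin : ∃ L : IntermediateField ℚ Qbar, FiniteDimensional ℚ L ∧
      ∀ σ : GQ, (∀ x ∈ L, σ x = x) → N σ = 1)
    {φ : GQ} (hφ : P.IsFrobeniusAt φ p) {g : GQ} (hg : g ∈ P.decompositionSubgroup ℚ) :
    ∃ n : ℕ, unitRoot χ σ₀ g N = unitRoot χ σ₀ φ N ^ n := by
  obtain ⟨f, hf⟩ := exists_unitRootHom hσ₀ hu hord hdet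
  obtain ⟨L, hL, hL1⟩ := hfin
  obtain ⟨n, hn⟩ := LocalRingP.exists_eq_pow_of_trivial_on_inertia (Fact.out : p.Prime) hP
    ⟨φ, hφ.mem_decompositionSubgroup⟩ hφ f
    ⟨L, hL, fun σ hσ => by rw [hf]; exact unitRoot_of_apply_eq_one hσ₀ hu hord hdet (hL1 _ hσ)⟩
    (fun σ hσ => by rw [hf]; exact unitRoot_inertia hσ₀ hu hord hdet hσ) ⟨g, hg⟩
  rw [hf, hf] at hn
  exact ⟨n, hn⟩

include hσ₀ hu hord hdet in
/-- With prescribed quotient character of square one, the strict equations hold. -/
theorem isStrictOn_of_unitRoot (γ : GQ → O)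
    (hγ : ∀ g ∈ P.decompositionSubgroup ℚ, unitRoot χ σ₀ g N = algebraMap O A (γ g) ∧
      algebraMap O A (γ g) ^ 2 = 1) :
    IsStrictOn P χ γ N := by
  intro σ hσ τ hτ
  set E := quotIdem χ σ₀ N with hEdef
  set F := 1 - E with hFdef
  have hFF : F * F = F := by
    rw [hFdef, Matrix.sub_mul, one_mul, Matrix.mul_sub, mul_one,
      quotIdem_mul_self hσ₀ hu hord, sub_self, sub_zero]
  have hFtr : F.trace = 1 := by
    rw [hFdef, Matrix.trace_sub, Matrix.trace_one, trace_quotIdem hσ₀ hu hord hdet,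
      Fintype.card_fin]
    push_cast
    ring
  obtain ⟨ha, ha2⟩ := hγ σ hσ
  obtain ⟨hb, -⟩ := hγ τ hτ
  set a := algebraMap O A (γ σ) with hadef
  set β := (F * N σ).trace
  have hEσ : E * N σ = a • E := by
    rw [hEdef, quotIdem_mul_eq hσ₀ hu hord hdet hσ, ha]
  have hσF : N σ * F = β • F := by
    have h := quotIdem_mul_mul_one_sub hσ₀ hu hord hσ
    rw [← mul_mul_eq_trace_smul (det_eq_zero_of_idempotent hFF hFtr), hFdef, Matrix.sub_mul,
      one_mul, Matrix.sub_mul, h, sub_zero]
  have hβ : β = a * algebraMap O A (χ σ) := by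
    have h1 := congrArg (fun X => (E * X).trace) (cayley_hamilton_two (N σ))
    have h2 : E * (N σ * N σ) = (a * a) • E := by
      rw [← mul_assoc, hEσ, Matrix.smul_mul, hEσ, smul_smul]
    have h3 : (N σ).trace = a + β := by
      have h4 : (E * N σ).trace = a := by rw [← unitRoot_eq_trace, ha]
      rw [← h4, ← Matrix.trace_add, ← Matrix.add_mul, hFdef, add_sub_cancel, one_mul]
    simp only [Matrix.mul_add, Matrix.mul_sub, h2, Matrix.mul_smul, mul_one, mul_zero, hEσ,
      Matrix.trace_add, Matrix.trace_sub, Matrix.trace_smul, Matrix.trace_zero,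
      show E.trace = 1 from trace_quotIdem hσ₀ hu hord hdet, smul_eq_mul, h3, hdet σ hσ] at h1
    linear_combination (-a) * h1 - β * ha2
  have hF0 : (N σ - algebraMap O A (γ σ * χ σ) • 1) * F = 0 := by
    rw [map_mul, ← hadef, ← hβ, Matrix.sub_mul, hσF, Matrix.smul_mul, one_mul, sub_self]
  have hE0 : E * (N τ - algebraMap O A (γ τ) • 1) = 0 := by
    rw [Matrix.mul_sub, hEdef, quotIdem_mul_eq hσ₀ hu hord hdet hτ, hb, Matrix.mul_smul, mul_one,
      sub_self]
  calc (N σ - algebraMap O A (γ σ * χ σ) • 1) * (N τ - algebraMap O A (γ τ) • 1)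
      = (N σ - algebraMap O A (γ σ * χ σ) • 1) * (E + F) *
          (N τ - algebraMap O A (γ τ) • 1) := by rw [hFdef, add_sub_cancel, mul_one]
    _ = 0 := by rw [Matrix.mul_add, hF0, add_zero, mul_assoc, hE0, mul_zero]

end

end Fermat.Agent.Engine.Top
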