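import Fermat.Agent.Engine.Top.CurvePoint
import Fermat.Agent.Engine.Top.UnitChar
import Fermat.Agent.Engine.Crys.AtP
import Fermat.Agent.Deform.TWInertia

/-!
# The place over `p`: auxiliary elements, the residual shape, and algebra of lifts

`PlaceChoice`: a place over `p` with an element of inertia moving the `p`-th roots of unity, a
Frobenius element and a Kummer element.  For a residual representation ordinary there we record
what the ordinary equations give on lifts, to first order and over complete rings.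
-/

set_option autoImplicit false
set_option linter.unusedSectionVars false

noncomputable section

open IsLocalRing Fermat.Agent.DefRing Fermat.Agent.Deform

namespace Fermat.Agent.Engine.Top

local notation "Qbar" => AlgebraicClosure ℚ

variable {W : WeierstrassCurve ℤ} {p : ℕ} [Fact p.Prime] {C : Coeff p}

/-- A place over `p` and three elements of its decomposition group. -/
structure PlaceChoice (C : Coeff p) where
  /-- the place -/
  P : ValuationSubring Qbar
  over_p : P.LiesOverPrime p
  /-- an element of inertia with nontrivial mod `p` cyclotomic character -/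
  σ₀ : GQ
  σ₀_mem : σ₀ ∈ P.inertiaSubgroupIn ℚ
  unit : IsUnit (C.cyclo σ₀ - 1)
  /-- a Frobenius element -/
  φ : GQ
  frob : P.IsFrobeniusAt φ p
  /-- a Kummer element -/
  s : GQ
  kummer : IsKummerElement p P s

/-- A place over `p` with the auxiliary elements exists. -/
theorem exists_placeChoice (C : Coeff p) (hp : 5 ≤ p) : Nonempty (PlaceChoice C) := by
  have hpp : p.Prime := Fact.out
  have : NeZero (p : Qbar) := ⟨Nat.cast_ne_zero.2 hpp.ne_zero⟩
  obtain ⟨P, hP⟩ := Frobenius.exists_liesOverPrime Qbar hpp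
  obtain ⟨ζ, hζ⟩ := HasEnoughRootsOfUnity.exists_primitiveRoot Qbar p
  obtain ⟨σ₀, hσ₀, hmov⟩ := LocalRingP.exists_inertia_moves (by omega) hP hζ
  obtain ⟨φ, hφ⟩ := Frobenius.exists_isFrobeniusAt_qbar hpp hP
  obtain ⟨s, hs⟩ := exists_kummerElement p (by omega) P hP
  refine ⟨⟨P, hP, σ₀, hσ₀, ?_, φ, hφ, s, hs⟩⟩
  by_contra hu
  have h0 : residue C.O (C.cyclo σ₀) = 1 := by
    rw [← sub_eq_zero, ← map_one (residue C.O), ← map_sub]
    exact (residue_eq_zero_iff _).2 hu
  obtain ⟨a, ha⟩ := Deform.exists_exponent_level hpp σ₀ 1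
  have h1 := C.residue_cyclo σ₀ a fun μ hμ => ha μ (by rwa [pow_one])
  dsimp only at h1
  rw [h0] at h1
  have h2 : a % p = 1 := by
    have h3 : ((a : ℕ) : ResidueField C.O) = ((1 : ℕ) : ResidueField C.O) := by rw [Nat.cast_one, h1]
    rw [CharP.natCast_eq_natCast (ResidueField C.O) p] at h3
    rw [h3]
    exact Nat.mod_eq_of_lt hpp.one_lt
  refine hmov ?_
  rw [ha ζ (by rw [pow_one]; exact hζ.pow_eq_one), ← Nat.mod_add_div a p, h2, pow_add, pow_one,
    pow_mul, hζ.pow_eq_one, one_pow, mul_one]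

namespace PlaceChoice

variable (Ch : PlaceChoice C)

/-- The defect `α ^ 2 - 1` of the unit root. -/
def defect {A : Type} [CommRing A] [Algebra C.O A] (N : MRep A) : A :=
  unitRoot C.cyclo Ch.σ₀ Ch.φ N ^ 2 - 1

/-- The defect commutes with algebra maps. -/
theorem map_defect {A B : Type} [CommRing A] [Algebra C.O A] [CommRing B] [Algebra C.O B]
    (f : A →ₐ[C.O] B) (N : MRep A) : f (Ch.defect N) = Ch.defect (mapRep (f : A →+* B) N) := by
  rw [defect, map_sub, map_pow, map_one, map_unitRoot]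
  rfl

/-- The Frobenius element is in the decomposition group. -/
theorem φ_mem : Ch.φ ∈ Ch.P.decompositionSubgroup ℚ := Ch.frob.mem_decompositionSubgroup

/-- The cyclotomic character of `s` is `1`. -/
theorem cyclo_s (n : ℕ) : C.cyclo Ch.s - 1 ∈ Ideal.span {(p : C.O) ^ n} := by
  simpa using C.isPadicCyclotomic n Ch.s 1 fun μ hμ => by
    rw [Ch.kummer.apply_root_of_unity (Fact.out : p.Prime) hμ, pow_one]

/-- The cyclotomic character of `s` is `1` residually. -/
theorem residue_cyclo_s : residue C.O (C.cyclo Ch.s) = 1 := by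
  rw [← sub_eq_zero, ← map_one (residue C.O), ← map_sub, residue_eq_zero_iff]
  obtain ⟨c, hc⟩ := Ideal.mem_span_singleton'.1 (Ch.cyclo_s 1)
  rw [← hc, pow_one]
  exact Ideal.mul_mem_left _ _ C.p_mem

/-- The cyclotomic character of `σ₀` is not `1` residually. -/
theorem residue_cyclo_σ₀ : residue C.O (C.cyclo Ch.σ₀) ≠ 1 := fun h => by
  refine (residue_ne_zero_iff_isUnit _).2 Ch.unit ?_
  rw [map_sub, h, map_one, sub_self]

/-- The defect kills the value at the Kummer element, over complete rings. -/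
theorem defect_smul_sub_one {A : Type} [CommRing A] [IsLocalRing A] [IsNoetherianRing A]
    [IsAdicComplete (maximalIdeal A) A] [Algebra C.O A]
    (hl : IsLocalHom (algebraMap C.O A)) (hs : Function.Surjective (residue A ∘ algebraMap C.O A))
    {N : MRep A} (hN : IsCont N)
    (hdet : ∀ σ ∈ Ch.P.decompositionSubgroup ℚ, (N σ).det = algebraMap C.O A (C.cyclo σ))
    (hord : IsOrdinaryOn Ch.P C.cyclo N) :
    Ch.defect N • (N Ch.s - 1) = 0 := by
  ext i j
  refine IsHausdorff.haus (inferInstance : IsHausdorff (maximalIdeal A) A) _ fun n => ?_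
  rw [SModEq.zero, smul_eq_mul, Ideal.mul_top]
  obtain ⟨B, _, _, _, q, hB, hq, -, hker⟩ := Closed.exists_quotient_level (𝒪 := C.O) hl hs n
  have hordB : IsOrdinaryOn Ch.P C.cyclo (mapRep (q : A →+* B) N) := by
    rw [← ordinaryMap_eq_zero_iff] at hord ⊢
    intro k
    have h := congrArg q (hord k)
    rwa [(ordinaryMap Ch.P C.cyclo).natural q, map_zero] at h
  have hdetB : ∀ σ ∈ Ch.P.decompositionSubgroup ℚ,
      (mapRep (q : A →+* B) N σ).det = algebraMap C.O B (C.cyclo σ) := fun σ hσ => by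
    rw [mapRep_apply]
    change ((q : A →+* B).mapMatrix (N σ)).det = _
    rw [← RingHom.map_det, hdet σ hσ]
    exact q.commutes _
  have h0 := rootDefect_smul_sub_one (A := B) C.p_mem C.isPadicCyclotomic Ch.over_p hB
    (hN.map (q : A →+* B) hq) hdetB hordB Ch.σ₀_mem Ch.unit Ch.φ_mem Ch.kummer.1
  have hq0 : q ((Ch.defect N • (N Ch.s - 1)) i j) = 0 := by
    rw [Matrix.smul_apply, smul_eq_mul, map_mul, Ch.map_defect]
    have h1 := congrFun (congrFun h0 i) j
    rw [Matrix.smul_apply, smul_eq_mul, Matrix.zero_apply] at h1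
    rw [← h1]
    congr 1
    by_cases hij : i = j <;> simp [hij]
  exact Ideal.pow_le_pow_right (show n ≤ n + 1 by omega) ((hker _).1 hq0)

end PlaceChoice

/-- The cocycle of a continuous first order lift of trace zero. -/
theorem isAdCocycle_cocOf {k : Type} [Field k] {ρ : MRep k} {N : MRep (DualNumber k)}
    [IsLocalRing (DualNumber k)] (hN : IsCont N) (hn : ∃ n, maximalIdeal (DualNumber k) ^ n = 0)
    (hfst : ∀ σ, (N σ).map TrivSqZeroExt.fst = ρ σ) (htr : ∀ σ, (cocOf ρ N σ).trace = 0) :
    IsAdCocycle ρ (cocOf ρ N) := by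
  refine ⟨fun g h => by rw [cocOf_mul hfst, adRep_apply, add_comm], htr, ?_⟩
  obtain ⟨n, hn⟩ := hn
  obtain ⟨L, hL, hL'⟩ := hN n
  refine ⟨L, hL, fun σ hσ => ?_⟩
  have h1 : N σ = 1 := by
    ext a b : 1
    have h := hL' σ hσ a b
    rw [hn, Ideal.zero_eq_bot, Ideal.mem_bot, Matrix.sub_apply, sub_eq_zero] at h
    exact h
  have e : (1 : Matrix (Fin 2) (Fin 2) (DualNumber k)).map TrivSqZeroExt.snd = 0 := by
    ext a b
    by_cases hab : a = b <;> simp [hab]
  rw [cocOf, h1, e, zero_mul]

variable {O : Type} [CommRing O] [IsLocalRing O]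

attribute [local instance 10000] dualAlgebra in
/-- A first order lift of trace zero has the determinant of its residual representation. -/
theorem det_dual_of_trace_eq_zero {ρ : MRep (ResidueField O)} (χ : GQ → O)
    (hdet : ∀ σ, (ρ σ).det = residue O (χ σ)) {N : MRep (DualNumber (ResidueField O))}
    (hfst : ∀ σ, (N σ).map TrivSqZeroExt.fst = ρ σ) (htr : ∀ σ, (cocOf ρ N σ).trace = 0)
    (σ : GQ) : (N σ).det = algebraMap O (DualNumber (ResidueField O)) (χ σ) := by
  have hf : ∀ a b, (N σ a b).fst = ρ σ a b := fun a b => congrFun (congrFun (hfst σ) a) b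
  have hg : ∀ a b, (N σ a b).snd = (cocOf ρ N σ * ρ σ) a b := fun a b =>
    congrFun (congrFun (snd_eq_cocOf_mul (ρ := ρ) (N := N) σ) a) b
  have hd := hdet σ
  rw [Matrix.det_fin_two] at hd ⊢
  have ht := htr σ
  rw [Matrix.trace_fin_two] at ht
  refine TrivSqZeroExt.ext ?_ ?_
  · simp [dual_algebraMap, hf, hd]
  · simp only [dual_algebraMap, TrivSqZeroExt.snd_inl, TrivSqZeroExt.snd_sub,
      TrivSqZeroExt.snd_mul, hf, hg, Matrix.mul_apply, Fin.sum_univ_two, smul_eq_mul,
      MulOpposite.smul_eq_mul_unop, MulOpposite.unop_op]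
    linear_combination (ρ σ 0 0 * ρ σ 1 1 - ρ σ 0 1 * ρ σ 1 0) * ht

namespace ResidualData

variable (R : ResidualData W C) (Ch : PlaceChoice C)

/-- The level ordinary at the chosen place. -/
def ordLevel (T : Finset ℕ) : LevelData C.O := R.levelData T Ch.P (ordinaryClosed Ch.P C.cyclo)

variable {R}

/-- A curve lift reduces to the residual representation. -/
theorem IsCurveLift.mapRep_residue {N : MRep C.O} (hN : R.IsCurveLift N) :
    mapRep ((Algebra.ofId C.O (ResidueField C.O) : C.O →ₐ[C.O] ResidueField C.O) :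
      C.O →+* ResidueField C.O) N = R.D.rbar :=
  MonoidHom.ext fun σ => hN.red σ

variable (R)

/-- `W` multiplicative, or good ordinary, at `p` makes the residual representation ordinary. -/
theorem isOrdinaryOn_rbar (h : OddResidual W p)
    (hcase : ¬ W.IsGoodPrimeFor p ∨ ¬ (p : ℤ) ∣ W.apOfModel p) :
    IsOrdinaryOn Ch.P C.cyclo R.D.rbar := by
  obtain ⟨N, hN⟩ := R.exists_curveLift h
  have h1 := hN.ordinary hcase Ch.P Ch.over_p
  rw [← ordinaryMap_eq_zero_iff] at h1 ⊢
  intro k
  have h2 := congrArg (Algebra.ofId C.O (ResidueField C.O)) (h1 k)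
  rw [(ordinaryMap Ch.P C.cyclo).natural, map_zero] at h2
  rw [← h2]
  congr 1
  funext i
  exact (congrFun (congrFun (hN.red (i.1 : GQ)) i.2.1) i.2.2).symm

/-- The residual unit root is the residue of that of a curve lift. -/
theorem unitRoot_rbar_eq (h : OddResidual W p) : ∃ N : MRep C.O, R.IsCurveLift N ∧ ∀ g,
    unitRoot C.cyclo Ch.σ₀ g R.D.rbar = residue C.O (unitRoot C.cyclo Ch.σ₀ g N) := by
  obtain ⟨N, hN⟩ := R.exists_curveLift h
  refine ⟨N, hN, fun g => ?_⟩
  rw [← hN.mapRep_residue, ← map_unitRoot]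
  rfl

/-- Multiplicative reduction: no defect. -/
theorem defect_rbar_mult (h : OddResidual W p) (hbad : ¬ W.IsGoodPrimeFor p) :
    Ch.defect R.D.rbar = 0 := by
  obtain ⟨N, hN, he⟩ := R.unitRoot_rbar_eq Ch h
  rw [PlaceChoice.defect, he, ← map_pow,
    hN.unitRoot_mult hbad Ch.P Ch.over_p Ch.σ₀ Ch.σ₀_mem Ch.unit Ch.φ Ch.φ_mem, map_one, sub_self]

/-- Good reduction: the defect is `a_p ^ 2 - 1`. -/
theorem defect_rbar_good (h : OddResidual W p) (hgood : W.IsGoodPrimeFor p)
    (hap : ¬ (p : ℤ) ∣ W.apOfModel p) :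
    Ch.defect R.D.rbar = (W.apOfModel p : ResidueField C.O) ^ 2 - 1 := by
  obtain ⟨N, hN, he⟩ := R.unitRoot_rbar_eq Ch h
  rw [PlaceChoice.defect, he,
    hN.unitRoot_good hgood hap Ch.P Ch.over_p Ch.σ₀ Ch.σ₀_mem Ch.unit Ch.φ Ch.frob]

/-- The residual determinant is the cyclotomic character. -/
theorem det_rbar_algebraMap (h : OddResidual W p) (σ : GQ) :
    (R.D.rbar σ).det = algebraMap C.O (ResidueField C.O) (C.cyclo σ) :=
  R.det_rbar h _ C.residue_cyclo σ

/-- The residual representation satisfies the ordinary level data in the non-supersingular cases. -/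
theorem isResidual_ordLevel (h : OddResidual W p)
    (hcase : ¬ W.IsGoodPrimeFor p ∨ ¬ (p : ℤ) ∣ W.apOfModel p) (T : Finset ℕ) :
    (R.ordLevel Ch T).IsResidual :=
  R.isResidual_levelData h T Ch.P _ (mem_ordinaryClosed.2 (R.isOrdinaryOn_rbar Ch h hcase))

end ResidualData

end Fermat.Agent.Engine.Top
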