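import Fermat.Agent.Engine.Top.LowerCore
import Fermat.Agent.Engine.LoweringFamily
import Fermat.Agent.Engine.TRep.FlatEntries
import Fermat.Agent.Engine.AuxLevels

/-!
# The residual representation is trivial where the torsion of the Jacobian is

If the residual system occurs at level `N₀`, an element acting trivially on `J₀(N₀)[p]` and on the
`p`-th roots of unity has trivial residual matrix.  Also the empty condition at a place.
-/

set_option autoImplicit false

noncomputable section

open IsLocalRing Fermat.Agent.DefRing Fermat.Agent.Deform Fermat.Agent.EigenRep ModularCurve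

namespace Fermat.Agent.Engine.Top

open HeckeModule TRep

local notation "Qbar" => AlgebraicClosure ℚ

section Free

variable {O : Type} [CommRing O]

/-- The equations of the empty condition: none. -/
def freeMap (ι : Type) : CoordMap O ι PEmpty where
  val _ _ _ _ j := j.elim
  natural _ _ _ _ _ _ _ _ j := j.elim

variable [IsLocalRing O]

/-- No condition. -/
def freeClosed (ι : Type) : Closed O ι := Closed.equations (freeMap ι)

omit [IsLocalRing O] in
/-- The free condition holds for every family. -/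
theorem mem_freeClosed {ι A : Type} [CommRing A] [IsLocalRing A] [Algebra O A] (e : ι → A) :
    (freeClosed (O := O) ι).mem e := fun j => j.elim

omit [IsLocalRing O] in
/-- The free condition holds for every family, over quotients as well. -/
theorem mem'_freeClosed {ι A : Type} [CommRing A] [IsLocalRing A] [Algebra O A] (e : ι → A) :
    (freeClosed (O := O) ι).Mem' e := fun _ _ _ _ _ _ _ _ => mem_freeClosed _

end Free

variable {O : Type} [CommRing O] [IsDomain O] [IsDiscreteValuationRing O]
  [IsAdicComplete (maximalIdeal O) O] [Finite (ResidueField O)] [CharZero O] {p : ℕ} [Fact p.Prime]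
  [CharP (ResidueField O) p] {ι₀ : ℤ_[p] →+* O} {N₀ : ℕ} {lam : ℕ → O} {L₀ : LevelData O}

omit [IsAdicComplete (maximalIdeal O) O] [Finite (ResidueField O)] [CharP (ResidueField O) p] in
omit [Fact (Nat.Prime p)] in
/-- Elements divisible by `p` at every point of a finite torsion free algebra are not units. -/
theorem not_isUnit_of_mem_divIdeal (hp : (p : O) ∈ maximalIdeal O) {C : Type} [CommRing C]
    [Algebra O C] [Algebra.IsIntegral O C] [Nontrivial C]
    (htf : ∀ (o : O) (x : C), o ≠ 0 → algebraMap O C o * x = 0 → x = 0) {x : C}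
    (hx : x ∈ divIdeal O p C) : ¬ IsUnit x := by
  have hinj : Function.Injective (algebraMap O C) := (injective_iff_map_eq_zero _).2 fun o ho => by
    by_contra h
    exact one_ne_zero (htf o 1 h (by rw [mul_one, ho]))
  obtain ⟨Q, -, hQ, hQO⟩ := Ideal.exists_ideal_over_prime_of_isIntegral (⊥ : Ideal O) (⊥ : Ideal C)
    (le_of_eq ((Ideal.comap_bot_of_injective _ hinj).trans rfl))
  have hinj' : Function.Injective (algebraMap O (C ⧸ Q)) := (injective_iff_map_eq_zero _).2
    fun o ho => by
      rw [IsScalarTower.algebraMap_apply O C (C ⧸ Q), Ideal.Quotient.algebraMap_eq,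
        Ideal.Quotient.eq_zero_iff_mem] at ho
      have : o ∈ (⊥ : Ideal O) := hQO ▸ ho
      simpa using this
  have : Module.IsTorsionFree O (C ⧸ Q) := Module.isTorsionFree_iff_algebraMap_injective.2 hinj'
  have : Module.IsTorsionFree O (PointField O) := Module.isTorsionFree_iff_algebraMap_injective.2
    ((RingHom.injective (algebraMap (FractionRing O) (PointField O))).comp
      (IsFractionRing.injective O (FractionRing O)))
  let χ : C →ₐ[O] PointField O := (IsAlgClosed.lift (M := PointField O) (S := C ⧸ Q)).comp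
    (Ideal.Quotient.mkₐ O Q)
  obtain ⟨y, hy, hxy⟩ := hx χ
  intro hu
  obtain ⟨z, hz⟩ := hu.exists_right_inv
  refine not_isUnit_pointRing hp (IsUnit.of_mul_eq_one (a := (p : PointRing O))
    ⟨y * χ z, hy.mul ((Algebra.IsIntegral.isIntegral z).map χ)⟩ (Subtype.ext ?_))
  show (p : PointField O) * (y * χ z) = 1
  rw [← mul_assoc, ← hxy, ← map_mul, hz, map_one]

omit [IsDomain O] [IsDiscreteValuationRing O] [IsAdicComplete (maximalIdeal O) O]
  [Finite (ResidueField O)] [CharZero O] in
/-- The algebra of a family is integral over the base ring. -/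
theorem twAlg_isIntegral [IsLocalRing O] {Λ : Type} [CommRing Λ] [IsLocalRing Λ] [IsNoetherianRing Λ]
    [IsAdicComplete (maximalIdeal Λ) Λ] [Algebra O Λ] [IsLocalHom (algebraMap O Λ)]
    [Module.Finite O Λ] (hsΛ : Function.Surjective (residue Λ ∘ algebraMap O Λ)) (S : Finset ℕ)
    (ψ : ∀ q : ℕ, (ZMod q)ˣ →* Λ) (Q : Finset ℕ) (M : Unit → ℕ) [∀ j, NeZero (M j)] :
    Algebra.IsIntegral O (TwAlg hsΛ S lam ψ Q M) :=
  have : Module.Finite O (TwAlg hsΛ S lam ψ Q M) := Module.Finite.trans Λ (TwAlg hsΛ S lam ψ Q M)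
  Algebra.IsIntegral.of_finite O _

omit [CharP (ResidueField O) p] in
/-- **Trivial on the torsion of the Jacobian implies residually trivial.** -/
theorem rbar_eq_one_of_fixed [NeZero N₀] (H : BaseSetting p ι₀ N₀ lam L₀)
    (h₀ : L₀.IsResidual) (hplace : TopPlaceHyp p ι₀ N₀ lam L₀)
    (hbase : Nontrivial (BaseClasses (O := O) (residue_surjective (R := O)) L₀.Sigma lam N₀))
    {σ : GQ} (hJ : ∀ z : JZero N₀, p • z = 0 → σ • z = z)
    (hε : PadicInt.toZModPow 1 (epsilonPadic p σ : ℤ_[p]) = 1) : L₀.D.rbar σ = 1 := by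
  classical
  set hsO := (residue_surjective (R := O))
  let ψ : ∀ q : ℕ, (ZMod q)ˣ →* O := fun _ => 1
  have hA : LevelArith p N₀ L₀ L₀.Sigma ∅ N₀ ψ :=
    { dvd := by simp
      p_not_dvd := by
        simp [Nat.div_self (Nat.pos_of_ne_zero (NeZero.ne N₀)), (Fact.out : p.Prime).ne_one]
      aux := by simp
      sub := Finset.Subset.refl _
      mem_S := fun ℓ hℓ hd => H.sigma ℓ hℓ (by simpa using hd)
      smin := fun q hq => by simpa using (H.smin q hq).2.2.1
      pow_one := by simp }
  have hne : Nontrivial (LevelCoh (O := O) (Λ := O) hsO L₀.Sigma lam ψ ∅ (fun _ : Unit => N₀) ()) := by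
    have he : charSq (R := O) ψ ∅ N₀ = 1 := by simp [charSq]
    unfold LevelCoh
    rw [he]
    exact hbase
  have : Nontrivial (TwAlg (O := O) (Λ := O) hsO L₀.Sigma lam ψ ∅ (fun _ : Unit => N₀)) := by
    obtain ⟨u, v, huv⟩ := hne
    refine ⟨⟨1, 0, fun h => huv ?_⟩⟩
    have h1 := congrArg (fun z : TwAlg (O := O) (Λ := O) hsO L₀.Sigma lam ψ ∅ (fun _ : Unit => N₀) =>
      (Subtype.val z) () (u - v)) h
    exact sub_eq_zero.1 (by simpa using h1)
  let P : (L₀.withSigma L₀.Sigma).RepRing :=
    Classical.choice (LevelData.nonempty_repRing (h₀.withSigma (Finset.Subset.refl _)))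
  obtain ⟨φ, hφ, -, -, -, hF⟩ := H.exists_familyAction hsO hA hplace (Sig := L₀.Sigma)
    (fun ℓ hℓ hd => hA.mem_S ℓ hℓ hd) P
  have : NeZero (N₀ * ∏ q ∈ (∅ : Finset ℕ), q) := ⟨by simp [NeZero.ne N₀]⟩
  have hes : EichlerShimuraRelations (N₀ * ∏ q ∈ (∅ : Finset ℕ), q) p :=
    SemistableRed.allRelations _ p
  obtain ⟨F, hFt⟩ := hF hes
  have hJ' : ∀ z : JZero (N₀ * ∏ q ∈ (∅ : Finset ℕ), q), p • z = 0 → σ • z = z := by
    rw [Finset.prod_empty, mul_one]
    exact hJ
  have : Algebra.IsIntegral O (TwAlg (O := O) (Λ := O) hsO L₀.Sigma lam ψ ∅ (fun _ : Unit => N₀)) :=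
    twAlg_isIntegral (lam := lam) hsO L₀.Sigma ψ ∅ (fun _ : Unit => N₀)
  have htf := H.twAlg_torsionFree hsO hA
  have key : ∀ g, (L₀.D.rbar (σ * g)).trace - (L₀.D.rbar g).trace ∈ (⊥ : Ideal (ResidueField O)) := by
    intro g
    have hd := tTrace_sub_mem_divIdeal (O := O) (stdInputs hes) ((algebraMap O O).comp ι₀) L₀.Sigma
      (lamIdeal hsO L₀.Sigma lam) F.toRingHom ((matMod_galMat_eq_one_iff (stdInputs hes) σ).2 hJ') hε g
    rw [show F.toRingHom (tTrace _ _ _ _ (σ * g)) = φ (P.rep (σ * g)).trace from (hFt _).symm,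
      show F.toRingHom (tTrace _ _ _ _ g) = φ (P.rep g).trace from (hFt _).symm, ← map_sub] at hd
    have hnu : (P.rep (σ * g)).trace - (P.rep g).trace ∈ maximalIdeal P.R := fun hu =>
      not_isUnit_of_mem_divIdeal H.p_mem htf hd (hu.map φ)
    rw [← toResidue_eq_zero_iff P.instIsLocalHom P.residue_surjective, map_sub, toResidue_trace_rep,
      toResidue_trace_rep] at hnu
    exact Ideal.mem_bot.2 hnu
  ext a b
  have h1 := entries_mem_of_trace L₀.D.rbar ?_ ⊥ key a b
  · simpa [sub_eq_zero] using h1
  · refine top_le_iff.1 ?_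
    let e := RingEquiv.ofBijective (residue (ResidueField O))
      ⟨RingHom.injective _, residue_surjective⟩
    intro X hX
    clear hX
    obtain ⟨Y, rfl⟩ : ∃ Y : Matrix (Fin 2) (Fin 2) (ResidueField O), Y.map (residue _) = X :=
      ⟨X.map e.symm, Matrix.ext fun i j => e.apply_symm_apply _⟩
    have hY : Y ∈ Submodule.span (ResidueField O) (Set.range L₀.D.rbar) := H.span ▸ Submodule.mem_top
    induction hY using Submodule.span_induction with
    | mem Y hY =>
      obtain ⟨g, rfl⟩ := hY
      exact Submodule.subset_span ⟨g, rfl⟩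
    | zero => simp
    | add Y Y' _ _ h₁ h₂ => rw [Matrix.map_add _ (map_add _)]; exact add_mem h₁ h₂
    | smul c Y _ h₁ =>
      rw [show (c • Y).map (residue (ResidueField O)) =
        residue (ResidueField O) c • Y.map (residue _) from Matrix.ext fun i j => by simp]
      exact Submodule.smul_mem _ _ h₁

end Fermat.Agent.Engine.Top

end
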