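import Fermat.Agent.Engine.Top.Coeff
import Fermat.Agent.Engine.Goals
import Fermat.Agent.Engine.TW.Vanishing
import Fermat.Agent.BigImage.BaseChange
import Fermat.Agent.BigImage.IndexTwo
import Fermat.Agent.EllTorsion.Count
import Fermat.Agent.EllTorsion.Galois
import Fermat.Agent.EllFrobenius.Rat
import Fermat.Agent.DefRing.NormalForm
import Fermat.Agent.DefRing.Burnside
import Fermat.Agent.Deform.Cyclotomic

/-!
# The residual data of the engine: `W[p]` in a basis

The residual representation is defined over `𝔽_p` and mapped to the residue field of the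
coefficient ring.
-/

set_option autoImplicit false

noncomputable section

open IsLocalRing Fermat.Agent.DefRing
open scoped WeierstrassCurve.Affine TensorProduct

namespace Fermat.Agent.Engine.Top

local notation "Qbar" => AlgebraicClosure ℚ

variable {W : WeierstrassCurve ℤ} {p : ℕ} [Fact p.Prime]

/-- The residual representation of `W` over a coefficient ring. -/
structure ResidualData (W : WeierstrassCurve ℤ) (C : Coeff p) where
  /-- normal form data -/
  D : NormalData C.O
  /-- a basis of `W[p]` -/
  basis : Module.Basis (Fin 2) (ZMod p)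
    (Submodule.torsionBy ℤ ((W.map (Int.castRingHom ℚ))⁄Qbar).Point p)
  rbar_eq : ∀ σ, D.rbar σ = (LinearMap.toMatrix basis basis
    (WeierstrassCurve.Affine.Point.galoisRepModuleEnd (K := Qbar) ℚ
      (W.map (Int.castRingHom ℚ)) p σ)).map C.resHom

/-- The curve of the residual hypotheses is elliptic. -/
theorem isElliptic_of_residual (h : OddResidual W p) : (W.map (Int.castRingHom ℚ)).IsElliptic :=
  BigImage.isElliptic_of_Δ_ne_zero h.delta_ne_zero

/-- The `p`-torsion has order `p ^ 2`. -/
theorem natCard_torsion (h : OddResidual W p) :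
    Nat.card (Submodule.torsionBy ℤ ((W.map (Int.castRingHom ℚ))⁄Qbar).Point p) = p ^ 2 := by
  have := isElliptic_of_residual h
  exact EllTorsion.natCard_torsionBy_baseChange (W.map (Int.castRingHom ℚ)) Qbar p
    (Nat.cast_ne_zero.2 (Fact.out : p.Prime).ne_zero)

/-- The torsion representation factors through a finite level. -/
theorem torsion_finiteLevel (h : OddResidual W p) :
    GaloisFactorsThroughFiniteLevel (WeierstrassCurve.Affine.Point.galoisRepModuleEnd
      (K := Qbar) ℚ (W.map (Int.castRingHom ℚ)) p) := by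
  have := isElliptic_of_residual h
  exact EllTorsion.galoisFactorsThroughFiniteLevel_galoisRepModuleEnd _
    (Fact.out : p.Prime).ne_zero

/-- Residual data exist. -/
theorem nonempty_residualData (h : OddResidual W p) (C : Coeff p) :
    Nonempty (ResidualData W C) := by
  have := isElliptic_of_residual h
  have hp2 : p ≠ 2 := h.ne_two
  let ρ := (W.map (Int.castRingHom ℚ)).residualGaloisRepOf p (natCard_torsion h)
    (torsion_finiteLevel h)
  let b : Module.Basis (Fin 2) (ZMod p) ρ.V := Module.finBasisOfFinrankEq _ _ ρ.finrank_eq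
  let φ := C.resHom
  let : Algebra (ZMod p) (ResidueField C.O) := φ.toAlgebra
  let bk : Module.Basis (Fin 2) (ResidueField C.O) (ρ.baseChangeAlong φ).V :=
    Algebra.TensorProduct.basis (ResidueField C.O) b
  obtain ⟨D, hD⟩ := exists_normalData (ρ.baseChangeAlong φ)
    (BigImage.residual_baseChangeAlong_isAbsolutelyIrreducible hp2 h.irreducible φ) bk
  exact ⟨⟨D, b, fun σ => (hD σ).trans (LinearMap.toMatrix_baseChange _ (ρ.ρ σ) b b)⟩⟩

namespace ResidualData

variable {C : Coeff p} (R : ResidualData W C)

/-- The representation over the prime field. -/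
def primeRep : GQ →* Matrix (Fin 2) (Fin 2) (ZMod p) :=
  (LinearMap.toMatrixAlgEquiv R.basis).toRingEquiv.toRingHom.toMonoidHom.comp
    (WeierstrassCurve.Affine.Point.galoisRepModuleEnd (K := Qbar) ℚ
      (W.map (Int.castRingHom ℚ)) p)

/-- The residual representation is the torsion matrix with coefficients extended. -/
theorem rbar_eq_map (σ : GQ) : R.D.rbar σ = (R.primeRep σ).map C.resHom := R.rbar_eq σ

/-- The residual representation is trivial exactly when the torsion action is. -/
theorem rbar_eq_one_iff {σ : GQ} :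
    R.D.rbar σ = 1 ↔ WeierstrassCurve.Affine.Point.galoisRepModuleEnd (K := Qbar) ℚ
      (W.map (Int.castRingHom ℚ)) p σ = 1 := by
  rw [R.rbar_eq]
  constructor
  · intro h
    apply (LinearMap.toMatrix R.basis R.basis).injective
    refine Matrix.map_injective C.resHom.injective ?_
    show (LinearMap.toMatrix R.basis R.basis _).map C.resHom =
      (LinearMap.toMatrix R.basis R.basis 1).map C.resHom
    rw [h, LinearMap.toMatrix_one, Matrix.map_one _ (map_zero _) (map_one _)]
  · intro h
    rw [h, LinearMap.toMatrix_one, Matrix.map_one _ (map_zero _) (map_one _)]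

/-- The residual representation factors through a finite level. -/
theorem finiteLevel (h : OddResidual W p) :
    GaloisFactorsThroughFiniteLevel (R.D.rbar : GQ →* _) := by
  obtain ⟨L, hL, hσ⟩ := torsion_finiteLevel h
  exact ⟨L, hL, fun σ hs => R.rbar_eq_one_iff.2 (hσ σ hs)⟩

/-- The determinant is the cyclotomic character. -/
theorem det_rbar (h : OddResidual W p) (χ : GQ → ResidueField C.O) (hχ : IsCyclotomicModP p χ)
    (σ : GQ) : (R.D.rbar σ).det = χ σ := by
  have := isElliptic_of_residual h
  obtain ⟨a, ha⟩ := Deform.exists_exponent_level (Fact.out : p.Prime) σ 1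
  have hd := (BigImage.residual_detIsCyclotomic (E := W.map (Int.castRingHom ℚ)) (p := p)
    (hcard := natCard_torsion h) (hker := torsion_finiteLevel h)).2 1 σ a ha
  rw [pow_one, ZMod.natCast_self, Ideal.span_singleton_eq_bot.2 rfl, Ideal.mem_bot,
    sub_eq_zero] at hd
  change LinearMap.det (WeierstrassCurve.Affine.Point.galoisRepModuleEnd (K := Qbar) ℚ
      (W.map (Int.castRingHom ℚ)) p σ) = (a : ZMod p) at hd
  rw [hχ σ a fun μ hμ => ha μ (by rwa [pow_one]), R.rbar_eq, ← RingHom.mapMatrix_apply,
    ← RingHom.map_det, LinearMap.det_toMatrix, hd, map_natCast]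

/-- The trace of Frobenius at a good prime. -/
theorem trace_frob {ℓ : ℕ} (hℓ : ℓ.Prime) (hℓp : ℓ ≠ p) (hgood : W.IsGoodPrimeFor ℓ)
    {A : ValuationSubring Qbar} (hA : A.LiesOverPrime ℓ) {σ : GQ} (hσ : A.IsFrobeniusAt σ ℓ) :
    (R.D.rbar σ).trace = (W.apOfModel ℓ : ResidueField C.O) := by
  have : Fact ℓ.Prime := ⟨hℓ⟩
  have ht := EllFrobenius.galoisTrace_eq_apOfModel W ℓ p hℓp hgood A σ hA hσ
  rw [WeierstrassCurve.Affine.Point.galoisTrace_def,
    LinearMap.trace_eq_matrix_trace (ZMod p) R.basis] at ht
  rw [R.rbar_eq, ← map_intCast C.resHom, ← ht]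
  exact (AddMonoidHom.map_trace C.resHom.toAddMonoidHom _).symm

/-- Irreducible on subgroups of index at most two, over every extension. -/
theorem indexTwo (h : OddResidual W p) : TW.IndexTwoIrreducible R.D.rbar := by
  have := isElliptic_of_residual h
  have hp2 : p ≠ 2 := h.ne_two
  intro K _ _ G hG V hV
  let : Algebra (ZMod p) K := ((algebraMap (ResidueField C.O) K).comp C.resHom).toAlgebra
  let ρ := (W.map (Int.castRingHom ℚ)).residualGaloisRepOf p (natCard_torsion h)
    (torsion_finiteLevel h)
  let bK : Module.Basis (Fin 2) K (ρ.baseChange K).V := Algebra.TensorProduct.basis K R.basis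
  have hmat : ∀ σ, LinearMap.toMatrix bK bK ((ρ.baseChange K).ρ σ) =
      (R.D.rbar σ).map (algebraMap (ResidueField C.O) K) := fun σ => by
    rw [R.rbar_eq, Matrix.map_map]
    exact LinearMap.toMatrix_baseChange K (ρ.ρ σ) R.basis R.basis
  let U : Submodule K (ρ.baseChange K).V := V.comap bK.equivFun.toLinearMap
  have hU : ∀ σ ∈ G, ∀ x ∈ U, (ρ.baseChange K).ρ σ x ∈ U := fun σ hσ x hx => by
    have h1 := hV σ hσ _ (Submodule.mem_comap.1 hx)
    rw [← hmat σ] at h1
    have h2 := LinearMap.toMatrix_mulVec_repr bK bK ((ρ.baseChange K).ρ σ) x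
    show bK.equivFun ((ρ.baseChange K).ρ σ x) ∈ V
    rw [Module.Basis.equivFun_apply, ← h2]
    exact h1
  have key : U = ⊥ ∨ U = ⊤ := by
    rcases hG with hG | hG
    · exact BigImage.residual_irreducibleOver_top (hcard := natCard_torsion h)
        (hker := torsion_finiteLevel h) hp2 h.irreducible K U fun σ _ =>
          hU σ (Subgroup.index_eq_one.1 hG ▸ Subgroup.mem_top σ)
    · exact h.indexTwo (natCard_torsion h) (torsion_finiteLevel h) K G hG U hU
  have hsur := bK.equivFun.surjective
  rcases key with hk | hk
  · left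
    rw [← Submodule.map_comap_eq_of_surjective (f := bK.equivFun.toLinearMap) hsur V]
    exact (congrArg (Submodule.map bK.equivFun.toLinearMap) hk).trans (Submodule.map_bot _)
  · right
    rw [← Submodule.map_comap_eq_of_surjective (f := bK.equivFun.toLinearMap) hsur V]
    exact (congrArg (Submodule.map bK.equivFun.toLinearMap) hk).trans
      (by rw [Submodule.map_top]; exact LinearEquiv.range _)

/-- The first cohomology of the image vanishes. -/
theorem imageVanishing (h : Residual W p) {χ : GQ → ResidueField C.O}
    (hχ : IsCyclotomicModP p χ) :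
    letI : Algebra (ZMod p) (ResidueField C.O) := ZMod.algebra _ p
    TW.ImageVanishing p R.D.rbar χ := by
  let : Algebra (ZMod p) (ResidueField C.O) := ZMod.algebra _ p
  refine TW.imageVanishing_of_primeField h.five_le (R.indexTwo h) hχ (R.det_rbar h χ hχ)
    R.primeRep 1 1 (one_mul 1) fun σ => ?_
  rw [one_mul, mul_one, R.rbar_eq_map,
    show algebraMap (ZMod p) (ResidueField C.O) = C.resHom from RingHom.ext_zmod _ _]

/-- The eigenvalues of every residual matrix are rational. -/
theorem exists_eigenvalues (σ : GQ) :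
    ∃ α β : ResidueField C.O, (R.D.rbar σ).trace = α + β ∧ (R.D.rbar σ).det = α * β := by
  obtain ⟨α, β, h1, h2⟩ := C.exists_roots (R.primeRep σ).trace (R.primeRep σ).det
  refine ⟨α, β, ?_, ?_⟩
  · rw [h1, R.rbar_eq_map]
    exact (AddMonoidHom.map_trace C.resHom.toAddMonoidHom _).symm
  · rw [h2, R.rbar_eq_map, RingHom.map_det]
    rfl

end ResidualData

end Fermat.Agent.Engine.Top
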