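import Fermat.Agent.Engine.Top.Place

/-!
# The quadratic relation of the further generator

On every level ring of the ordinary condition, the defect kills the value at the Kummer element,
so an entry `z` of it and `w = defect + z` satisfy `z (z - w) = 0`.
-/

set_option autoImplicit false

noncomputable section

open IsLocalRing Fermat.Agent.DefRing Fermat.Agent.Deform

namespace Fermat.Agent.Engine.Top

local notation "Qbar" => AlgebraicClosure ℚ

variable {W : WeierstrassCurve ℤ} {p : ℕ} [Fact p.Prime] {C : Coeff p}

namespace ResidualData

variable (R : ResidualData W C) (Ch : PlaceChoice C) {T : Finset ℕ} {S : Finset ℕ}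
  (P : ((R.ordLevel Ch T).withSigma S).RepRing)

/-- Level rings are ordinary at the chosen place. -/
theorem isOrdinaryOn_rep : IsOrdinaryOn Ch.P C.cyclo P.rep :=
  (mem'_ordinaryClosed P.instIsLocalHom P.residue_surjective).1 P.isLift.atPlace

/-- The defect kills the value at the Kummer element. -/
theorem defect_smul_rep : Ch.defect P.rep • (P.rep Ch.s - 1) = 0 :=
  Ch.defect_smul_sub_one P.instIsLocalHom P.residue_surjective P.isLift.cont
    (fun σ _ => P.isLift.eqs.det σ) (R.isOrdinaryOn_rep Ch P)

/-- The quadratic relation. -/
theorem quad_rep (i j : Fin 2) :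
    (P.rep Ch.s - 1) i j *
      ((P.rep Ch.s - 1) i j - (Ch.defect P.rep + (P.rep Ch.s - 1) i j)) = 0 := by
  have h : Ch.defect P.rep * (P.rep Ch.s - 1) i j = 0 :=
    congrFun (congrFun (R.defect_smul_rep Ch P) i) j
  linear_combination -h

end ResidualData

end Fermat.Agent.Engine.Top

end
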