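import Fermat.Agent.Engine.LevelRing
import Fermat.Agent.Engine.Galois

/-!
# Closed conditions at `p`: ordinary on inertia, and strict on the decomposition group

With the unit root as a function of two traces, and what the conditions give to first order.
-/

set_option autoImplicit false

noncomputable section

open IsLocalRing Fermat.Agent.DefRing Fermat.Agent.Deform

namespace Fermat.Agent.Engine.Top

local notation "Qbar" => AlgebraicClosure ℚ

variable {O : Type} [CommRing O]

/-- `χ` agrees with the action on `p`-power roots of unity. -/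
def IsPadicCyclotomic (p : ℕ) (χ : GQ → O) : Prop :=
  ∀ (n : ℕ) (σ : GQ) (a : ℕ), (∀ μ : Qbar, μ ^ p ^ n = 1 → σ μ = μ ^ a) →
    χ σ - (a : O) ∈ Ideal.span {(p : O) ^ n}

/-- The unit root of an ordinary representation, from the traces of a Frobenius element `φ` and
of `σ₀ * φ`, for `σ₀` in inertia with `χ σ₀ - 1` a unit. -/
def unitRoot (χ : GQ → O) (σ₀ φ : GQ) {A : Type} [CommRing A] [Algebra O A] (N : MRep A) : A :=
  algebraMap O A (Ring.inverse (χ σ₀ - 1)) *
    (algebraMap O A (χ σ₀) * (N φ).trace - (N (σ₀ * φ)).trace)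

/-- The unit root commutes with algebra maps. -/
theorem map_unitRoot (χ : GQ → O) (σ₀ φ : GQ) {A B : Type} [CommRing A] [Algebra O A]
    [CommRing B] [Algebra O B] (f : A →ₐ[O] B) (N : MRep A) :
    f (unitRoot χ σ₀ φ N) = unitRoot χ σ₀ φ (mapRep (f : A →+* B) N) := by
  simp only [unitRoot, map_mul f, map_sub, AlgHom.commutes, mapRep_apply, Matrix.trace_fin_two,
    map_add, Matrix.map_apply, RingHom.coe_coe]

/-- The matrix of coordinates at an element. -/
def matAt {G A : Type} (e : G × Fin 2 × Fin 2 → A) (σ : G) : Matrix (Fin 2) (Fin 2) A :=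
  Matrix.of fun a b => e (σ, a, b)

/-- The ordinary equations `(σ - χ σ) (τ - 1) = 0` on inertia, in coordinates. -/
def ordinaryMap (P : ValuationSubring Qbar) (χ : GQ → O) :
    CoordMap O (P.decompositionSubgroup ℚ × Fin 2 × Fin 2)
      (({σ : P.decompositionSubgroup ℚ // (σ : GQ) ∈ P.inertiaSubgroupIn ℚ} ×
        {σ : P.decompositionSubgroup ℚ // (σ : GQ) ∈ P.inertiaSubgroupIn ℚ}) × Fin 2 × Fin 2) where
  val A _ _ e j := ((matAt e j.1.1.1 - algebraMap O A (χ j.1.1.1) • 1) *
    (matAt e j.1.2.1 - 1)) j.2.1 j.2.2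
  natural A B _ _ _ _ f e j := by
    simp only [Matrix.mul_apply, Fin.sum_univ_two, Matrix.sub_apply, Matrix.smul_apply,
      Matrix.one_apply, matAt, Matrix.of_apply, map_add, map_mul, map_sub, smul_eq_mul,
      apply_ite f, map_one, map_zero, AlgHom.commutes]

/-- The strict equations `(σ - γ σ χ σ) (τ - γ τ) = 0` on the decomposition group. -/
def strictMap (P : ValuationSubring Qbar) (χ γ : GQ → O) :
    CoordMap O (P.decompositionSubgroup ℚ × Fin 2 × Fin 2)
      ((P.decompositionSubgroup ℚ × P.decompositionSubgroup ℚ) × Fin 2 × Fin 2) where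
  val A _ _ e j := ((matAt e j.1.1 - algebraMap O A (γ j.1.1 * χ j.1.1) • 1) *
    (matAt e j.1.2 - algebraMap O A (γ j.1.2) • 1)) j.2.1 j.2.2
  natural A B _ _ _ _ f e j := by
    simp only [Matrix.mul_apply, Fin.sum_univ_two, Matrix.sub_apply, Matrix.smul_apply,
      Matrix.one_apply, matAt, Matrix.of_apply, map_add, map_mul, map_sub, smul_eq_mul,
      apply_ite f, map_one, map_zero, AlgHom.commutes]

variable [IsLocalRing O]

/-- Ordinary on inertia, as a closed condition. -/
def ordinaryClosed (P : ValuationSubring Qbar) (χ : GQ → O) :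
    Closed O (P.decompositionSubgroup ℚ × Fin 2 × Fin 2) :=
  Closed.equations (ordinaryMap P χ)

/-- Strict on the decomposition group, as a closed condition. -/
def strictClosed (P : ValuationSubring Qbar) (χ γ : GQ → O) :
    Closed O (P.decompositionSubgroup ℚ × Fin 2 × Fin 2) :=
  Closed.equations (strictMap P χ γ)

/-- The ordinary equations of a representation. -/
def IsOrdinaryOn (P : ValuationSubring Qbar) (χ : GQ → O) {A : Type} [CommRing A] [Algebra O A]
    (N : MRep A) : Prop :=
  ∀ σ ∈ P.inertiaSubgroupIn ℚ, ∀ τ ∈ P.inertiaSubgroupIn ℚ,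
    (N σ - algebraMap O A (χ σ) • 1) * (N τ - 1) = 0

/-- The strict equations of a representation. -/
def IsStrictOn (P : ValuationSubring Qbar) (χ γ : GQ → O) {A : Type} [CommRing A] [Algebra O A]
    (N : MRep A) : Prop :=
  ∀ σ ∈ P.decompositionSubgroup ℚ, ∀ τ ∈ P.decompositionSubgroup ℚ,
    (N σ - algebraMap O A (γ σ * χ σ) • 1) * (N τ - algebraMap O A (γ τ) • 1) = 0

omit [IsLocalRing O] in
/-- Inertia lies in the decomposition group. -/
theorem mem_decomposition_of_mem_inertia {P : ValuationSubring Qbar} {σ : GQ}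
    (h : σ ∈ P.inertiaSubgroupIn ℚ) : σ ∈ P.decompositionSubgroup ℚ := by
  obtain ⟨τ, -, rfl⟩ := h
  exact τ.2

omit [IsLocalRing O] in
/-- The ordinary equations cut out the ordinary representations. -/
theorem ordinaryMap_eq_zero_iff {P : ValuationSubring Qbar} {χ : GQ → O} {A : Type} [CommRing A]
    [Algebra O A] {N : MRep A} :
    (∀ j, (ordinaryMap P χ).val (coordsOf fun τ : P.decompositionSubgroup ℚ => N (τ : GQ)) j = 0) ↔
      IsOrdinaryOn P χ N := by
  constructor
  · intro h σ hσ τ hτ
    ext a b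
    exact h ((⟨⟨σ, mem_decomposition_of_mem_inertia hσ⟩, hσ⟩,
      ⟨⟨τ, mem_decomposition_of_mem_inertia hτ⟩, hτ⟩), a, b)
  · rintro h ⟨⟨σ, τ⟩, a, b⟩
    exact congrFun (congrFun (h _ σ.2 _ τ.2) a) b

omit [IsLocalRing O] in
/-- The strict equations cut out the strict representations. -/
theorem strictMap_eq_zero_iff {P : ValuationSubring Qbar} {χ γ : GQ → O} {A : Type} [CommRing A]
    [Algebra O A] {N : MRep A} :
    (∀ j, (strictMap P χ γ).val (coordsOf fun τ : P.decompositionSubgroup ℚ => N (τ : GQ)) j = 0) ↔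
      IsStrictOn P χ γ N := by
  constructor
  · intro h σ hσ τ hτ
    ext a b
    exact h ((⟨σ, hσ⟩, ⟨τ, hτ⟩), a, b)
  · rintro h ⟨⟨σ, τ⟩, a, b⟩
    exact congrFun (congrFun (h _ σ.2 _ τ.2) a) b

omit [IsLocalRing O] in
/-- Membership in the ordinary condition. -/
theorem mem_ordinaryClosed {P : ValuationSubring Qbar} {χ : GQ → O} {A : Type} [CommRing A]
    [IsLocalRing A] [Algebra O A] {N : MRep A} :
    (ordinaryClosed P χ).mem (coordsOf fun τ : P.decompositionSubgroup ℚ => N (τ : GQ)) ↔
      IsOrdinaryOn P χ N :=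
  ordinaryMap_eq_zero_iff

omit [IsLocalRing O] in
/-- Membership in the strict condition. -/
theorem mem_strictClosed {P : ValuationSubring Qbar} {χ γ : GQ → O} {A : Type} [CommRing A]
    [IsLocalRing A] [Algebra O A] {N : MRep A} :
    (strictClosed P χ γ).mem (coordsOf fun τ : P.decompositionSubgroup ℚ => N (τ : GQ)) ↔
      IsStrictOn P χ γ N :=
  strictMap_eq_zero_iff

/-- Membership in the ordinary condition for complete coefficient rings. -/
theorem mem'_ordinaryClosed {P : ValuationSubring Qbar} {χ : GQ → O} {A : Type} [CommRing A]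
    [IsLocalRing A] [IsNoetherianRing A] [IsAdicComplete (maximalIdeal A) A] [Algebra O A]
    (hl : IsLocalHom (algebraMap O A)) (hs : Function.Surjective (residue A ∘ algebraMap O A))
    {N : MRep A} :
    (ordinaryClosed P χ).Mem' (coordsOf fun τ : P.decompositionSubgroup ℚ => N (τ : GQ)) ↔
      IsOrdinaryOn P χ N :=
  (Closed.mem'_equations hl hs).trans ordinaryMap_eq_zero_iff

attribute [local instance 10000] dualAlgebra in
/-- The first order part of a product `(X - a) (Y - b)`. -/
theorem snd_map_sub_mul_sub {X Y : Matrix (Fin 2) (Fin 2) (DualNumber (ResidueField O))}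
    (a b : O) :
    ((X - algebraMap O (DualNumber (ResidueField O)) a • 1) *
        (Y - algebraMap O (DualNumber (ResidueField O)) b • 1)).map TrivSqZeroExt.snd =
      X.map TrivSqZeroExt.snd * (Y.map TrivSqZeroExt.fst - residue O b • 1) +
        (X.map TrivSqZeroExt.fst - residue O a • 1) * Y.map TrivSqZeroExt.snd := by
  ext i j
  fin_cases i <;> fin_cases j <;>
    simp [Matrix.mul_apply, Fin.sum_univ_two, dual_algebraMap] <;> ring

attribute [local instance 10000] dualAlgebra in
/-- A first order point of the ordinary condition satisfies the first order ordinary equations. -/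
theorem ordinaryCond_cocOf {P : ValuationSubring Qbar} {χ : GQ → O} {ρ : MRep (ResidueField O)}
    {N : MRep (DualNumber (ResidueField O))} (hfst : ∀ σ, (N σ).map TrivSqZeroExt.fst = ρ σ)
    (h : (ordinaryClosed P χ).mem (coordsOf fun τ : P.decompositionSubgroup ℚ => N (τ : GQ))) :
    OrdinaryCond ρ (fun σ => residue O (χ σ)) P (cocOf ρ N) := by
  intro σ hσ τ hτ
  have h0 := mem_ordinaryClosed.1 h σ hσ τ hτ
  have h2 := snd_map_sub_mul_sub (X := N σ) (Y := N τ) (χ σ) 1
  simp only [map_one, one_smul, hfst] at h2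
  rw [h0] at h2
  rw [show cocOf ρ N σ * ρ σ = (N σ).map TrivSqZeroExt.snd from (snd_eq_cocOf_mul σ).symm,
    show cocOf ρ N τ * ρ τ = (N τ).map TrivSqZeroExt.snd from (snd_eq_cocOf_mul τ).symm]
  refine h2.symm.trans ?_
  ext a b; simp

attribute [local instance 10000] dualAlgebra in
/-- A first order point of the strict condition satisfies the first order strict equations. -/
theorem strictCond_cocOf {P : ValuationSubring Qbar} {χ γ : GQ → O} {ρ : MRep (ResidueField O)}
    {N : MRep (DualNumber (ResidueField O))} (hfst : ∀ σ, (N σ).map TrivSqZeroExt.fst = ρ σ)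
    (h : (strictClosed P χ γ).mem (coordsOf fun τ : P.decompositionSubgroup ℚ => N (τ : GQ))) :
    StrictCond ρ (fun σ => residue O (χ σ)) (fun σ => residue O (γ σ)) P (cocOf ρ N) := by
  intro σ hσ τ hτ
  have h0 := mem_strictClosed.1 h σ hσ τ hτ
  have h2 := snd_map_sub_mul_sub (X := N σ) (Y := N τ) (γ σ * χ σ) (γ τ)
  rw [h0] at h2
  simp only [hfst, map_mul] at h2
  rw [show cocOf ρ N σ * ρ σ = (N σ).map TrivSqZeroExt.snd from (snd_eq_cocOf_mul σ).symm,
    show cocOf ρ N τ * ρ τ = (N τ).map TrivSqZeroExt.snd from (snd_eq_cocOf_mul τ).symm]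
  refine h2.symm.trans ?_
  ext a b; simp

end Fermat.Agent.Engine.Top
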