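import Fermat.Agent.Engine.Top.Residual
import Fermat.Agent.Engine.Top.AtP
import Fermat.Agent.Engine.Levels
import Fermat.Agent.EigenRep.Cyclotomic
import Fermat.Agent.MultRed.Galois
import Fermat.Agent.TameInertia.Presentation

/-!
# Ramification, determinant and local choices of the residual data

`Smin` is the set of primes other than `p` where `W[p]` is ramified; `levelData` is the level with
ramification at `Smin`, at a set `T` of further primes and at `p`, and a given condition at `p`.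
-/

set_option autoImplicit false

noncomputable section

open IsLocalRing Fermat.Agent.DefRing Fermat.Agent.Deform
open scoped WeierstrassCurve.Affine

namespace Fermat.Agent.Engine.Top

local notation "Qbar" => AlgebraicClosure ℚ

variable {W : WeierstrassCurve ℤ} {p : ℕ} [Fact p.Prime]

/-- The `p`-adic cyclotomic character in the coefficient ring. -/
def Coeff.cyclo (C : Coeff p) (σ : GQ) : C.O := C.ι₀ (EigenRep.epsilonPadic p σ : ℤ_[p])

/-- `cyclo` is the `p`-adic cyclotomic character. -/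
theorem Coeff.isPadicCyclotomic (C : Coeff p) : IsPadicCyclotomic p C.cyclo := by
  intro n σ a ha
  obtain ⟨ζ, hζ⟩ := EigenRep.exists_primitiveRoot (p := p) n
  have h := EigenRep.toZModPow_epsilon_eq hζ (ha ζ hζ.pow_eq_one)
  rw [← map_natCast (PadicInt.toZModPow (p := p) n), ← sub_eq_zero, ← map_sub,
    ← RingHom.mem_ker, PadicInt.ker_toZModPow, Ideal.mem_span_singleton] at h
  obtain ⟨c, hc⟩ := h
  refine Ideal.mem_span_singleton.2 ⟨C.ι₀ c, ?_⟩
  rw [Coeff.cyclo, ← map_natCast C.ι₀ a, ← map_sub, hc, map_mul, map_pow, map_natCast]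

/-- `cyclo` reduces to the cyclotomic character modulo `p`. -/
theorem Coeff.residue_cyclo (C : Coeff p) :
    IsCyclotomicModP p fun σ => residue C.O (C.cyclo σ) := by
  intro σ a ha
  have h := C.isPadicCyclotomic 1 σ a fun μ hμ => ha μ (by rwa [pow_one] at hμ)
  rw [pow_one, Ideal.mem_span_singleton] at h
  obtain ⟨c, hc⟩ := h
  have h1 := congrArg (residue C.O) hc
  rw [map_sub, map_natCast, map_mul, map_natCast, CharP.cast_eq_zero (ResidueField C.O) p,
    zero_mul, sub_eq_zero] at h1
  exact h1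

/-- `cyclo` at a Frobenius. -/
theorem Coeff.cyclo_frob (C : Coeff p) {ℓ : ℕ} (hℓ : ℓ.Prime) (hℓp : ℓ ≠ p)
    {A : ValuationSubring Qbar} (hA : A.LiesOverPrime ℓ) {σ : GQ} (hσ : A.IsFrobeniusAt σ ℓ) :
    C.cyclo σ = ℓ := by
  rw [Coeff.cyclo, EigenRep.epsilon_frobenius hℓ hℓp hA hσ, map_natCast]

/-- `cyclo` is trivial on inertia away from `p`. -/
theorem Coeff.cyclo_inertia (C : Coeff p) {q : ℕ} (hq : q.Prime) (hqp : q ≠ p)
    {A : ValuationSubring Qbar} (hA : A.LiesOverPrime q) {σ : GQ}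
    (hσ : σ ∈ A.inertiaSubgroupIn ℚ) : C.cyclo σ = 1 := by
  rw [Coeff.cyclo, EigenRep.epsilon_inertia hq hqp hA hσ, Units.val_one, map_one]

/-- The primes other than `p` at which `W[p]` is ramified. -/
def Smin (W : WeierstrassCurve ℤ) (p : ℕ) : Finset ℕ := by
  classical exact W.Δ.natAbs.primeFactors.filter fun q => q ≠ p ∧ ¬ Unramified W p q

omit [Fact p.Prime] in
/-- Membership in `Smin`. -/
theorem mem_Smin {q : ℕ} : q ∈ Smin W p ↔
    q.Prime ∧ (q : ℤ) ∣ W.Δ ∧ W.Δ ≠ 0 ∧ q ≠ p ∧ ¬ Unramified W p q := by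
  simp only [Smin, Finset.mem_filter, Nat.mem_primeFactors, Int.natAbs_ne_zero,
    Int.natCast_dvd, and_assoc]

namespace ResidualData

variable {C : Coeff p} (R : ResidualData W C)

/-- The residual representation is trivial exactly when all `p`-torsion points are fixed. -/
theorem rbar_eq_one_iff_smul {σ : GQ} : R.D.rbar σ = 1 ↔
    ∀ x : Submodule.torsionBy ℤ ((W.map (Int.castRingHom ℚ))⁄Qbar).Point p, σ • x = x := by
  rw [R.rbar_eq_one_iff]
  constructor
  · intro h x
    exact LinearMap.congr_fun h x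
  · intro h
    exact LinearMap.ext h

/-- Being unramified, in terms of the residual representation. -/
theorem unramified_iff {q : ℕ} : Unramified W p q ↔
    ∀ A : ValuationSubring Qbar, A.LiesOverPrime q →
      ∀ σ ∈ A.inertiaSubgroupIn ℚ, R.D.rbar σ = 1 :=
  forall_congr' fun _ => forall_congr' fun _ => forall_congr' fun _ => forall_congr' fun _ =>
    R.rbar_eq_one_iff_smul.symm

/-- Good primes other than `p` are unramified. -/
theorem rbar_inertia_good {q : ℕ} (hq : q.Prime) (hqp : q ≠ p) (hgood : W.IsGoodPrimeFor q)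
    {A : ValuationSubring Qbar} (hA : A.LiesOverPrime q) {σ : GQ}
    (hσ : σ ∈ A.inertiaSubgroupIn ℚ) : R.D.rbar σ = 1 := by
  rw [R.rbar_eq_one_iff_smul]
  intro x
  refine Subtype.ext (MultRed.inertia_smul_eq_of_good hq hA hgood hσ
    (fun h => hqp ((Nat.prime_dvd_prime_iff_eq hq Fact.out).1 h)) ?_)
  rw [← natCast_zsmul]
  exact (Submodule.mem_torsionBy_iff _ _).1 x.2

/-- Inertia outside `p` is unipotent. -/
theorem rbar_unipotent (h : OddResidual W p) {q : ℕ} (hq : q.Prime) (hqp : q ≠ p)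
    {A : ValuationSubring Qbar} (hA : A.LiesOverPrime q) {σ : GQ}
    (hσ : σ ∈ A.inertiaSubgroupIn ℚ) : (R.D.rbar σ - 1) * (R.D.rbar σ - 1) = 0 := by
  by_cases hgood : W.IsGoodPrimeFor q
  · rw [R.rbar_inertia_good hq hqp hgood hA hσ, sub_self, zero_mul]
  have hdvd : (q : ℤ) ∣ W.Δ := not_not.1 hgood
  set f := WeierstrassCurve.Affine.Point.galoisRepModuleEnd (K := Qbar) ℚ
    (W.map (Int.castRingHom ℚ)) p σ with hf
  have h0 : (f - 1) * (f - 1) = 0 := by
    refine LinearMap.ext fun x => ?_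
    have h1 : f (f x - x) = f x - x := Subtype.ext
      (MultRed.inertia_unipotent hq hA h.delta_ne_zero hdvd (h.semistable q hq hdvd) hσ
        (fun h' => hqp ((Nat.prime_dvd_prime_iff_eq hq Fact.out).1 h'))
        (by rw [← natCast_zsmul]; exact (Submodule.mem_torsionBy_iff _ _).1 x.2))
    simp only [Module.End.mul_apply, LinearMap.sub_apply, Module.End.one_apply,
      LinearMap.zero_apply]
    rw [h1, sub_self]
  have h2 := congrArg (LinearMap.toMatrixAlgEquiv R.basis) h0
  rw [map_mul, map_sub, map_one, map_zero] at h2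
  have h3 := congrArg C.resHom.mapMatrix h2
  rw [map_mul, map_sub, map_one, map_zero] at h3
  rw [R.rbar_eq]
  exact h3

/-- Outside `Smin` and `p` the residual representation is unramified. -/
theorem rbar_inertia_of_not_mem (h : OddResidual W p) {q : ℕ} (hq : q.Prime) (hqS : q ∉ Smin W p)
    (hqp : q ≠ p) {A : ValuationSubring Qbar} (hA : A.LiesOverPrime q) {σ : GQ}
    (hσ : σ ∈ A.inertiaSubgroupIn ℚ) : R.D.rbar σ = 1 := by
  by_cases hgood : W.IsGoodPrimeFor q
  · exact R.rbar_inertia_good hq hqp hgood hA hσ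
  · have hu : Unramified W p q := by
      by_contra hu
      exact hqS (mem_Smin.2 ⟨hq, not_not.1 hgood, h.delta_ne_zero, hqp, hu⟩)
    exact R.unramified_iff.1 hu A hA σ hσ

/-- An element of inertia at a prime of `Smin` acts nontrivially. -/
theorem exists_ramified {q : ℕ} (hq : q ∈ Smin W p) :
    ∃ A : ValuationSubring Qbar, A.LiesOverPrime q ∧
      ∃ σ ∈ A.inertiaSubgroupIn ℚ, R.D.rbar σ ≠ 1 := by
  by_contra hc
  push Not at hc
  exact (mem_Smin.1 hq).2.2.2.2 (R.unramified_iff.2 hc)

/-- The level with ramification at `Smin`, at `T` and at `p`. -/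
def levelData (T : Finset ℕ) (P : ValuationSubring Qbar)
    (cl : Closed C.O (P.decompositionSubgroup ℚ × Fin 2 × Fin 2)) : LevelData C.O where
  D := R.D
  detChar := C.cyclo
  Sigma := Smin W p ∪ T ∪ {p}
  Smin := Smin W p
  place := P
  atPlace := cl

/-- The residual representation satisfies the level data. -/
theorem isResidual_levelData (h : OddResidual W p) (T : Finset ℕ) (P : ValuationSubring Qbar)
    (cl : Closed C.O (P.decompositionSubgroup ℚ × Fin 2 × Fin 2))
    (hcl : cl.mem (coordsOf fun σ : P.decompositionSubgroup ℚ => R.D.rbar (σ : GQ))) :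
    (R.levelData T P cl).IsResidual := by
  refine ⟨?_, ⟨fun σ => ?_, fun q hq hqS A hA σ hσ => ?_, fun q hq A hA σ hσ => ?_⟩, hcl⟩
  · intro n
    obtain ⟨L, hL, hσ⟩ := R.finiteLevel h
    exact ⟨L, hL, fun σ hs i j => by
      show (R.D.rbar σ - 1) i j ∈ _
      rw [hσ σ hs, sub_self]
      exact zero_mem _⟩
  · exact R.det_rbar h _ C.residue_cyclo σ
  · simp only [levelData, Finset.mem_union, Finset.mem_singleton, not_or] at hqS
    exact R.rbar_inertia_of_not_mem h hq hqS.1.1 hqS.2 hA hσ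
  · exact R.rbar_unipotent h (mem_Smin.1 hq).1 (mem_Smin.1 hq).2.2.2.1 hA hσ

/-- Frobenius and tame generators at the primes of `T`, with lifts of the residual Frobenius. -/
theorem exists_localChoices (h : OddResidual W p) (T : Finset ℕ)
    (hT : ∀ q ∈ T, q.Prime ∧ q ≠ p ∧ q ∉ Smin W p) (P : ValuationSubring Qbar)
    (cl : Closed C.O (P.decompositionSubgroup ℚ × Fin 2 × Fin 2)) :
    ∃ (Ch : LocalChoices T) (Φ₀ : T → Matrix (Fin 2) (Fin 2) C.O), Ch.Valid p ∧
      (∀ v, (Φ₀ v).map (residue C.O) = R.D.rbar (Ch.frob v)) ∧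
      FramedPrimes p (R.levelData T P cl) (fun v : T => (v : ℕ)) Ch.frob Ch.tame := by
  choose A hA using fun v : T => Frobenius.exists_liesOverPrime Qbar (hT v v.2).1
  choose frob hfrob using fun v : T => Frobenius.exists_isFrobeniusAt_qbar (hT v v.2).1 (hA v)
  choose tame htame using fun v : T =>
    TameInertia.exists_tameGenerator (Fact.out : p.Prime) (hT v v.2).1 (Ne.symm (hT v v.2).2.1)
      (hA v)
  choose Φ₀ hΦ₀ using fun v : T => fun i j =>
    residue_surjective (R := C.O) (R.D.rbar (frob v) i j)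
  have hp : 0 < p := (Fact.out : p.Prime).pos
  have hx : ∀ v : T, ∃ x : Qbar, x ^ p = ((v : ℕ) : Qbar) ∧ tame v x ≠ x := fun v => by
    obtain ⟨x, hx⟩ := IsAlgClosed.exists_pow_nat_eq ((v : ℕ) : Qbar) hp
    exact ⟨x, hx, (htame v).2 x hx⟩
  refine ⟨⟨frob, tame⟩, fun v => Matrix.of (Φ₀ v),
    fun v => ⟨A v, hA v, hfrob v, (htame v).1, hx v⟩, fun v => Matrix.ext fun i j => hΦ₀ v i j, ?_⟩
  exact
    { prime := fun v => (hT v v.2).1
      ne_p := fun v => (hT v v.2).2.1
      place := fun v => ⟨A v, hA v, hfrob v, (htame v).1, hx v⟩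
      residual := fun v Pl hPl σ hσ =>
        R.rbar_inertia_of_not_mem h (hT v v.2).1 (hT v v.2).2.2 (hT v v.2).2.1 hPl hσ
      det_frob := fun v => C.cyclo_frob (hT v v.2).1 (hT v v.2).2.1 (hA v) (hfrob v)
      det_tame := fun v => C.cyclo_inertia (hT v v.2).1 (hT v v.2).2.1 (hA v) (htame v).1 }

end ResidualData

end Fermat.Agent.Engine.Top
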