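import Fermat.Agent.Engine.Top.Place
import Fermat.Agent.Engine.AuxLevels
import Fermat.Agent.Engine.TWCrys.AuxLevels

/-!
# Auxiliary levels for the ordinary condition at `p`

Three cases: good reduction with `a_p ^ 2 ≢ 1`; multiplicative reduction with the Kummer element
outside the kernel of the residual representation; multiplicative reduction with it inside, where
one global variable is pinned and one further generator is needed.
-/

set_option autoImplicit false
set_option linter.unusedSectionVars false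

noncomputable section

open IsLocalRing Fermat.Agent.DefRing Fermat.Agent.Deform

namespace Fermat.Agent.Engine.Top

local notation "Qbar" => AlgebraicClosure ℚ

/-- Some entry detects the kernel of both sided ordinary equations. -/
theorem exists_entry_detects {k : Type} [Field k] {M : Matrix (Fin 2) (Fin 2) k} {w : k}
    (hw0 : w ≠ 0) (hw : w ≠ 1) (hdet : M.det = w) (hM : (M - w • 1) * (M - 1) = 0) :
    ∃ i j : Fin 2, ∀ X : Matrix (Fin 2) (Fin 2) k,
      (M - w • 1) * X = 0 → X * (M - 1) = 0 → X i j = 0 → X = 0 := by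
  classical
  obtain ⟨P, Q, hPQ, hQP, hD⟩ := LocalRingP.exists_diag_basis hw0 hw hdet hM
  have hQPm : ∀ X : Matrix (Fin 2) (Fin 2) k, P * (Q * X * P) * Q = X := fun X => by
    simp only [← mul_assoc, hPQ, one_mul, mul_assoc _ P Q, mul_one]
  set B := P * !![0, 1; 0, 0] * Q with hB
  have hB0 : B ≠ 0 := fun h0 => by
    have h1 := congrArg (fun Y => Q * Y * P) h0
    rw [hB] at h1
    simp only [← mul_assoc, hQP, one_mul, mul_assoc _ Q P, mul_one, mul_zero, zero_mul] at h1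
    simpa using congrFun (congrFun h1 0) 1
  obtain ⟨i, j, hij⟩ : ∃ i j, B i j ≠ 0 := by
    by_contra hc
    push Not at hc
    exact hB0 (Matrix.ext hc)
  refine ⟨i, j, fun X h1 h2 h3 => ?_⟩
  set Y := Q * X * P with hY
  have hconj : ∀ Z Z' : Matrix (Fin 2) (Fin 2) k, Q * Z * P * (Q * Z' * P) = Q * (Z * Z') * P :=
    fun Z Z' => by simp only [← mul_assoc, mul_assoc _ P Q, hPQ, mul_one]
  have e1 : (!![w, 0; 0, 1] - w • 1) * Y = 0 := by
    rw [← hD, show Q * M * P - w • (1 : Matrix (Fin 2) (Fin 2) k) = Q * (M - w • 1) * P by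
      rw [Matrix.mul_sub, Matrix.sub_mul, Matrix.mul_smul, mul_one, Matrix.smul_mul, hQP],
      hY, hconj, h1, mul_zero, zero_mul]
  have e2 : Y * (!![w, 0; 0, 1] - 1) = 0 := by
    rw [← hD, show Q * M * P - (1 : Matrix (Fin 2) (Fin 2) k) = Q * (M - 1) * P by
      rw [Matrix.mul_sub, Matrix.sub_mul, mul_one, hQP],
      hY, hconj, h2, mul_zero, zero_mul]
  have hne : (1 : k) - w ≠ 0 := sub_ne_zero.mpr (Ne.symm hw)
  have hne' : w - 1 ≠ 0 := sub_ne_zero.mpr hw
  have y10 : Y 1 0 = 0 := by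
    simpa [Matrix.mul_apply, Fin.sum_univ_two, hne] using congrFun (congrFun e1 1) 0
  have y11 : Y 1 1 = 0 := by
    simpa [Matrix.mul_apply, Fin.sum_univ_two, hne] using congrFun (congrFun e1 1) 1
  have y00 : Y 0 0 = 0 := by
    simpa [Matrix.mul_apply, Fin.sum_univ_two, hne'] using congrFun (congrFun e2 0) 0
  have hYE : Y = Y 0 1 • !![0, 1; 0, 0] := by
    ext a b
    fin_cases a <;> fin_cases b <;> simp [y10, y11, y00]
  have hXB : X = Y 0 1 • B := by
    conv_lhs => rw [← hQPm X, ← hY, hYE]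
    rw [Matrix.mul_smul, Matrix.smul_mul, ← hB]
  rw [hXB, Matrix.smul_apply, smul_eq_mul] at h3
  rw [hXB, (mul_eq_zero.1 h3).resolve_right hij, zero_smul]

variable {W : WeierstrassCurve ℤ} {p : ℕ} [Fact p.Prime] {C : Coeff p}

section FirstOrder

attribute [local instance 10000] dualAlgebra

variable (χ : GQ → C.O) (σ₀ g : GQ) {ρ : MRep (ResidueField C.O)}
  {N : MRep (DualNumber (ResidueField C.O))}
  (hfst : ∀ σ, (N σ).map TrivSqZeroExt.fst = ρ σ)

include hfst in
/-- The constant part of the unit root over dual numbers. -/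
theorem fst_unitRoot : (unitRoot χ σ₀ g N).fst = unitRoot χ σ₀ g ρ := by
  have hf : ∀ σ a b, (N σ a b).fst = ρ σ a b := fun σ a b => congrFun (congrFun (hfst σ) a) b
  simp [unitRoot, dual_algebraMap, Matrix.trace_fin_two, hf, ResidueField.algebraMap_eq, -map_mul]

/-- The infinitesimal part of the unit root over dual numbers. -/
theorem snd_unitRoot (ρ : MRep (ResidueField C.O)) (N : MRep (DualNumber (ResidueField C.O))) :
    (unitRoot χ σ₀ g N).snd = residue C.O (Ring.inverse (χ σ₀ - 1)) *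
      (residue C.O (χ σ₀) * (cocOf ρ N g * ρ g).trace -
        (cocOf ρ N (σ₀ * g) * ρ (σ₀ * g)).trace) := by
  rw [← snd_eq_cocOf_mul, ← snd_eq_cocOf_mul]
  simp [unitRoot, dual_algebraMap, Matrix.trace_fin_two]

end FirstOrder

namespace ResidualData

variable (R : ResidualData W C) (Ch : PlaceChoice C)

/-- The residual value of the quotient character squares to one, for multiplicative reduction. -/
theorem unitRoot_rbar_sq (h : Residual W p) (hbad : ¬ W.IsGoodPrimeFor p) :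
    unitRoot C.cyclo Ch.σ₀ Ch.φ R.D.rbar ^ 2 = 1 :=
  sub_eq_zero.1 (R.defect_rbar_mult Ch h hbad)

variable (hinv : GalCoh.Reciprocity p) (hGW : GalCoh.GreenbergWilesLe p) (h : Residual W p)
  (T : Finset ℕ) (hT : ∀ q ∈ T, q.Prime ∧ q ≠ p ∧ q ∉ Smin W p)
  (L : LocalChoices T) (hL : L.Valid p) (r₀ : T) (Φ₀ : T → Matrix (Fin 2) (Fin 2) C.O)
  (hΦ₀ : ∀ v, (Φ₀ v).map (residue C.O) = R.D.rbar (L.frob v))
  (PB : (R.ordLevel Ch T).RepRing)

include hinv hGW h hT hL hΦ₀

/-- Good ordinary reduction, `a_p ^ 2 ≢ 1`: no further generator. -/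
theorem exists_aux_good (hgood : W.IsGoodPrimeFor p) (hap : ¬ (p : ℤ) ∣ W.apOfModel p)
    (hap1 : ¬ (p : ℤ) ∣ W.apOfModel p ^ 2 - 1) :
    ∃ r, T.card ≤ r ∧ ∃ (Q : ℕ → Fin r → ℕ)
      (X : AuxLevels r r₀ L.frob L.tame Φ₀ (R.ordLevel Ch T) PB),
      X.nExtra = 0 ∧ AuxPrimes p X Q := by
  have hord := R.isOrdinaryOn_rbar Ch h (Or.inr hap)
  obtain ⟨N, hN, hu⟩ := R.unitRoot_rbar_eq Ch h
  have hne : Ch.defect R.D.rbar ≠ 0 := by
    rw [R.defect_rbar_good Ch h hgood hap]
    intro h0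
    refine hap1 ((CharP.intCast_eq_zero_iff (ResidueField C.O) p _).1 ?_)
    push_cast
    exact h0
  -- an element of the decomposition group with trivial cyclotomic value and trace `≠ ± 2`
  have hdist : ∃ σ ∈ Ch.P.decompositionSubgroup ℚ,
      residue C.O (C.cyclo σ) = 1 ∧ (R.D.rbar σ).trace ^ 2 ≠ 4 := by
    have hpp : p.Prime := Fact.out
    obtain ⟨c, hc⟩ : ∃ c : GQ →* (ZMod p)ˣ, IsCycloMod p c := exists_isCycloMod p
    obtain ⟨τ, hτ, hτc⟩ := exists_inertia_cyclo_eq hpp hc Ch.over_p (c Ch.φ)⁻¹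
    have hτD := mem_decomposition_of_mem_inertia hτ
    have hχ : residue C.O (C.cyclo (Ch.φ * τ)) = 1 := by
      have h1 : c (Ch.φ * τ) = 1 := by rw [map_mul, hτc, mul_inv_cancel]
      have h2 := C.residue_cyclo (Ch.φ * τ) 1 fun μ hμ => by
        rw [hc (Ch.φ * τ) μ hμ, h1, Units.val_one]
        congr 1
        exact ZMod.val_one p
      rw [Nat.cast_one] at h2
      exact h2
    refine ⟨Ch.φ * τ, mul_mem Ch.φ_mem hτD, hχ, fun h4 => hne ?_⟩
    have hdet : ∀ σ ∈ Ch.P.decompositionSubgroup ℚ,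
        (R.D.rbar σ).det = algebraMap C.O (ResidueField C.O) (C.cyclo σ) :=
      fun σ _ => R.det_rbar_algebraMap h σ
    have hg : Ch.φ * τ ∈ Ch.P.decompositionSubgroup ℚ := mul_mem Ch.φ_mem hτD
    set u := unitRoot C.cyclo Ch.σ₀ Ch.φ R.D.rbar with hudef
    have hu' : unitRoot C.cyclo Ch.σ₀ (Ch.φ * τ) R.D.rbar = u := by
      rw [unitRoot_mul Ch.σ₀_mem Ch.unit hord hdet Ch.φ_mem hτD,
        unitRoot_inertia Ch.σ₀_mem Ch.unit hord hdet hτ, mul_one]
    have key : u * (R.D.rbar (Ch.φ * τ)).trace = u ^ 2 + 1 := by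
      have h1 := congrArg (fun X => (quotIdem C.cyclo Ch.σ₀ R.D.rbar * X).trace)
        (cayley_hamilton_two (R.D.rbar (Ch.φ * τ)))
      have h2 := quotIdem_mul_eq Ch.σ₀_mem Ch.unit hord hdet hg
      rw [hu'] at h2
      have h3 : quotIdem C.cyclo Ch.σ₀ R.D.rbar *
          (R.D.rbar (Ch.φ * τ) * R.D.rbar (Ch.φ * τ)) =
          (u * u) • quotIdem C.cyclo Ch.σ₀ R.D.rbar := by
        rw [← mul_assoc, h2, Matrix.smul_mul, h2, smul_smul]
      simp only [Matrix.mul_add, Matrix.mul_sub, h3, Matrix.mul_smul, mul_one, mul_zero, h2,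
        Matrix.trace_add, Matrix.trace_sub, Matrix.trace_smul, Matrix.trace_zero,
        trace_quotIdem Ch.σ₀_mem Ch.unit hord hdet, smul_eq_mul, hdet _ hg,
        ResidueField.algebraMap_eq, hχ] at h1
      linear_combination -h1
    rw [PlaceChoice.defect, ← hudef]
    have h5 : (u ^ 2 - 1) ^ 2 = 0 := by
      linear_combination (-(u * (R.D.rbar (Ch.φ * τ)).trace + u ^ 2 + 1)) * key + u ^ 2 * h4
    exact pow_eq_zero_iff two_ne_zero |>.1 h5
  obtain ⟨atP, hplace, hatP⟩ := exists_ordinary_condAtP p h.five_le R.D.rbar (R.finiteLevel h)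
    (fun σ => residue C.O (C.cyclo σ)) C.residue_cyclo (R.det_rbar h _ C.residue_cyclo) Ch.P
    Ch.over_p hord hdist
  refine exists_auxLevels p h.five_le hinv hGW (R.ordLevel Ch T) PB
    (R.isResidual_ordLevel Ch h (Or.inr hap) T) (R.indexTwo h) _ C.residue_cyclo
    (R.det_rbar h _ C.residue_cyclo) (R.imageVanishing h C.residue_cyclo) atP ?_ T
    ⟨fun hp => (mem_Smin.1 hp).2.2.2.1 rfl, fun hp => (hT p hp).2.1 rfl⟩ ?_ ?_ rfl
    (fun q hq => R.exists_ramified hq)
    (fun q hq hqS hqp A hA σ hσ => R.rbar_inertia_of_not_mem h hq hqS hqp hA hσ) L hL r₀ Φ₀ hΦ₀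
  · intro N hNc hfst htr hmem
    refine hatP _ ?_ (ordinaryCond_cocOf hfst hmem)
    let := dualAlgebra (𝒪 := C.O)
    exact isAdCocycle_cocOf hNc
      (have := (isArtinianTestAlgebra_dual (𝒪 := C.O)).isArtinian
       isNilpotent_maximalIdeal_of_isArtinianRing) hfst htr
  · exact Finset.disjoint_left.2 fun q hq hq' => (hT q hq').2.2 hq
  · intro q hq
    rcases Finset.mem_union.1 hq with hq | hq
    exacts [(mem_Smin.1 hq).1, (hT q hq).1]

/-- Multiplicative reduction, the Kummer element not in the kernel: no further generator. -/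
theorem exists_aux_ram (hbad : ¬ W.IsGoodPrimeFor p) (hs : R.D.rbar Ch.s ≠ 1) :
    ∃ r, T.card ≤ r ∧ ∃ (Q : ℕ → Fin r → ℕ)
      (X : AuxLevels r r₀ L.frob L.tame Φ₀ (R.ordLevel Ch T) PB),
      X.nExtra = 0 ∧ AuxPrimes p X Q := by
  have hord := R.isOrdinaryOn_rbar Ch h (Or.inl hbad)
  have hdet : ∀ σ ∈ Ch.P.decompositionSubgroup ℚ,
      (R.D.rbar σ).det = algebraMap C.O (ResidueField C.O) (C.cyclo σ) :=
    fun σ _ => R.det_rbar_algebraMap h σ
  choose γ hγ using fun g => residue_surjective (R := C.O) (unitRoot C.cyclo Ch.σ₀ g R.D.rbar)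
  have hpow : ∀ g ∈ Ch.P.decompositionSubgroup ℚ, ∃ n : ℕ,
      unitRoot C.cyclo Ch.σ₀ g R.D.rbar = unitRoot C.cyclo Ch.σ₀ Ch.φ R.D.rbar ^ n :=
    fun g hg => exists_unitRoot_eq_pow Ch.σ₀_mem Ch.unit hord hdet Ch.over_p (R.finiteLevel h)
      Ch.frob hg
  have hu2 := R.unitRoot_rbar_sq Ch h hbad
  have hsq : ∀ g ∈ Ch.P.decompositionSubgroup ℚ, residue C.O (γ g) ^ 2 = 1 := fun g hg => by
    obtain ⟨n, hn⟩ := hpow g hg
    rw [hγ, hn, pow_right_comm, hu2, one_pow]
  have hstrict := isStrictOn_of_unitRoot Ch.σ₀_mem Ch.unit hord hdet γ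
    fun g hg => ⟨(hγ g).symm, hsq g hg⟩
  obtain ⟨atP, hplace, hatP⟩ := exists_strict_condAtP p h.five_le R.D.rbar (R.finiteLevel h)
    (fun σ => residue C.O (C.cyclo σ)) (fun σ => residue C.O (γ σ)) C.residue_cyclo
    (R.det_rbar h _ C.residue_cyclo) Ch.P Ch.over_p hsq
    (fun σ hσ => (hγ σ).trans (unitRoot_inertia Ch.σ₀_mem Ch.unit hord hdet hσ))
    (fun σ hσ τ hτ => by
      have := hstrict σ hσ τ hτ
      rwa [ResidueField.algebraMap_eq, map_mul] at this)
  refine exists_auxLevels p h.five_le hinv hGW (R.ordLevel Ch T) PB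
    (R.isResidual_ordLevel Ch h (Or.inl hbad) T) (R.indexTwo h) _ C.residue_cyclo
    (R.det_rbar h _ C.residue_cyclo) (R.imageVanishing h C.residue_cyclo) atP ?_ T
    ⟨fun hp => (mem_Smin.1 hp).2.2.2.1 rfl, fun hp => (hT p hp).2.1 rfl⟩ ?_ ?_ rfl
    (fun q hq => R.exists_ramified hq)
    (fun q hq hqS hqp A hA σ hσ => R.rbar_inertia_of_not_mem h hq hqS hqp hA hσ) L hL r₀ Φ₀ hΦ₀
  · intro N hNc hfst htr hmem
    replace hfst : ∀ σ, (N σ).map TrivSqZeroExt.fst = R.D.rbar σ := hfst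
    replace htr : ∀ σ, (cocOf R.D.rbar N σ).trace = 0 := htr
    let := dualAlgebra (𝒪 := C.O)
    have hdual := isArtinianTestAlgebra_dual (𝒪 := C.O)
    have := hdual.isArtinian
    have hdetN : ∀ σ ∈ Ch.P.decompositionSubgroup ℚ,
        (N σ).det = algebraMap C.O (DualNumber (ResidueField C.O)) (C.cyclo σ) :=
      fun σ _ => det_dual_of_trace_eq_zero C.cyclo (R.det_rbar h _ C.residue_cyclo) hfst htr σ
    have hordN : IsOrdinaryOn Ch.P C.cyclo N := mem_ordinaryClosed.1 hmem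
    have he : Ch.defect N = 0 := by
      obtain ⟨i, j, hij⟩ : ∃ i j, (R.D.rbar Ch.s - 1) i j ≠ 0 := by
        by_contra hc
        push Not at hc
        exact hs (sub_eq_zero.1 (Matrix.ext hc))
      have hf : ((N Ch.s - 1) i j).fst = (R.D.rbar Ch.s - 1) i j := by
        rw [← hfst]
        by_cases h' : i = j <;> simp [h']
      have hunit : IsUnit ((N Ch.s - 1) i j) :=
        TrivSqZeroExt.isUnit_iff_isUnit_fst.2 (by rw [hf]; exact isUnit_iff_ne_zero.2 hij)
      have h0 := congrFun (congrFun (rootDefect_smul_sub_one C.p_mem C.isPadicCyclotomic Ch.over_p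
        hdual hNc hdetN hordN Ch.σ₀_mem Ch.unit Ch.φ_mem Ch.kummer.1) i) j
      rw [Matrix.smul_apply, smul_eq_mul, Matrix.zero_apply] at h0
      exact hunit.mul_left_eq_zero.1 h0
    have hfin : ∃ M : IntermediateField ℚ Qbar, FiniteDimensional ℚ M ∧
        ∀ σ : GQ, (∀ x ∈ M, σ x = x) → N σ = 1 := hNc.finite_level
    -- the unit root at Frobenius is constant
    set u := unitRoot C.cyclo Ch.σ₀ Ch.φ N with hudef
    set a := unitRoot C.cyclo Ch.σ₀ Ch.φ R.D.rbar
    have hufst : u.fst = a := fst_unitRoot _ _ _ hfst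
    have husnd : u.snd = 0 := by
      have h2 := congrArg TrivSqZeroExt.snd he
      simp only [PlaceChoice.defect, ← hudef, sq, TrivSqZeroExt.snd_sub, TrivSqZeroExt.snd_mul,
        TrivSqZeroExt.snd_one, sub_zero, TrivSqZeroExt.snd_zero, hufst, smul_eq_mul,
        MulOpposite.smul_eq_mul_unop, MulOpposite.unop_op] at h2
      have h2' : (2 * a) * u.snd = 0 := by linear_combination h2
      refine (mul_eq_zero.1 h2').resolve_left fun h3 => ?_
      have h4 : (4 : ResidueField C.O) = 0 := by linear_combination (2 * a) * h3 - 4 * hu2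
      have h5 : ((4 : ℕ) : ResidueField C.O) = 0 := by exact_mod_cast h4
      have := Nat.le_of_dvd (by norm_num) ((CharP.cast_eq_zero_iff _ p 4).mp h5)
      have := h.five_le
      omega
    have hval : ∀ g ∈ Ch.P.decompositionSubgroup ℚ,
        unitRoot C.cyclo Ch.σ₀ g N =
          algebraMap C.O (DualNumber (ResidueField C.O)) (γ g) := fun g hg => by
      obtain ⟨n, hn⟩ := exists_unitRoot_eq_pow Ch.σ₀_mem Ch.unit hordN hdetN Ch.over_p hfin
        Ch.frob hg
      have hu' : u = TrivSqZeroExt.inl a := TrivSqZeroExt.ext hufst husnd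
      rw [← hudef, hu', TrivSqZeroExt.inl_pow] at hn
      rw [dual_algebraMap, hγ, ← fst_unitRoot _ _ _ hfst, hn, TrivSqZeroExt.fst_inl]
    refine hatP _ (isAdCocycle_cocOf hNc isNilpotent_maximalIdeal_of_isArtinianRing hfst htr)
      (strictCond_cocOf hfst (mem_strictClosed.2 (isStrictOn_of_unitRoot Ch.σ₀_mem Ch.unit hordN
        hdetN γ fun g hg => ⟨hval g hg, ?_⟩)))
    rw [← map_pow, dual_algebraMap, map_pow, hsq g hg, TrivSqZeroExt.inl_one]
  · exact Finset.disjoint_left.2 fun q hq hq' => (hT q hq').2.2 hq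
  · intro q hq
    rcases Finset.mem_union.1 hq with hq | hq
    exacts [(mem_Smin.1 hq).1, (hT q hq).1]

/-- Multiplicative reduction, the Kummer element in the kernel: an entry `z` of its value is the
further generator and `defect + z` a coordinate. -/
theorem exists_aux_unram (hbad : ¬ W.IsGoodPrimeFor p) (hs : R.D.rbar Ch.s = 1) :
    ∃ (i j : Fin 2) (r : ℕ), T.card ≤ r ∧ ∃ (Q : ℕ → Fin r → ℕ)
      (X : AuxLevels r r₀ L.frob L.tame Φ₀ (R.ordLevel Ch T) PB),
      X.nExtra = 1 ∧ AuxPrimes p X Q ∧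
      (∀ n e, X.extra n e = ((X.P n).rep Ch.s - 1) i j) ∧
      ∃ l : Fin X.g, ∀ n, X.θ n (MvPowerSeries.X (Sum.inr (Sum.inr l))) =
        MvPowerSeries.C (Ch.defect (X.P n).rep + ((X.P n).rep Ch.s - 1) i j) := by
  have hord := R.isOrdinaryOn_rbar Ch h (Or.inl hbad)
  have hdet : ∀ σ ∈ Ch.P.decompositionSubgroup ℚ,
      (R.D.rbar σ).det = algebraMap C.O (ResidueField C.O) (C.cyclo σ) :=
    fun σ _ => R.det_rbar_algebraMap h σ
  have hu2 := R.unitRoot_rbar_sq Ch h hbad
  set w := residue C.O (C.cyclo Ch.σ₀) with hwdef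
  have hw1 : w ≠ 1 := Ch.residue_cyclo_σ₀
  have hσD := mem_decomposition_of_mem_inertia Ch.σ₀_mem
  have hdet₀ : (R.D.rbar Ch.σ₀).det = w := hdet _ hσD
  have hw0 : w ≠ 0 := by
    rw [← hdet₀]
    exact (IsUnit.map Matrix.detMonoidHom ((Group.isUnit Ch.σ₀).map R.D.rbar)).ne_zero
  have hord₀ : (R.D.rbar Ch.σ₀ - w • 1) * (R.D.rbar Ch.σ₀ - 1) = 0 :=
    hord _ Ch.σ₀_mem _ Ch.σ₀_mem
  obtain ⟨i, j, hij⟩ := exists_entry_detects hw0 hw1 hdet₀ hord₀
  have hroot : (w * (R.D.rbar Ch.φ).trace - (R.D.rbar (Ch.σ₀ * Ch.φ)).trace) ^ 2 = (w - 1) ^ 2 := by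
    have h1 := hu2
    rw [unitRoot, ResidueField.algebraMap_eq, ← hwdef] at h1
    have h2 : residue C.O (Ring.inverse (C.cyclo Ch.σ₀ - 1)) * (w - 1) = 1 := by
      rw [hwdef, ← map_one (residue C.O), ← map_sub, ← map_mul,
        Ring.inverse_mul_cancel _ Ch.unit, map_one]
    set X := w * (R.D.rbar Ch.φ).trace - (R.D.rbar (Ch.σ₀ * Ch.φ)).trace
    set c := residue C.O (Ring.inverse (C.cyclo Ch.σ₀ - 1))
    linear_combination (w - 1) ^ 2 * h1 - X ^ 2 * (c * (w - 1) + 1) * h2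
  obtain ⟨small, hplace, h3, hsmall⟩ := exists_rootDefect_condAtP p h.five_le R.D.rbar
    (R.finiteLevel h) (fun σ => residue C.O (C.cyclo σ)) C.residue_cyclo
    (R.det_rbar h _ C.residue_cyclo) Ch.P Ch.over_p hord Ch.σ₀_mem hw1 Ch.frob Ch.kummer hs hroot
  refine ⟨i, j, exists_auxLevels_crys p h.five_le hinv hGW (R.ordLevel Ch T) PB
    (R.isResidual_ordLevel Ch h (Or.inl hbad) T) (R.indexTwo h) _ C.residue_cyclo
    (R.det_rbar h _ C.residue_cyclo) (R.imageVanishing h C.residue_cyclo) small h3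
    (fun {A} _ _ N => Ch.defect N + (N Ch.s - 1) i j) (fun {A} _ _ N => (N Ch.s - 1) i j)
    (fun f N => ?_) (fun f N => ?_) ?_ ?_ ?_ T
    ⟨fun hp => (mem_Smin.1 hp).2.2.2.1 rfl, fun hp => (hT p hp).2.1 rfl⟩ ?_ ?_ rfl
    (fun q hq => R.exists_ramified hq)
    (fun q hq hqS hqp A hA σ hσ => R.rbar_inertia_of_not_mem h hq hqS hqp hA hσ) L hL r₀ Φ₀ hΦ₀⟩
  · rw [map_add, Ch.map_defect]
    congr 1
    by_cases h' : i = j <;> simp [h']
  · by_cases h' : i = j <;> simp [h']
  · show Ch.defect R.D.rbar + (R.D.rbar Ch.s - 1) i j = 0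
    rw [R.defect_rbar_mult Ch h hbad, hs, sub_self, Matrix.zero_apply, add_zero]
  · show (R.D.rbar Ch.s - 1) i j = 0
    rw [hs, sub_self, Matrix.zero_apply]
  · intro N hNc hfst htr hmem hw hz
    replace hfst : ∀ σ, (N σ).map TrivSqZeroExt.fst = R.D.rbar σ := hfst
    replace htr : ∀ σ, (cocOf R.D.rbar N σ).trace = 0 := htr
    let := dualAlgebra (𝒪 := C.O)
    have := (isArtinianTestAlgebra_dual (𝒪 := C.O)).isArtinian
    set c := cocOf R.D.rbar N with hcdef
    have hoc : OrdinaryCond R.D.rbar (fun σ => residue C.O (C.cyclo σ)) Ch.P c :=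
      ordinaryCond_cocOf hfst hmem
    have he : Ch.defect N = 0 := by rw [hz, add_zero] at hw; exact hw
    have hsI := Ch.kummer.mem_inertia
    have hX1 : (R.D.rbar Ch.σ₀ - w • 1) * c Ch.s = 0 := by
      have h1 := hoc _ Ch.σ₀_mem _ hsI
      rw [hs, sub_self, mul_zero, zero_add, mul_one] at h1
      exact h1
    have hX2 : c Ch.s * (R.D.rbar Ch.σ₀ - 1) = 0 := by
      have h1 := hoc _ hsI _ Ch.σ₀_mem
      dsimp only at h1
      rw [hs, mul_one, Ch.residue_cyclo_s, one_smul, sub_self, zero_mul, add_zero] at h1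
      exact h1
    have hX3 : c Ch.s i j = 0 := by
      have h1 := congrArg TrivSqZeroExt.snd hz
      have h2 : ((N Ch.s).map TrivSqZeroExt.snd) i j = 0 := by
        rw [TrivSqZeroExt.snd_zero] at h1
        rw [Matrix.map_apply, ← h1]
        by_cases h' : i = j <;> simp [h']
      rw [snd_eq_cocOf_mul (ρ := R.D.rbar), hs, mul_one] at h2
      exact h2
    have hroot' : w * (c Ch.φ * R.D.rbar Ch.φ).trace -
        (c (Ch.σ₀ * Ch.φ) * R.D.rbar (Ch.σ₀ * Ch.φ)).trace = 0 := by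
      have h1 := congrArg TrivSqZeroExt.snd he
      simp only [PlaceChoice.defect, sq, TrivSqZeroExt.snd_sub, TrivSqZeroExt.snd_mul,
        TrivSqZeroExt.snd_one, sub_zero, TrivSqZeroExt.snd_zero,
        fst_unitRoot _ _ _ hfst, snd_unitRoot _ _ _ R.D.rbar N, smul_eq_mul,
        MulOpposite.smul_eq_mul_unop, MulOpposite.unop_op, ← hcdef, ← hwdef] at h1
      set a := unitRoot C.cyclo Ch.σ₀ Ch.φ R.D.rbar
      set d := residue C.O (Ring.inverse (C.cyclo Ch.σ₀ - 1))
      set T' := w * (c Ch.φ * R.D.rbar Ch.φ).trace -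
        (c (Ch.σ₀ * Ch.φ) * R.D.rbar (Ch.σ₀ * Ch.φ)).trace
      have h2 : d * (w - 1) = 1 := by
        rw [hwdef, ← map_one (residue C.O), ← map_sub, ← map_mul,
          Ring.inverse_mul_cancel _ Ch.unit, map_one]
      have h4 : (2 : ResidueField C.O) * T' = 0 := by
        linear_combination (a * (w - 1)) * h1 - 2 * T' * h2 - 2 * d * T' * (w - 1) * hu2
      refine (mul_eq_zero.1 h4).resolve_left fun h5 => ?_
      have h6 : ((2 : ℕ) : ResidueField C.O) = 0 := by exact_mod_cast h5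
      have := Nat.le_of_dvd two_pos ((CharP.cast_eq_zero_iff _ p 2).mp h6)
      have := h.five_le
      omega
    exact hsmall c (isAdCocycle_cocOf hNc isNilpotent_maximalIdeal_of_isArtinianRing hfst htr) hoc
      (hij _ hX1 hX2 hX3) hroot'
  · exact Finset.disjoint_left.2 fun q hq hq' => (hT q hq').2.2 hq
  · intro q hq
    rcases Finset.mem_union.1 hq with hq | hq
    exacts [(mem_Smin.1 hq).1, (hT q hq).1]

end ResidualData

end Fermat.Agent.Engine.Top
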