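import Fermat.Agent.Engine.Top.LiftTail
import Fermat.Agent.Engine.Top.PlaceAux
import Fermat.Agent.Engine.LiftingFraming
import Fermat.Agent.Engine.Lifting.Main

/-!
# Lifting without a further generator

From auxiliary levels without a further generator and residual modularity at a base level with
allowed prime divisors, the curve is modular of a level whose prime divisors divide the
discriminant.
-/

set_option autoImplicit false

noncomputable section

open IsLocalRing Fermat.Agent.DefRing Fermat.Agent.Deform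
open scoped Classical

namespace Fermat.Agent.Engine.Top

open HeckeModule TRep Lifting

local notation "Qbar" => AlgebraicClosure ℚ

variable {W : WeierstrassCurve ℤ} {p : ℕ} [Fact p.Prime] {C : Coeff p} {R : ResidualData W C}
  {Ch : PlaceChoice C} {T : Finset ℕ} {PB : (R.ordLevel Ch T).RepRing} {x : PB.R →ₐ[C.O] C.O}

/-- **Lifting without a further generator.** -/
theorem IsCurvePoint.exists_level_of_aux (hx : IsCurvePoint R Ch PB x) (h : Residual W p)
    (hcase : ¬ W.IsGoodPrimeFor p ∨ ¬ (p : ℤ) ∣ W.apOfModel p)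
    (hT : ∀ q ∈ T, q.Prime ∧ q ≠ p ∧ q ∉ Smin W p)
    (hbad : ∀ q : ℕ, q.Prime → (q : ℤ) ∣ W.Δ → q ≠ p → q ∈ Smin W p ∪ T) {N₀ : ℕ}
    (hN₀ : Squarefree N₀) (hN₀S : ∀ q : ℕ, q.Prime → q ∣ N₀ → q ∈ Smin W p ∪ {p})
    (hpN₀ : p ∣ N₀ → (p : ℤ) ∣ W.Δ) (hmod : W.IsResiduallyModularOfLevel p N₀)
    {frob tame : T → GQ}
    (hF : FramedPrimes p (R.ordLevel Ch T) (fun v : T => (v : ℕ)) frob tame) {r : ℕ} {r₀ : T}
    {Φ₀ : T → Matrix (Fin 2) (Fin 2) C.O}
    (X : AuxLevels r r₀ frob tame Φ₀ (R.ordLevel Ch T) PB) (hnE : X.nExtra = 0)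
    {Q : ℕ → Fin r → ℕ} (hX : AuxPrimes p X Q) :
    ∃ N : ℕ, 0 < N ∧ Squarefree N ∧ (∀ q : ℕ, q.Prime → q ∣ N → (q : ℤ) ∣ W.Δ) ∧
      W.IsModularModelOfLevel N := by
  have : NeZero N₀ := ⟨hN₀.ne_zero⟩
  have : Fact ((p : C.O) ∈ maximalIdeal C.O) := ⟨C.p_mem⟩
  have H : LevelSetting p C.ι₀ N₀ (apLam W C.O) (fun v : T => (v : ℕ)) (R.ordLevel Ch T) frob tame :=
    R.levelSetting_ap h hT hbad hN₀ hN₀S hmod Ch.P _ hF
  have hplace := R.topPlaceHyp_ap Ch h hcase hbad hN₀ fun q hq hd => by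
    have := hN₀S q hq hd
    simp only [Finset.mem_union] at this ⊢
    exact this.imp Or.inl id
  obtain ⟨α, ψ, hTW⟩ := H.toBaseSetting.exists_twData hX
  obtain ⟨B, hB, -⟩ := H.exists_liftingLevels hX hplace hTW
  refine hx.exists_level h hT hbad hN₀ hN₀S hpN₀ hF B (fun L _ => ?_) ?_
  · obtain ⟨e, -, he⟩ := hB L
    exact ⟨e, he⟩
  · convert B.ker_le hnE hF H.toBaseSetting.two (x : PB.R →+* C.O) fun v => ?_
    obtain ⟨A, hA, -, ht, -⟩ := hF.place v
    exact hx.trace_tame (hT v v.2).1 (hT v v.2).2.1 hA ht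

end Fermat.Agent.Engine.Top

end
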