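import Fermat.Agent.Engine.Top.CurveTate
import Fermat.Agent.BigImage.TateImage

/-!
# The lift of the residual data given by the curve

The Tate module over the coefficient ring, in normal form, with its local properties.
-/

set_option autoImplicit false
set_option linter.unusedSectionVars false

noncomputable section

open IsLocalRing Fermat.Agent.DefRing Fermat.Agent.EllLocal
open scoped WeierstrassCurve.Affine

namespace Fermat.Agent.Engine.Top

local notation "Qbar" => AlgebraicClosure ℚ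

variable {W : WeierstrassCurve ℤ} {p : ℕ} [Fact p.Prime] {C : Coeff p}

private theorem conj_mul_conj {R : Type} [CommRing R] (g : (Matrix (Fin 2) (Fin 2) R)ˣ)
    (X Y : Matrix (Fin 2) (Fin 2) R) :
    (g : Matrix (Fin 2) (Fin 2) R) * X * (↑(g⁻¹) : Matrix (Fin 2) (Fin 2) R) *
        (g * Y * (↑(g⁻¹) : Matrix (Fin 2) (Fin 2) R)) =
      g * (X * Y) * (↑(g⁻¹) : Matrix (Fin 2) (Fin 2) R) := by
  simp [mul_assoc]

/-- The ordinary equations are invariant under conjugation. -/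
theorem isOrdinaryOn_conj {P : ValuationSubring Qbar} {χ : GQ → C.O} {M N : MRep C.O}
    (g : (Matrix (Fin 2) (Fin 2) C.O)ˣ)
    (hg : ∀ σ, N σ = (g : Matrix (Fin 2) (Fin 2) C.O) * M σ * (↑(g⁻¹) : Matrix (Fin 2) (Fin 2) C.O))
    (h : IsOrdinaryOn P χ M) : IsOrdinaryOn P χ N := by
  intro σ hσ τ hτ
  have e1 : ∀ (c : C.O) (ρ : GQ), N ρ - algebraMap C.O C.O c • 1 =
      (g : Matrix (Fin 2) (Fin 2) C.O) * (M ρ - algebraMap C.O C.O c • 1) * (↑(g⁻¹) : Matrix (Fin 2) (Fin 2) C.O) := fun c ρ => by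
    rw [hg, mul_sub, sub_mul, mul_smul_comm, smul_mul_assoc, mul_one, Units.mul_inv]
  have e2 := e1 1 τ
  rw [map_one, one_smul] at e2
  rw [e1, e2, conj_mul_conj, h σ hσ τ hτ, mul_zero, zero_mul]

/-- The coefficient map is local. -/
theorem Coeff.isLocalHom (C : Coeff p) : IsLocalHom C.ι₀ := by
  refine ⟨fun a ha => ?_⟩
  by_contra hn
  have hm : a ∈ maximalIdeal ℤ_[p] := hn
  rw [PadicInt.maximalIdeal_eq_span_p, Ideal.mem_span_singleton] at hm
  obtain ⟨c, rfl⟩ := hm
  rw [map_mul, map_natCast] at ha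
  exact (mem_maximalIdeal _).1 C.p_mem (isUnit_of_mul_isUnit_left ha)

/-- The residue of a `p`-adic integer in the coefficient ring. -/
theorem Coeff.residue_ι₀ (C : Coeff p) (x : ℤ_[p]) :
    residue C.O (C.ι₀ x) = C.resHom (BigImage.modP x) := by
  have h : x - (coeffNat x 1 : ℕ) ∈ RingHom.ker (PadicInt.toZModPow (p := p) 1) := by
    rw [RingHom.mem_ker, map_sub, map_natCast, coeffNat_cast, sub_self]
  rw [PadicInt.ker_toZModPow, pow_one, Ideal.mem_span_singleton] at h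
  obtain ⟨c, hc⟩ := h
  have hp : BigImage.modP ((p : ℤ_[p])) = 0 := by rw [map_natCast, ZMod.natCast_self]
  rw [eq_add_of_sub_eq' hc, map_add, map_mul, map_natCast, map_natCast, map_add (BigImage.modP),
    map_natCast (BigImage.modP), map_mul (BigImage.modP), hp, zero_mul, add_zero, map_add, map_mul,
    map_natCast, map_natCast, map_natCast, CharP.cast_eq_zero (ResidueField C.O) p, zero_mul,
    add_zero]

section

variable [(W.map (Int.castRingHom ℚ)).IsElliptic]

/-- Two bases give conjugate matrices. -/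
theorem exists_tateMat_conj
    (b b' : Module.Basis (Fin 2) ℤ_[p] (tateModule (W.map (Int.castRingHom ℚ)) p)) :
    ∃ u : (Matrix (Fin 2) (Fin 2) ℤ_[p])ˣ, ∀ σ,
      tateMat b' σ = (u : Matrix (Fin 2) (Fin 2) ℤ_[p]) * tateMat b σ * (↑(u⁻¹) : Matrix (Fin 2) (Fin 2) ℤ_[p]) := by
  obtain ⟨u, hu⟩ := (exists_equiv_iff_exists_GL b b' (fun σ : GQ => tateAct σ)
    fun σ : GQ => tateAct σ).1 ⟨LinearEquiv.refl _ _, fun _ _ => rfl⟩
  refine ⟨u, fun σ => ?_⟩
  rw [tateMat_eq, tateMat_eq, hu σ, mul_assoc, Units.mul_inv, mul_one]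

variable {b : Module.Basis (Fin 2) ℤ_[p] (tateModule (W.map (Int.castRingHom ℚ)) p)}
  {P : ValuationSubring Qbar}

/-- The diagonal of inertia in an adapted basis. -/
theorem IsAdapted.inertia_zero_zero (hb : IsAdapted b P) {σ : GQ}
    (hσ : σ ∈ P.inertiaSubgroupIn ℚ) :
    tateMat b σ 0 0 = (EigenRep.epsilonPadic p σ : ℤ_[p]) := by
  rw [← det_tateMat b σ, Matrix.det_fin_two, hb.low σ (mem_decomposition_of_mem_inertia hσ),
    hb.quot σ hσ, mul_one, mul_zero, sub_zero]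

/-- An adapted basis makes the Tate module ordinary on inertia. -/
theorem IsAdapted.isOrdinaryOn (hb : IsAdapted b P) :
    IsOrdinaryOn P C.cyclo (mapRep C.ι₀ (tateMat b)) := by
  intro σ hσ τ hτ
  have l1 := hb.low σ (mem_decomposition_of_mem_inertia hσ)
  have l2 := hb.low τ (mem_decomposition_of_mem_inertia hτ)
  ext i j
  fin_cases i <;> fin_cases j <;>
    simp [Matrix.mul_apply, Fin.sum_univ_two, l1, l2, hb.inertia_zero_zero hσ, hb.quot σ hσ,
      hb.quot τ hτ, Coeff.cyclo]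

/-- The unit root is the quotient eigenvalue. -/
theorem IsAdapted.unitRoot_eq (hb : IsAdapted b P) {σ₀ φ : GQ}
    (hσ₀ : σ₀ ∈ P.inertiaSubgroupIn ℚ) (hu : IsUnit (C.cyclo σ₀ - 1))
    (hφ : φ ∈ P.decompositionSubgroup ℚ) :
    unitRoot C.cyclo σ₀ φ (mapRep C.ι₀ (tateMat b)) = C.ι₀ (tateMat b φ 1 1) := by
  have key : algebraMap C.O C.O (C.cyclo σ₀) * (mapRep C.ι₀ (tateMat b) φ).trace -
      (mapRep C.ι₀ (tateMat b) (σ₀ * φ)).trace =
      (C.cyclo σ₀ - 1) * C.ι₀ (tateMat b φ 1 1) := by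
    simp [Matrix.trace_fin_two, Matrix.mul_apply, Fin.sum_univ_two, hb.low φ hφ,
      hb.low σ₀ (mem_decomposition_of_mem_inertia hσ₀), hb.inertia_zero_zero hσ₀,
      hb.quot σ₀ hσ₀, Coeff.cyclo]
    ring
  rw [unitRoot, key, ← mul_assoc, Algebra.algebraMap_self, RingHom.id_apply,
    Ring.inverse_mul_cancel _ hu, one_mul]

end

namespace ResidualData

variable (R : ResidualData W C)

/-- A lift of the residual representation with the local properties of the curve. -/
structure IsCurveLift (N : MRep C.O) : Prop where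
  normal : R.D.IsNormal N
  cont : IsCont N
  red : ∀ σ, (N σ).map (residue C.O) = R.D.rbar σ
  det : ∀ σ, (N σ).det = C.cyclo σ
  unramified : ∀ q : ℕ, q.Prime → q ≠ p → W.IsGoodPrimeFor q →
    ∀ A : ValuationSubring Qbar, A.LiesOverPrime q → ∀ σ ∈ A.inertiaSubgroupIn ℚ, N σ = 1
  unipotent : ∀ q : ℕ, q.Prime → q ≠ p →
    ∀ A : ValuationSubring Qbar, A.LiesOverPrime q → ∀ σ ∈ A.inertiaSubgroupIn ℚ,
      (N σ).trace = 2 ∧ (N σ - 1) * (N σ - 1) = 0
  trace_frob : ∀ ℓ : ℕ, ℓ.Prime → ℓ ≠ p → W.IsGoodPrimeFor ℓ →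
    ∀ A : ValuationSubring Qbar, A.LiesOverPrime ℓ → ∀ σ, A.IsFrobeniusAt σ ℓ →
      (N σ).trace = (W.apOfModel ℓ : C.O)
  ordinary : (¬ W.IsGoodPrimeFor p ∨ ¬ (p : ℤ) ∣ W.apOfModel p) →
    ∀ P : ValuationSubring Qbar, P.LiesOverPrime p → IsOrdinaryOn P C.cyclo N
  unitRoot_mult : ¬ W.IsGoodPrimeFor p → ∀ P : ValuationSubring Qbar, P.LiesOverPrime p →
    ∀ σ₀ ∈ P.inertiaSubgroupIn ℚ, IsUnit (C.cyclo σ₀ - 1) → ∀ φ ∈ P.decompositionSubgroup ℚ,
      unitRoot C.cyclo σ₀ φ N ^ 2 = 1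
  unitRoot_good : W.IsGoodPrimeFor p → ¬ (p : ℤ) ∣ W.apOfModel p →
    ∀ P : ValuationSubring Qbar, P.LiesOverPrime p →
    ∀ σ₀ ∈ P.inertiaSubgroupIn ℚ, IsUnit (C.cyclo σ₀ - 1) → ∀ φ, P.IsFrobeniusAt φ p →
      residue C.O (unitRoot C.cyclo σ₀ φ N) = (W.apOfModel p : ResidueField C.O)

/-- A basis of the Tate module reducing to the basis of the torsion. -/
theorem exists_tateMat_residue [(W.map (Int.castRingHom ℚ)).IsElliptic] :
    ∃ b : Module.Basis (Fin 2) ℤ_[p] (tateModule (W.map (Int.castRingHom ℚ)) p),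
      ∀ σ, (mapRep C.ι₀ (tateMat b) σ).map (residue C.O) = R.D.rbar σ := by
  have htors : ∀ i, p ^ 1 • (R.basis i).1 = 0 := fun i => by
    rw [pow_one, ← natCast_zsmul]
    exact (Submodule.mem_torsionBy_iff _ _).1 (R.basis i).2
  choose f hf using fun i => exists_apply_eq (W := W.map (Int.castRingHom ℚ)) (p := p) 1 (htors i)
  have hproj : ∀ i, BigImage.projOne (f i) = R.basis i := fun i => Subtype.ext (hf i)
  obtain ⟨b, hb0, hb1⟩ := exists_basis_of_gen_one (f 0) (f 1) fun Q hQ => by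
    have hQ' : Q ∈ Submodule.torsionBy ℤ (PtQ (W.map (Int.castRingHom ℚ))) (p : ℤ) := by
      rw [Submodule.mem_torsionBy_iff, natCast_zsmul]; exact hQ
    refine ⟨(R.basis.repr ⟨Q, hQ'⟩ 0).val, (R.basis.repr ⟨Q, hQ'⟩ 1).val, ?_⟩
    rw [hf, hf]
    have := congrArg Subtype.val (R.basis.sum_repr ⟨Q, hQ'⟩)
    rw [Fin.sum_univ_two, ← ZMod.natCast_zmod_val (R.basis.repr ⟨Q, hQ'⟩ 0),
      ← ZMod.natCast_zmod_val (R.basis.repr ⟨Q, hQ'⟩ 1), Nat.cast_smul_eq_nsmul,
      Nat.cast_smul_eq_nsmul] at this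
    exact this.symm
  have hbi : ∀ i, BigImage.projOne (b i) = R.basis i := by
    intro i
    fin_cases i
    · simpa [hb0] using hproj 0
    · simpa [hb1] using hproj 1
  refine ⟨b, fun σ => ?_⟩
  ext i j
  have e : LinearMap.toMatrix R.basis R.basis
      (WeierstrassCurve.Affine.Point.galoisRepModuleEnd (K := Qbar) ℚ
        (W.map (Int.castRingHom ℚ)) p σ) i j = BigImage.modP (tateMat b σ i j) := by
    rw [LinearMap.toMatrix_apply, ← hbi j, tateMat_apply,
      ← BigImage.projOne_rho σ (b j)]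
    conv_lhs => rw [show ((tateRep (W.map (Int.castRingHom ℚ)) p).ρ σ (b j) :
      tateModule (W.map (Int.castRingHom ℚ)) p) = tateAct σ (b j) from rfl,
      ← b.sum_repr (tateAct σ (b j)), Fin.sum_univ_two, map_add, BigImage.projOne_smul,
      BigImage.projOne_smul, hbi, hbi, map_add, map_smul, map_smul, Finsupp.add_apply,
      Finsupp.smul_apply, Finsupp.smul_apply, Module.Basis.repr_self, Module.Basis.repr_self]
    fin_cases i <;> simp
  rw [Matrix.map_apply, mapRep_apply, Matrix.map_apply, R.rbar_eq, Matrix.map_apply, e,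
    C.residue_ι₀]

/-- The Tate module gives such a lift. -/
theorem exists_curveLift (h : OddResidual W p) : ∃ N, R.IsCurveLift N := by
  have := isElliptic_of_residual h
  obtain ⟨b, hmat⟩ := R.exists_tateMat_residue
  have hl : IsLocalHom (algebraMap C.O C.O) := ⟨fun a ha => by simpa using ha⟩
  have hs : Function.Surjective (residue C.O ∘ algebraMap C.O C.O) := fun y => by
    obtain ⟨x, rfl⟩ := residue_surjective y
    exact ⟨x, rfl⟩
  have hres : ∀ a : C.O, toResidue hl hs a = residue C.O a := fun a =>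
    (toResidue hl hs).commutes a
  obtain ⟨g, N, hg, hN, hred⟩ := R.D.exists_normal (hl := hl) (hs := hs)
    (mapRep C.ι₀ (tateMat b)) ⟨1, fun σ => by
      rw [Units.val_one, one_mul, mul_one, ← hmat σ]
      exact Matrix.ext fun i j => hres _⟩
  have hNσ : ∀ σ, N σ = (g : Matrix (Fin 2) (Fin 2) C.O) * mapRep C.ι₀ (tateMat b) σ * (↑(g⁻¹) : Matrix (Fin 2) (Fin 2) C.O) :=
    fun σ => by rw [hg σ, mul_assoc, Units.mul_inv, mul_one]
  have hdet : ∀ σ, (N σ).det = C.ι₀ (tateMat b σ).det := fun σ => by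
    rw [hNσ, Matrix.det_units_conj, mapRep_apply, RingHom.map_det, RingHom.mapMatrix_apply]
  have htr : ∀ σ, (N σ).trace = C.ι₀ (tateMat b σ).trace := fun σ => by
    rw [hNσ, Matrix.trace_units_conj, mapRep_apply]
    exact (AddMonoidHom.map_trace C.ι₀.toAddMonoidHom _).symm
  have hur : ∀ (b' : Module.Basis (Fin 2) ℤ_[p] (tateModule (W.map (Int.castRingHom ℚ)) p))
      (σ₀ φ : GQ), unitRoot C.cyclo σ₀ φ N =
        unitRoot C.cyclo σ₀ φ (mapRep C.ι₀ (tateMat b')) := fun b' σ₀ φ => by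
    obtain ⟨u, hu⟩ := exists_tateMat_conj b b'
    have ht : ∀ σ, (mapRep C.ι₀ (tateMat b') σ).trace = (N σ).trace := fun σ => by
      rw [htr, mapRep_apply, hu σ, ← Matrix.trace_units_conj u (tateMat b σ)]
      exact (AddMonoidHom.map_trace C.ι₀.toAddMonoidHom _).symm
    simp only [unitRoot, ht]
  refine ⟨N, ?_⟩
  refine
    { normal := hN
      cont := ?_
      red := fun σ => ?_
      det := fun σ => by rw [hdet, det_tateMat]; rfl
      unramified := fun q hq hqp hgood A hA σ hσ => by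
        rw [hNσ, mapRep_apply, tateMat_inertia_good b hq hqp hgood hA hσ,
          Matrix.map_one _ (map_zero _) (map_one _), mul_one, Units.mul_inv]
      unipotent := fun q hq hqp A hA σ hσ => ?_
      trace_frob := fun ℓ hℓ hℓp hgood A hA σ hσ => by
        rw [htr, trace_tateMat_frob b hℓ hℓp hgood hA hσ, map_intCast]
      ordinary := fun hcase P hP => ?_
      unitRoot_mult := fun hbad P hP σ₀ hσ₀ hu φ hφ => ?_
      unitRoot_good := fun hgood hap P hP σ₀ hσ₀ hu φ hφ => ?_ }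
  · have hc : IsCont (mapRep C.ι₀ (tateMat b)) :=
      (isCont_matrixRep (tateRep (W.map (Int.castRingHom ℚ)) p) b).map C.ι₀ C.isLocalHom
    intro n
    obtain ⟨L, hL, hL'⟩ := hc n
    refine ⟨L, hL, fun σ hfix i j => ?_⟩
    have e : N σ - 1 = (g : Matrix (Fin 2) (Fin 2) C.O) *
        (mapRep C.ι₀ (tateMat b) σ - 1) * (↑(g⁻¹) : Matrix (Fin 2) (Fin 2) C.O) := by
      rw [hNσ, mul_sub, sub_mul, mul_one, Units.mul_inv]
    rw [e]
    simp only [Matrix.mul_apply, Fin.sum_univ_two]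
    exact add_mem
      (Ideal.mul_mem_right _ _ (add_mem (Ideal.mul_mem_left _ _ (hL' σ hfix _ _))
        (Ideal.mul_mem_left _ _ (hL' σ hfix _ _))))
      (Ideal.mul_mem_right _ _ (add_mem (Ideal.mul_mem_left _ _ (hL' σ hfix _ _))
        (Ideal.mul_mem_left _ _ (hL' σ hfix _ _))))
  · rw [← hred]
    exact Matrix.ext fun i j => (hres _).symm
  · obtain ⟨h1, h2⟩ := tateMat_unipotent b h.delta_ne_zero h.semistable hq hqp hA hσ
    refine ⟨by rw [htr, h1, map_ofNat], ?_⟩
    have h2' := congrArg C.ι₀.mapMatrix h2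
    rw [map_mul, map_sub, map_one, map_zero, RingHom.mapMatrix_apply, ← mapRep_apply C.ι₀] at h2'
    rw [hNσ, show (g : Matrix (Fin 2) (Fin 2) C.O) * mapRep C.ι₀ (tateMat b) σ * (↑(g⁻¹) : Matrix (Fin 2) (Fin 2) C.O) - 1 =
        g * (mapRep C.ι₀ (tateMat b) σ - 1) * (↑(g⁻¹) : Matrix (Fin 2) (Fin 2) C.O) by
      rw [mul_sub, sub_mul, mul_one, Units.mul_inv], conj_mul_conj, h2', mul_zero, zero_mul]
  · obtain ⟨b', hb'⟩ : ∃ b' : Module.Basis (Fin 2) ℤ_[p]
        (tateModule (W.map (Int.castRingHom ℚ)) p), IsAdapted b' P := by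
      by_cases hgood : W.IsGoodPrimeFor p
      · obtain ⟨b', hb', -⟩ := exists_adapted_good hgood (hcase.resolve_left (not_not.2 hgood)) hP
        exact ⟨b', hb'⟩
      · have hd : (p : ℤ) ∣ W.Δ := not_not.1 hgood
        obtain ⟨b', hb', -⟩ := exists_adapted_mult h.delta_ne_zero hd
          (h.semistable p Fact.out hd) hP
        exact ⟨b', hb'⟩
    obtain ⟨u, hu⟩ := exists_tateMat_conj b' b
    refine isOrdinaryOn_conj g hNσ
      (isOrdinaryOn_conj (Units.map C.ι₀.mapMatrix.toMonoidHom u) (fun σ => ?_) hb'.isOrdinaryOn)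
    rw [mapRep_apply, mapRep_apply, hu σ, ← RingHom.mapMatrix_apply, map_mul, map_mul]
    rfl
  · have hd : (p : ℤ) ∣ W.Δ := not_not.1 hbad
    obtain ⟨b', hb', hsq⟩ := exists_adapted_mult h.delta_ne_zero hd
      (h.semistable p Fact.out hd) hP
    rw [hur b', hb'.unitRoot_eq hσ₀ hu hφ, ← map_pow, hsq φ hφ, map_one]
  · obtain ⟨b', hb', hroot⟩ := exists_adapted_good hgood hap hP
    obtain ⟨hunit, hz⟩ := hroot φ hφ
    rw [hur b', hb'.unitRoot_eq hσ₀ hu hφ.mem_decompositionSubgroup]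
    set z := residue C.O (C.ι₀ (tateMat b' φ 1 1))
    have h0 : z * (z - (W.apOfModel p : ResidueField C.O)) = 0 := by
      have := congrArg (fun x => residue C.O (C.ι₀ x)) hz
      simp only [map_add, map_sub, map_mul, map_pow, map_intCast, map_natCast, map_zero,
        CharP.cast_eq_zero (ResidueField C.O) p, add_zero] at this
      linear_combination this
    have hz0 : z ≠ 0 := ((hunit.map C.ι₀).map (residue C.O)).ne_zero
    exact sub_eq_zero.1 ((mul_eq_zero.1 h0).resolve_left hz0)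

end ResidualData

end Fermat.Agent.Engine.Top
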