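import Fermat.Agent.Engine.Top.LiftGood
import Fermat.Agent.GalCoh.GW.Final

/-!
# Lifting at `5`

`liftingAtFive_of`: the statement of `Engine.LiftingAtFive`, from level lowering.
-/

set_option autoImplicit false

noncomputable section

open IsLocalRing Fermat.Agent.DefRing Fermat.Agent.Deform

namespace Fermat.Agent.Engine

namespace Top

variable {W : WeierstrassCurve ℤ} {p : ℕ} [Fact p.Prime]

/-- Lowering to a level with ramified primes and `p` only. -/
theorem exists_ramified_level (hMazur : MazurPrinciple) (hOne : LoweringAtOneModP)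
    (h : Residual W p) (hord : ∀ M, OrdinaryIfInLevel W p M) (M : ℕ) (hM : Squarefree M)
    (hmod : W.IsResiduallyModularOfLevel p M) :
    ∃ M' : ℕ, M' ∣ M ∧ W.IsResiduallyModularOfLevel p M' ∧
      ∀ q : ℕ, q.Prime → q ∣ M' → q ≠ p → q ∈ Smin W p := by
  induction M using Nat.strong_induction_on with
  | _ M ih =>
    by_cases hall : ∀ q : ℕ, q.Prime → q ∣ M → q ≠ p → q ∈ Smin W p
    · exact ⟨M, dvd_rfl, hmod, hall⟩
    push Not at hall
    obtain ⟨q, hq, hqM, hqp, hqS⟩ := hall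
    have hu : Unramified W p q := by
      by_contra hu
      obtain ⟨C⟩ := nonempty_coeff p
      obtain ⟨R⟩ := nonempty_residualData h.toOdd C
      refine hqS (mem_Smin.2 ⟨hq, ?_, h.delta_ne_zero, hqp, hu⟩)
      by_contra hgood
      exact hu (R.unramified_iff.2 fun A hA σ hσ => R.rbar_inertia_good hq hqp hgood hA hσ)
    obtain ⟨M', hd, hqM', hmod'⟩ :=
      exists_level_without hMazur hOne p W h q hq hqp hu M hqM hM (hord M) hmod
    have hlt : M' < M := lt_of_le_of_ne (Nat.le_of_dvd (Nat.pos_of_ne_zero hM.ne_zero) hd)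
      fun he => hqM' (he ▸ hqM)
    obtain ⟨M'', hd', hmod'', hS⟩ := ih M' hlt (hM.squarefree_of_dvd hd) hmod'
    exact ⟨M'', hd'.trans hd, hmod'', hS⟩

/-- The framed primes: bad and unramified, or one good prime. -/
theorem exists_framedSet (h : Residual W p) : ∃ T : Finset ℕ, T.Nonempty ∧
    (∀ q ∈ T, q.Prime ∧ q ≠ p ∧ q ∉ Smin W p) ∧
    ∀ q : ℕ, q.Prime → (q : ℤ) ∣ W.Δ → q ≠ p → q ∈ Smin W p ∪ T := by
  classical
  obtain ⟨ℓ, hle, hℓ⟩ := Nat.exists_infinite_primes (W.Δ.natAbs + p + 1)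
  have hℓS : ℓ ∉ Smin W p := fun hm => by
    have := Nat.le_of_dvd (Int.natAbs_pos.2 h.delta_ne_zero) (Int.natCast_dvd.1 (mem_Smin.1 hm).2.1)
    omega
  refine ⟨insert ℓ ((W.Δ.natAbs.primeFactors.erase p) \ Smin W p), Finset.insert_nonempty _ _,
    fun q hq => ?_, fun q hq hd hqp => ?_⟩
  · rcases Finset.mem_insert.1 hq with rfl | hq
    · exact ⟨hℓ, by omega, hℓS⟩
    · rw [Finset.mem_sdiff, Finset.mem_erase, Nat.mem_primeFactors] at hq
      exact ⟨hq.1.2.1, hq.1.1, hq.2⟩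
  · rw [Finset.mem_union, Finset.mem_insert, Finset.mem_sdiff, Finset.mem_erase,
      Nat.mem_primeFactors]
    by_cases hS : q ∈ Smin W p
    · exact Or.inl hS
    · exact Or.inr (Or.inr ⟨⟨hqp, hq, Int.natCast_dvd.1 hd,
        Int.natAbs_ne_zero.2 h.delta_ne_zero⟩, hS⟩)

/-- **Lifting at an odd prime.** -/
theorem exists_modular_level (hMazur : MazurPrinciple) (hOne : LoweringAtOneModP)
    (hunram : LiftingMultUnram p) (h : Residual W p)
    (hcase : ¬ W.IsGoodPrimeFor p ∨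
      (¬ (p : ℤ) ∣ W.apOfModel p ∧ ¬ (p : ℤ) ∣ W.apOfModel p ^ 2 - 1))
    {M : ℕ} (hM : Squarefree M) (hmod : W.IsResiduallyModularOfLevel p M) :
    ∃ N : ℕ, 0 < N ∧ Squarefree N ∧ (∀ q : ℕ, q.Prime → q ∣ N → (q : ℤ) ∣ W.Δ) ∧
      W.IsModularModelOfLevel N := by
  classical
  have hpp : p.Prime := Fact.out
  have hcase' : ¬ W.IsGoodPrimeFor p ∨ ¬ (p : ℤ) ∣ W.apOfModel p := hcase.imp_right And.left
  have hord : ∀ M, OrdinaryIfInLevel W p M := fun _ _ => hcase
  obtain ⟨M₀, hd, hmod₀, hS₀⟩ := exists_ramified_level hMazur hOne h hord M hM hmod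
  have hM₀ : Squarefree M₀ := hM.squarefree_of_dvd hd
  have : NeZero M₀ := ⟨hM₀.ne_zero⟩
  have hM₀S : ∀ q : ℕ, q.Prime → q ∣ M₀ → q ∈ Smin W p ∪ {p} := fun q hq hd => by
    by_cases hqp : q = p
    · exact Finset.mem_union_right _ (Finset.mem_singleton.2 hqp)
    · exact Finset.mem_union_left _ (hS₀ q hq hd hqp)
  obtain ⟨C⟩ := nonempty_coeff p
  obtain ⟨R⟩ := nonempty_residualData h.toOdd C
  obtain ⟨Ch⟩ := exists_placeChoice C h.five_le
  obtain ⟨T, hTne, hT, hbad⟩ := exists_framedSet h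
  obtain ⟨L, Φ₀, hL, hΦ₀, hF⟩ :=
    R.exists_localChoices h T hT Ch.P (ordinaryClosed Ch.P C.cyclo)
  let PB := Classical.choice (LevelData.nonempty_repRing (R.isResidual_ordLevel Ch h hcase' T))
  obtain ⟨x, hx⟩ := R.exists_curvePoint Ch h hcase' hbad PB
  obtain ⟨q₀, hq₀⟩ := hTne
  let r₀ : T := ⟨q₀, hq₀⟩
  have hinv : GalCoh.Reciprocity p := (CFT.cftInputs p).reciprocity
  have hGW : GalCoh.GreenbergWilesLe p := GalCoh.greenbergWilesLe p
  by_cases hgood : W.IsGoodPrimeFor p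
  · obtain ⟨hap, hap1⟩ := hcase.resolve_left (not_not.2 hgood)
    -- a level prime to `p`
    obtain ⟨M', hM', hM'S, hmod'⟩ : ∃ M' : ℕ, Squarefree M' ∧
        (∀ q : ℕ, q.Prime → q ∣ M' → q ∈ Smin W p) ∧ W.IsResiduallyModularOfLevel p M' := by
      by_cases hp : p ∣ M₀
      · obtain ⟨M', rfl⟩ := hp
        have hnd : ¬ p ∣ M' := fun h' =>
          Nat.squarefree_iff_prime_squarefree.1 hM₀ p hpp (mul_dvd_mul_left p h')
        have hS' : ∀ q : ℕ, q.Prime → q ∣ M' → q ∈ Smin W p := fun q hq hd =>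
          hS₀ q hq (hd.mul_left p) fun he => hnd (he ▸ hd)
        exact ⟨M', hM₀.squarefree_of_dvd (dvd_mul_left _ _), hS',
          R.modular_of_mul_prime_good Ch hinv hGW h hgood hap hap1 hT hbad L hL r₀ Φ₀ hΦ₀ hF PB
            hM₀ hS' hmod₀⟩
      · exact ⟨M₀, hM₀, fun q hq hd => hS₀ q hq hd fun he => hp (he ▸ hd), hmod₀⟩
    obtain ⟨r, -, Q, X, hnE, hX⟩ :=
      R.exists_aux_good Ch hinv hGW h T hT L hL r₀ Φ₀ hΦ₀ PB hgood hap hap1
    refine hx.exists_level_of_aux h hcase' hT hbad hM'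
      (fun q hq hd => Finset.mem_union_left _ (hM'S q hq hd))
      (fun hd => absurd rfl (mem_Smin.1 (hM'S p hpp hd)).2.2.2.1) hmod' hF X hnE hX
  have hpΔ : (p : ℤ) ∣ W.Δ := not_not.1 hgood
  by_cases hs : R.D.rbar Ch.s = 1
  · -- the level without `p`
    obtain ⟨M', hM', hpM', hM'S, hmod'⟩ : ∃ M' : ℕ, Squarefree M' ∧ ¬ p ∣ M' ∧
        (∀ q : ℕ, q.Prime → q ∣ M' → q ∈ Smin W p) ∧
          W.IsResiduallyModularOfLevel p (p * M') := by
      by_cases hp : p ∣ M₀
      · obtain ⟨M', rfl⟩ := hp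
        have hnd : ¬ p ∣ M' := fun h' =>
          Nat.squarefree_iff_prime_squarefree.1 hM₀ p hpp (mul_dvd_mul_left p h')
        exact ⟨M', hM₀.squarefree_of_dvd (dvd_mul_left _ _), hnd,
          fun q hq hd => hS₀ q hq (hd.mul_left p) fun he => hnd (he ▸ hd), hmod₀⟩
      · have : NeZero (p * M₀) := ⟨mul_ne_zero hpp.ne_zero hM₀.ne_zero⟩
        exact ⟨M₀, hM₀, hp, fun q hq hd => hS₀ q hq hd fun he => hp (he ▸ hd),
          isResiduallyModularOfLevel_of_dvd h.delta_ne_zero (dvd_mul_left M₀ p) hmod₀⟩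
    refine hunram W C R Ch hinv hGW h hgood hs T hT hbad L hL r₀ Φ₀ hΦ₀ hF PB M' hM' hpM' hM'S
      hmod' fun s hs' => ?_
    have hsq : Squarefree (Lifting.liftLevel M' (fun v : T => (v : ℕ)) s) :=
      squarefree_liftLevel (qv := fun v : T => (v : ℕ)) hM' (fun v => (hT v v.2).1)
        Subtype.val_injective
        (fun v hd => (hT v v.2).2.2 (hM'S v (hT v v.2).1 hd)) s
    obtain ⟨M'', hd'', hmod'', hS''⟩ := exists_ramified_level hMazur hOne h hord _ hsq hs'
    have : NeZero M' := ⟨hM'.ne_zero⟩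
    refine isResiduallyModularOfLevel_of_dvd h.delta_ne_zero ?_ hmod''
    have hcop : M''.Coprime (∏ v ∈ s, v.1) := Nat.Coprime.prod_right fun v hv =>
      Nat.Coprime.symm <| (hT v v.2).1.coprime_iff_not_dvd.2 fun hd' =>
        (hT v v.2).2.2 (hS'' v (hT v v.2).1 hd' (hT v v.2).2.1)
    exact hcop.dvd_of_dvd_mul_right hd''
  · obtain ⟨r, -, Q, X, hnE, hX⟩ :=
      R.exists_aux_ram Ch hinv hGW h T hT L hL r₀ Φ₀ hΦ₀ PB hgood hs
    exact hx.exists_level_of_aux h hcase' hT hbad hM₀ hM₀S (fun _ => hpΔ) hmod₀ hF X hnE hX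

end Top

/-- **Lifting at `5`**, from lowering and the case of an unramified multiplicative place. -/
theorem liftingAtFive_of (hMazur : MazurPrinciple) (hOne : LoweringAtOneModP)
    (hunram : ∀ [Fact (Nat.Prime 5)], Top.LiftingMultUnram 5) : LiftingAtFive := by
  intro W _ h hcase ⟨M, hM, hmod⟩
  exact Top.exists_modular_level hMazur hOne hunram h (by exact_mod_cast hcase) hM hmod

end Fermat.Agent.Engine

end
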