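import Fermat.Agent.Engine.Top.LiftMultUnram
import Fermat.Agent.Engine.Top.LiftingAtFive
import Fermat.Agent.Engine.Top.LoweringFinal
import Fermat.Agent.MazurPrinciple.Principle

/-!
# Lifting at `5`

`liftingAtFive` proves `LiftingAtFive` from Mazur's principle, level lowering and lifting in the
multiplicative case with the Kummer element in the residual kernel.
-/

set_option autoImplicit false

namespace Fermat.Agent.Engine

/-- **Lifting at `5`.** -/
theorem liftingAtFive : LiftingAtFive :=
  liftingAtFive_of MazurPrinciple.mazurPrinciple loweringAtOneModP (Top.liftingMultUnram 5)

end Fermat.Agent.Engine
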