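import Fermat.Agent.Engine.LoweringFamily
import Fermat.Agent.Engine.TRep.EigenPoint

/-!
# A congruent system from non-zero classes

`BaseSetting.exists_system_of_nontrivial`: if the localised classes at the base level do not vanish,
a system congruent to the residual one occurs there.
-/

set_option autoImplicit false
set_option linter.unusedSectionVars false

noncomputable section

namespace Fermat.Agent.Engine

open EigenRep HeckeModule IsLocalRing DefRing Deform EigenSystems TRep

variable {p : ℕ} [Fact p.Prime] {O : Type} [CommRing O] [IsDomain O]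
  [IsDiscreteValuationRing O] [IsAdicComplete (maximalIdeal O) O] [Finite (ResidueField O)]
  [CharZero O] {ι₀ : ℤ_[p] →+* O} {N₀ : ℕ} [NeZero N₀] {lam : ℕ → O} {L₀ : LevelData O}
  (H : BaseSetting p ι₀ N₀ lam L₀)

include H

/-- **A congruent system at the base level.** -/
theorem BaseSetting.exists_system_of_nontrivial
    (hV : Nontrivial (CohLoc
      (awayMonoid (lamIdeal (Λ := O) (residue_surjective (R := O)) L₀.Sigma lam))
      (scalarRep (1 : (ZMod N₀)ˣ →* O) O))) :
    ∃ (O' : Type) (_ : CommRing O') (_ : IsDomain O') (_ : IsDiscreteValuationRing O')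
      (_ : CharZero O') (_ : Algebra O O') (_ : IsLocalHom (algebraMap O O')) (a : ℕ → O'),
      Engine.Occurs (FractionRing O') N₀ 1 L₀.Sigma
          (fun ℓ => algebraMap O' (FractionRing O') (a ℓ)) ∧
        ∀ ℓ : ℕ, ℓ.Prime → ℓ ∉ L₀.Sigma → a ℓ - algebraMap O O' (lam ℓ) ∈ maximalIdeal O' := by
  classical
  let hsO : Function.Surjective (residue O ∘ algebraMap O O) := residue_surjective (R := O)
  set S := L₀.Sigma
  let ψ : ∀ x : ℕ, (ZMod x)ˣ →* O := fun _ => 1
  have hA : LevelArith p N₀ L₀ S ∅ N₀ ψ :=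
    { dvd := dvd_mul_right _ _
      p_not_dvd := by
        rw [Finset.prod_empty, mul_one, Nat.div_self (Nat.pos_of_ne_zero (NeZero.ne N₀))]
        exact (Fact.out : p.Prime).not_dvd_one
      aux := fun q hq => absurd hq (Finset.notMem_empty q)
      sub := subset_rfl
      mem_S := fun ℓ hℓ hd => H.sigma ℓ hℓ (by rwa [Finset.prod_empty, mul_one] at hd)
      smin := fun q hq => by rw [Finset.prod_empty, mul_one]; exact (H.smin q hq).2.2.1
      pow_one := fun q hq => absurd hq (Finset.notMem_empty q) }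
  have hχ : charSq ψ ∅ N₀ = (1 : (ZMod N₀)ˣ →* O) := MonoidHom.ext fun u => by
    rw [charSq_apply, Finset.prod_empty]; rfl
  rw [← hχ] at hV
  obtain ⟨v, hv⟩ := exists_ne (0 : LevelCoh hsO S lam ψ ∅ (fun _ : Unit => N₀) ())
  set C := TwAlg hsO S lam ψ ∅ (fun _ : Unit => N₀)
  have : Nontrivial C := ⟨⟨1, 0, fun h => hv (congrArg (fun z : C =>
    (Subtype.val z) () v) h)⟩⟩
  have : @Module.Finite O C _ _ (Algebra.toModule) := Module.Finite.trans O C
  obtain ⟨O', _, _, _, _, _, _, _, _, hl, θ, -⟩ := exists_point O C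
    (H.twAlg_torsionFree hsO hA) (x := 1) not_isNilpotent_one
  have hθl : IsLocalHom (θ : C →+* O') := isLocalHom_point θ
  let K := FractionRing O'
  let φ : AwayPoly O (↑S : Set ℕ) →+* K :=
    ((algebraMap O' K).comp (θ : C →+* O')).comp
      (twClass hsO S lam ψ ∅ (fun _ : Unit => N₀)).toRingHom
  let a : ℕ → O' := fun ℓ => if h : ℓ.Prime ∧ ℓ ∉ (↑S : Set ℕ) then
    θ (twClass hsO S lam ψ ∅ (fun _ : Unit => N₀) (MvPolynomial.X ⟨⟨ℓ, h.1⟩, h.2⟩)) else 0
  have hker : ∀ P, (∀ u : LevelCoh hsO S lam ψ ∅ (fun _ : Unit => N₀) (),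
      awayIncl O (↑S : Set ℕ) P • u = 0) → φ P = 0 := fun P hP => by
    have h0 : twClass hsO S lam ψ ∅ (fun _ : Unit => N₀) P = 0 :=
      Subtype.ext (funext fun j => LinearMap.ext fun u => by
        rw [twClass_apply]
        exact hP u)
    show algebraMap O' K (θ (twClass hsO S lam ψ ∅ (fun _ : Unit => N₀) P)) = 0
    rw [h0, map_zero, map_zero]
  have : Module.Finite O (LevelCoh hsO S lam ψ ∅ (fun _ : Unit => N₀) ()) :=
    finite_cohLoc _ _ (maximalIdeal_le_lamIdeal hsO S lam)
  have hocc := occurs_of_cohChar (lamIdeal hsO S lam) (H.exactHyp_family hsO hA) φ hker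
    (lam := fun ℓ => algebraMap O' K (a ℓ)) fun l => by
      show algebraMap O' K (dite _ _ _) = _
      rw [dif_pos (show ((l : Nat.Primes) : ℕ).Prime ∧ ((l : Nat.Primes) : ℕ) ∉ (↑S : Set ℕ) from
        ⟨(l : Nat.Primes).2, l.2⟩)]
      rfl
  rw [hχ, MonoidHom.comp_one] at hocc
  refine ⟨O', inferInstance, inferInstance, inferInstance, inferInstance, inferInstance, hl, a,
    hocc, fun ℓ hℓ hℓS => ?_⟩
  simp only [a, dif_pos (show ℓ.Prime ∧ ℓ ∉ (↑S : Set ℕ) from ⟨hℓ, hℓS⟩)]
  rw [← θ.commutes, ← map_sub]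
  refine map_nonunit (θ : C →+* O') _ ?_
  have hlh := isLocalHom_algebraMap_twAlg hsO S lam ψ ∅ (fun _ : Unit => N₀)
  have hsr := surjective_residue_twAlg hsO S lam ψ ∅ (fun _ : Unit => N₀)
  rw [← toResidue_eq_zero_iff hlh hsr, map_sub, toResidue_twClass, lamHom_X, AlgHom.commutes]
  exact sub_self _

end Fermat.Agent.Engine

end
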