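import Fermat.Agent.EigenRep.CoeffRing
import Mathlib.NumberTheory.Cyclotomic.Basic
import Mathlib.NumberTheory.Padics.PadicNumbers
import Fermat.Agent.BigImage.BaseChange
import Mathlib.RingTheory.RootsOfUnity.PrimitiveRoots

/-!
# The coefficient ring of the engine: `ℤ_p` with the roots of unity of order `p (p² - 1)`

A complete discrete valuation ring, finite over `ℤ_p`, with a primitive `p`-th root of unity, whose
residue field contains the roots of every quadratic polynomial over `𝔽_p`.
-/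

set_option autoImplicit false

noncomputable section

open IsLocalRing

namespace Fermat.Agent.Engine.Top

/-- A coefficient ring for the engine at `p`. -/
structure Coeff (p : ℕ) [Fact p.Prime] where
  /-- the ring -/
  O : Type
  [instCommRing : CommRing O]
  [instIsDomain : IsDomain O]
  [instDVR : IsDiscreteValuationRing O]
  [instCharZero : CharZero O]
  [instComplete : IsAdicComplete (maximalIdeal O) O]
  [instFinite : Finite (ResidueField O)]
  [instCharP : CharP (ResidueField O) p]
  /-- the map from `ℤ_p` -/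
  ι₀ : ℤ_[p] →+* O
  ι₀_injective : Function.Injective ι₀
  ι₀_finite : ι₀.Finite
  /-- a root of unity of order `p` -/
  ζ : O
  ζ_primitive : IsPrimitiveRoot ζ p
  /-- its inverse -/
  ζ' : O
  ζ_mul : ζ * ζ' = 1
  ζ_sub_one_mem : ζ - 1 ∈ maximalIdeal O
  p_mem : (p : O) ∈ maximalIdeal O
  /-- the residue field has even degree -/
  even_degree : letI := ZMod.algebra (ResidueField O) p
    2 ∣ Module.finrank (ZMod p) (ResidueField O)

attribute [instance] Coeff.instCommRing Coeff.instIsDomain Coeff.instDVR Coeff.instCharZero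
  Coeff.instComplete Coeff.instFinite Coeff.instCharP

variable {p : ℕ} [Fact p.Prime]

/-- The map from `𝔽_p` to the residue field. -/
def Coeff.resHom (C : Coeff p) : ZMod p →+* ResidueField C.O :=
  ZMod.castHom dvd_rfl (ResidueField C.O)

/-- Monic quadratics over `𝔽_p` split in the residue field. -/
theorem Coeff.exists_roots (C : Coeff p) (a b : ZMod p) :
    ∃ α β : ResidueField C.O, α + β = C.resHom a ∧ α * β = C.resHom b := by
  let := ZMod.algebra (ResidueField C.O) p
  have hd : (Polynomial.X ^ 2 - Polynomial.C a * Polynomial.X + Polynomial.C b).natDegree = 2 := by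
    compute_degree!
  have hm : (Polynomial.X ^ 2 - Polynomial.C a * Polynomial.X + Polynomial.C b).Monic := by
    monicity!
  obtain ⟨α, β, h⟩ := BigImage.exists_eq_mul_of_even_finrank C.even_degree hm hd
  refine ⟨α, β, ?_, ?_⟩
  · have h1 := congrArg (fun f => Polynomial.coeff f 1) h
    simp [mul_sub, sub_mul] at h1
    rw [show C.resHom a = algebraMap (ZMod p) (ResidueField C.O) a from
      RingHom.congr_fun (RingHom.ext_zmod _ _) a]
    linear_combination h1
  · have h0 := congrArg (fun f => Polynomial.coeff f 0) h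
    simp at h0
    rw [show C.resHom b = algebraMap (ZMod p) (ResidueField C.O) b from
      RingHom.congr_fun (RingHom.ext_zmod _ _) b]
    exact h0.symm

/-- A finite field of characteristic `p` with a primitive root of unity of order `p² - 1` has even
degree. -/
theorem even_finrank_of_isPrimitiveRoot {k : Type} [Field k] [Finite k] [Algebra (ZMod p) k]
    {x : k} (hx : IsPrimitiveRoot x (p ^ 2 - 1)) : 2 ∣ Module.finrank (ZMod p) k := by
  have hp : p.Prime := Fact.out
  have : Fintype k := Fintype.ofFinite k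
  have hm1 : 1 < p ^ 2 - 1 := by
    have h4 : 2 ^ 2 ≤ p ^ 2 := Nat.pow_le_pow_left hp.two_le 2
    omega
  have hx0 : x ≠ 0 := hx.ne_zero (by omega)
  have hdvd : p ^ 2 - 1 ∣ p ^ Module.finrank (ZMod p) k - 1 := by
    refine hx.dvd_of_pow_eq_one _ ?_
    have h := FiniteField.pow_card_sub_one_eq_one x hx0
    rwa [Module.card_eq_pow_finrank (K := ZMod p) (V := k), ZMod.card] at h
  rcases Nat.even_or_odd (Module.finrank (ZMod p) k) with hev | ⟨m, hm⟩
  · exact even_iff_two_dvd.mp hev
  · exfalso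
    have hp1 : 1 ≤ p ^ Module.finrank (ZMod p) k := Nat.one_le_pow _ _ hp.pos
    have h1 : 1 ≡ p ^ Module.finrank (ZMod p) k [MOD p ^ 2 - 1] :=
      (Nat.modEq_iff_dvd' hp1).2 hdvd
    have h2 : p ^ 2 ≡ 1 [MOD p ^ 2 - 1] :=
      ((Nat.modEq_iff_dvd' (Nat.one_le_pow _ _ hp.pos)).2 dvd_rfl).symm
    have h3 : p ^ Module.finrank (ZMod p) k ≡ p [MOD p ^ 2 - 1] := by
      rw [hm, pow_add, pow_mul, pow_one]
      simpa using (h2.pow m).mul_right p
    have h4 := h1.trans h3
    have hlt : p < p ^ 2 - 1 := by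
      have := Nat.mul_le_mul_right p hp.two_le
      rw [sq]
      have := hp.two_le
      omega
    rw [Nat.ModEq, Nat.mod_eq_of_lt hm1, Nat.mod_eq_of_lt hlt] at h4
    exact hp.one_lt.ne h4

/-- Coefficient rings exist. -/
theorem nonempty_coeff (p : ℕ) [hp : Fact p.Prime] : Nonempty (Coeff p) := by
  have h4 : 2 ^ 2 ≤ p ^ 2 := Nat.pow_le_pow_left hp.out.two_le 2
  have hm0 : p ^ 2 - 1 ≠ 0 := by omega
  have hn0 : p * (p ^ 2 - 1) ≠ 0 := mul_ne_zero hp.out.ne_zero hm0
  have : NeZero (p * (p ^ 2 - 1)) := ⟨hn0⟩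
  have : NeZero ((p * (p ^ 2 - 1) : ℕ) : ℚ_[p]) := ⟨Nat.cast_ne_zero.2 hn0⟩
  let L := CyclotomicField (p * (p ^ 2 - 1)) ℚ_[p]
  have : IsScalarTower ℤ_[p] ℚ_[p] L := inferInstance
  have : FiniteDimensional ℚ_[p] L :=
    IsCyclotomicExtension.finiteDimensional {p * (p ^ 2 - 1)} ℚ_[p] L
  have : Finite (ResidueField ℤ_[p]) := Finite.of_equiv _ PadicInt.residueField.toEquiv.symm
  obtain ⟨hdvr, hcomp, hfin, hchar, hmod, -, hinj, hloc⟩ :=
    EigenRep.integralClosure_coeff_props ℤ_[p] ℚ_[p] L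
  set T := integralClosure ℤ_[p] L
  have := hdvr
  have hpm : (p : T) ∈ maximalIdeal T := by
    rw [← map_natCast (algebraMap ℤ_[p] T)]
    refine map_nonunit (algebraMap ℤ_[p] T) _ ?_
    rw [PadicInt.maximalIdeal_eq_span_p]
    exact Ideal.mem_span_singleton_self _
  have : CharP (ResidueField T) p := by
    refine (CharP.charP_iff_prime_eq_zero hp.out).mpr ?_
    rw [← map_natCast (residue T)]
    exact (residue_eq_zero_iff _).mpr hpm
  obtain ⟨z₀, hz₀⟩ := IsCyclotomicExtension.exists_isPrimitiveRoot ℚ_[p] L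
    (Set.mem_singleton (p * (p ^ 2 - 1))) hn0
  have hz : IsPrimitiveRoot (z₀ ^ (p ^ 2 - 1)) p :=
    hz₀.pow (Nat.pos_of_ne_zero hn0) (mul_comm _ _)
  set z := z₀ ^ (p ^ 2 - 1)
  have hw : IsPrimitiveRoot (z₀ ^ p) (p ^ 2 - 1) := hz₀.pow (Nat.pos_of_ne_zero hn0) rfl
  have hwint : IsIntegral ℤ_[p] (z₀ ^ p) :=
    (hw.isIntegral (Nat.pos_of_ne_zero hm0)).tower_top
  have hwT : IsPrimitiveRoot (⟨z₀ ^ p, hwint⟩ : T) (p ^ 2 - 1) :=
    IsPrimitiveRoot.of_map_of_injective (f := T.val) hw Subtype.val_injective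
  have : NeZero ((p ^ 2 - 1 : ℕ) : ResidueField T) := ⟨fun h => by
    have h1 := (CharP.cast_eq_zero_iff (ResidueField T) p _).1 h
    have h2 : p ∣ p ^ 2 := dvd_pow_self p two_ne_zero
    have h3 := Nat.dvd_sub h2 h1
    rw [Nat.sub_sub_self (by omega)] at h3
    exact hp.out.one_lt.ne' (Nat.dvd_one.1 h3)⟩
  have hwk : IsPrimitiveRoot (residue T ⟨z₀ ^ p, hwint⟩) (p ^ 2 - 1) := by
    rw [← Polynomial.isRoot_cyclotomic_iff, ← Polynomial.map_cyclotomic _ (residue T)]
    exact (hwT.isRoot_cyclotomic (Nat.pos_of_ne_zero hm0)).map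
  have hint : IsIntegral ℤ_[p] z := (hz.isIntegral hp.out.pos).tower_top
  have hzT : IsPrimitiveRoot (⟨z, hint⟩ : T) p :=
    IsPrimitiveRoot.of_map_of_injective (f := T.val) hz Subtype.val_injective
  have hpow := hzT.pow_eq_one
  refine ⟨{
    O := T
    instCharZero := hchar
    instComplete := hcomp
    instFinite := hfin
    ι₀ := algebraMap ℤ_[p] T
    ι₀_injective := hinj
    ι₀_finite := RingHom.finite_algebraMap.mpr hmod
    ζ := ⟨z, hint⟩
    ζ_primitive := hzT
    ζ' := (⟨z, hint⟩ : T) ^ (p - 1)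
    ζ_mul := by rw [← pow_succ', Nat.sub_add_cancel hp.out.one_le, hpow]
    ζ_sub_one_mem := ?_
    p_mem := hpm
    even_degree := by
      let := ZMod.algebra (ResidueField T) p
      exact even_finrank_of_isPrimitiveRoot hwk }⟩
  rw [← residue_eq_zero_iff, map_sub, map_one]
  refine pow_eq_zero_iff hp.out.ne_zero |>.mp ?_
  rw [sub_pow_char, ← map_pow, hpow, map_one, one_pow, sub_self]

end Fermat.Agent.Engine.Top
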