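import Fermat.Agent.Engine.Top.Setup
import Fermat.Agent.EllLocal.UnitRoot
import Fermat.Agent.EllLocal.OrdinaryTrace
import Fermat.Agent.EllLocal.Mult.TateShape

/-!
# The Tate module of the curve: matrices, determinant and local shape

Facts over `ℤ_p` about the matrices of the Tate module used by the top of the engine.
-/

set_option autoImplicit false
set_option linter.unusedSectionVars false

noncomputable section

open IsLocalRing Fermat.Agent.DefRing Fermat.Agent.EllLocal
open scoped WeierstrassCurve.Affine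

namespace Fermat.Agent.Engine.Top

local notation "Qbar" => AlgebraicClosure ℚ

variable {W : WeierstrassCurve ℤ} {p : ℕ} [Fact p.Prime]
  [(W.map (Int.castRingHom ℚ)).IsElliptic]

variable (b : Module.Basis (Fin 2) ℤ_[p] (tateModule (W.map (Int.castRingHom ℚ)) p))

/-- The action on the Tate module, as endomorphisms. -/
def tateHom : GQ →* Module.End ℤ_[p] (tateModule (W.map (Int.castRingHom ℚ)) p) where
  toFun := tateAct
  map_one' := LinearMap.ext fun f => Subtype.ext (funext fun n => one_smul _ (f.1 n))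
  map_mul' σ τ := LinearMap.ext fun f => Subtype.ext (funext fun n => mul_smul σ τ (f.1 n))

/-- The matrices of the Tate module in a basis. -/
def tateMat : MRep ℤ_[p] :=
  (LinearMap.toMatrixAlgEquiv b).toRingEquiv.toRingHom.toMonoidHom.comp tateHom

/-- `tateMat` is the matrix of the Tate module action. -/
theorem tateMat_eq (σ : GQ) : tateMat b σ = LinearMap.toMatrix b b (tateAct σ) := rfl

/-- The entries of `tateMat`. -/
theorem tateMat_apply (σ : GQ) (i j : Fin 2) :
    tateMat b σ i j = b.repr (tateAct σ (b j)) i :=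
  LinearMap.toMatrix_apply _ _ _ _ _

/-- The determinant is the cyclotomic character. -/
theorem det_tateMat (σ : GQ) : (tateMat b σ).det = (EigenRep.epsilonPadic p σ : ℤ_[p]) := by
  have h := (tateRep_detIsCyclotomic (W.map (Int.castRingHom ℚ)) p).2
  have hdet : (tateMat b σ).det = LinearMap.det ((tateRep (W.map (Int.castRingHom ℚ)) p).ρ σ) :=
    (congrArg Matrix.det (tateMat_eq b σ)).trans (LinearMap.det_toMatrix b (tateAct σ))
  refine PadicInt.ext_of_toZModPow.1 fun n => ?_
  obtain ⟨a, ha⟩ := Deform.exists_exponent_level (Fact.out : p.Prime) σ n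
  obtain ⟨ζ, hζ⟩ := EigenRep.exists_primitiveRoot (p := p) n
  have h1 := h n σ a ha
  rw [Nat.cast_pow, ← PadicInt.ker_toZModPow, RingHom.mem_ker, map_sub, map_natCast, sub_eq_zero,
    ← hdet] at h1
  rw [h1, EigenRep.toZModPow_epsilon_eq hζ (ha ζ hζ.pow_eq_one)]

/-- Good reduction away from `p`: inertia is trivial. -/
theorem tateMat_inertia_good {q : ℕ} (hq : q.Prime) (hqp : q ≠ p) (hgood : W.IsGoodPrimeFor q)
    {A : ValuationSubring Qbar} (hA : A.LiesOverPrime q) {σ : GQ}
    (hσ : σ ∈ A.inertiaSubgroupIn ℚ) : tateMat b σ = 1 := by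
  have h : tateHom (W := W) (p := p) σ = 1 := by
    refine LinearMap.ext fun f => Subtype.ext (funext fun n => ?_)
    exact MultRed.inertia_smul_eq_of_good hq hA hgood hσ
      (fun hd => hqp ((Nat.prime_dvd_prime_iff_eq hq Fact.out).1 (hq.dvd_of_dvd_pow hd)))
      (tateModule_pow f n)
  rw [tateMat, MonoidHom.comp_apply, h]
  exact map_one _

/-- Away from `p`, inertia is unipotent, if `W` is semistable. -/
theorem tateMat_unipotent (hΔ0 : W.Δ ≠ 0) (hss : W.IsSemistableModel) {q : ℕ} (hq : q.Prime)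
    (hqp : q ≠ p) {A : ValuationSubring Qbar} (hA : A.LiesOverPrime q) {σ : GQ}
    (hσ : σ ∈ A.inertiaSubgroupIn ℚ) :
    (tateMat b σ).trace = 2 ∧ (tateMat b σ - 1) * (tateMat b σ - 1) = 0 := by
  by_cases hgood : W.IsGoodPrimeFor q
  · rw [tateMat_inertia_good b hq hqp hgood hA hσ]
    simp
  have hd : (q : ℤ) ∣ W.Δ := not_not.1 hgood
  have h := EllLocal.Mult.tateRep_isUnipotentOnInertiaAt (p := p) hq hqp hΔ0 hd (hss q hq hd)
    A hA σ hσ
  have := Module.Free.of_basis b
  have := Module.Finite.of_basis b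
  replace h : LinearMap.charpoly (tateAct (p := p) σ :
      tateModule (W.map (Int.castRingHom ℚ)) p →ₗ[ℤ_[p]] _) = (Polynomial.X - 1) ^ 2 := h
  rw [← LinearMap.charpoly_toMatrix _ b] at h
  change (tateMat b σ).charpoly = (Polynomial.X - 1) ^ 2 at h
  constructor
  · have h1 := congrArg (fun f => Polynomial.coeff f 1) h
    simp [Matrix.charpoly_fin_two, sub_sq, Polynomial.coeff_one] at h1
    exact h1
  · have h1 := Matrix.aeval_self_charpoly (tateMat b σ)
    rw [h] at h1
    simpa [sq] using h1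

/-- The trace of Frobenius at a good prime. -/
theorem trace_tateMat_frob {ℓ : ℕ} (hℓ : ℓ.Prime) (hℓp : ℓ ≠ p) (hgood : W.IsGoodPrimeFor ℓ)
    {A : ValuationSubring Qbar} (hA : A.LiesOverPrime ℓ) {σ : GQ} (hσ : A.IsFrobeniusAt σ ℓ) :
    (tateMat b σ).trace = (W.apOfModel ℓ : ℤ_[p]) := by
  have : Fact ℓ.Prime := ⟨hℓ⟩
  have hrel : ∀ f : tateModule (W.map (Int.castRingHom ℚ)) p,
      tateAct σ (tateAct σ f) - (W.apOfModel ℓ : ℤ_[p]) • tateAct σ f + (ℓ : ℤ_[p]) • f = 0 := by
    intro f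
    rw [show (W.apOfModel ℓ : ℤ_[p]) • tateAct σ f = W.apOfModel ℓ • tateAct σ f from
        Int.cast_smul_eq_zsmul (R := ℤ_[p]) (M := tateModule (W.map (Int.castRingHom ℚ)) p) _ _,
      show (ℓ : ℤ_[p]) • f = (ℓ : ℤ) • f from
        (Nat.cast_smul_eq_nsmul (R := ℤ_[p]) (M := tateModule (W.map (Int.castRingHom ℚ)) p)
          _ _).trans (natCast_zsmul _ _).symm]
    refine Subtype.ext (funext fun n => ?_)
    show σ • σ • f.1 n - W.apOfModel ℓ • (σ • f.1 n) + (ℓ : ℤ) • f.1 n = 0
    refine EllLocal.eq_of_residueRed_eq hℓ hA hgood (n := p ^ n)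
      (fun hd => hℓp ((Nat.prime_dvd_prime_iff_eq hℓ Fact.out).1 (hℓ.dvd_of_dvd_pow hd))) ?_
      (nsmul_zero _) ?_
    · have hs : ∀ P : PtQ (W.map (Int.castRingHom ℚ)), p ^ n • P = 0 → p ^ n • (σ • P) = 0 :=
        fun P hP => by rw [← tateAct.smul_nsmul_point, hP]; rfl
      simp only [nsmul_add, nsmul_sub, smul_comm (p ^ n) (W.apOfModel ℓ),
        smul_comm (p ^ n) ((ℓ : ℤ)), hs _ (hs _ (tateModule_pow f n)), hs _ (tateModule_pow f n),
        tateModule_pow f n]
      abel_nf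
    · rw [map_zero]
      exact redAt_frobenius_relation hA hgood hσ (f.1 n)
  set T : Module.End ℤ_[p] (tateModule (W.map (Int.castRingHom ℚ)) p) := tateAct σ
  have hM : tateMat b σ = LinearMap.toMatrixAlgEquiv b T := rfl
  have h0 : T * T - (W.apOfModel ℓ : ℤ_[p]) • T + (ℓ : ℤ_[p]) • 1 = 0 :=
    LinearMap.ext fun f => hrel f
  have h1 := congrArg (LinearMap.toMatrixAlgEquiv b) h0
  rw [map_add, map_sub, map_mul, map_smul, map_smul, map_one, map_zero, ← hM] at h1
  have hdet : (tateMat b σ).det = (ℓ : ℤ_[p]) := by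
    rw [det_tateMat, EigenRep.epsilon_frobenius hℓ hℓp hA hσ]
  have h2 : ((tateMat b σ).trace - (W.apOfModel ℓ : ℤ_[p])) • tateMat b σ = 0 := by
    ext i j
    have h3 := congrFun (congrFun h1 i) j
    rw [Matrix.det_fin_two] at hdet
    simp only [Matrix.add_apply, Matrix.sub_apply, Matrix.smul_apply, Matrix.mul_apply,
      Fin.sum_univ_two, Matrix.one_apply, Matrix.zero_apply, smul_eq_mul, Matrix.trace_fin_two]
      at h3 ⊢
    fin_cases i <;> fin_cases j <;>
      simp only [Fin.zero_eta, Fin.mk_one, Fin.isValue, if_true, zero_ne_one, one_ne_zero, if_false,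
        mul_zero, mul_one] at h3 ⊢ <;>
      first | linear_combination h3 | linear_combination h3 + hdet
  have h3 := congrArg Matrix.det h2
  rw [Matrix.det_smul, hdet, Fintype.card_fin, Matrix.det_zero, mul_eq_zero] at h3
  rcases h3 with h3 | h3
  · exact sub_eq_zero.1 (pow_eq_zero_iff two_ne_zero |>.1 h3)
  · exact absurd (Nat.cast_eq_zero.1 h3) hℓ.ne_zero

/-- A basis adapted to the place: triangular on decomposition, trivial quotient on inertia. -/
structure IsAdapted (P : ValuationSubring Qbar) : Prop where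
  low : ∀ σ ∈ P.decompositionSubgroup ℚ, tateMat b σ 1 0 = 0
  quot : ∀ σ ∈ P.inertiaSubgroupIn ℚ, tateMat b σ 1 1 = 1

/-- The line of the first basis vector in coordinates. -/
theorem mem_span_zero_iff (v : tateModule (W.map (Int.castRingHom ℚ)) p) :
    v ∈ (ℤ_[p] ∙ b 0) ↔ b.repr v 1 = 0 := by
  rw [Submodule.mem_span_singleton]
  constructor
  · rintro ⟨c, rfl⟩; simp
  · intro h
    refine ⟨b.repr v 0, ?_⟩
    conv_rhs => rw [← b.sum_repr v, Fin.sum_univ_two, h, zero_smul, add_zero]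

/-- Multiplicative reduction at `p`: an adapted basis with quotient sign at every element. -/
theorem exists_adapted_mult (hΔ0 : W.Δ ≠ 0) (hΔ : (p : ℤ) ∣ W.Δ) (hc₄ : ¬ (p : ℤ) ∣ W.c₄)
    {P : ValuationSubring Qbar} (hP : P.LiesOverPrime p) :
    ∃ b : Module.Basis (Fin 2) ℤ_[p] (tateModule (W.map (Int.castRingHom ℚ)) p),
      IsAdapted b P ∧ ∀ σ ∈ P.decompositionSubgroup ℚ, tateMat b σ 1 1 ^ 2 = 1 := by
  obtain ⟨b, hI, hD⟩ := EllLocal.Mult.exists_tate_shape (p := p) (q := p) (A := P) (W := W)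
    ⟨Fact.out, hP, hΔ0, hΔ, hc₄⟩
  refine ⟨b, ⟨fun σ hσ => ?_, fun σ hσ => ?_⟩, fun σ hσ => ?_⟩
  · obtain ⟨-, x, hx, -⟩ := hD σ hσ
    rw [tateMat_apply, hx _ (Submodule.mem_span_singleton_self _)]
    simp
  · have h := (mem_span_zero_iff b _).1 (hI σ hσ (b 1))
    rw [map_sub, Finsupp.sub_apply, sub_eq_zero] at h
    rw [tateMat_apply, h, Module.Basis.repr_self, Finsupp.single_eq_same]
  · have h := (mem_span_zero_iff b _).1 ((hD σ hσ).1 (b 1))
    rw [map_sub, map_zsmul, Finsupp.sub_apply, Finsupp.smul_apply, Module.Basis.repr_self,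
      Finsupp.single_eq_same, sub_eq_zero, zsmul_one] at h
    rw [tateMat_apply, h, sq, ← Int.cast_mul, EllLocal.Mult.sign_mul_self, Int.cast_one]

/-- Good ordinary reduction at `p`: an adapted basis; Frobenius acts on the quotient by the unit
root. -/
theorem exists_adapted_good (hgood : W.IsGoodPrimeFor p) (hord : ¬ (p : ℤ) ∣ W.apOfModel p)
    {P : ValuationSubring Qbar} (hP : P.LiesOverPrime p) :
    ∃ b : Module.Basis (Fin 2) ℤ_[p] (tateModule (W.map (Int.castRingHom ℚ)) p),
      IsAdapted b P ∧ ∀ φ, P.IsFrobeniusAt φ p → IsUnit (tateMat b φ 1 1) ∧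
        tateMat b φ 1 1 ^ 2 - (W.apOfModel p : ℤ_[p]) * tateMat b φ 1 1 + (p : ℤ_[p]) = 0 := by
  obtain ⟨b, hb₀, hb₁⟩ := exists_ordinary_basis hP hgood
    ((ordinaryRedAt_iff hP hgood).2 (isGoodOrdinary_of_not_dvd hgood hord))
  refine ⟨b, ⟨fun σ hσ => ?_, fun σ hσ => ?_⟩, fun φ hφ => ?_⟩
  · rw [tateMat_apply]
    exact repr_rho_zero_one hP hgood hb₀ hb₁ hσ
  · have h := repr_rho_sub_one hP hgood hb₀ hb₁ hσ (b 1)
    rw [map_sub, Finsupp.sub_apply, sub_eq_zero] at h
    rw [tateMat_apply, h, Module.Basis.repr_self, Finsupp.single_eq_same]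
  · rw [tateMat_apply]
    exact ⟨isUnit_repr_rho_one hP hgood hb₀ hb₁ hφ.mem_decompositionSubgroup,
      frobenius_quotient_root hP hgood hb₀ hb₁ hφ⟩

end Fermat.Agent.Engine.Top
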