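import Fermat.Agent.Engine.Top.CurvePoint
import Fermat.Agent.Engine.FlatAtP
import Fermat.Agent.Deform.TWInertia

/-!
# The residual shape at `p` and an auxiliary kernel

The residual matrices are torsion matrices; at a prime of multiplicative reduction they have
ordinary shape; an auxiliary curve with good reduction at `p` gives a kernel with Fontaine's bound on
which the cyclotomic character is trivial modulo `p`.
-/

set_option autoImplicit false
set_option linter.unusedSectionVars false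

noncomputable section

open IsLocalRing Fermat.Agent.DefRing Fermat.Agent.Deform Fermat.Agent.FlatJ0
open scoped WeierstrassCurve.Affine

namespace Fermat.Agent.Engine.Top

local notation "Qbar" => AlgebraicClosure ℚ

variable {p : ℕ} [Fact p.Prime]

section Torsion

variable {V : WeierstrassCurve ℤ}
  (b : Module.Basis (Fin 2) (ZMod p)
    (Submodule.torsionBy ℤ ((V.map (Int.castRingHom ℚ))⁄Qbar).Point p))

/-- Matrices in a basis of the torsion are torsion matrices. -/
theorem isTorsionMatrix_of_basis {k : Type} [Field k] (f : ZMod p →+* k)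
    (ρ : GQ →* Matrix (Fin 2) (Fin 2) k)
    (hρ : ∀ σ, ρ σ = (LinearMap.toMatrix b b
      (WeierstrassCurve.Affine.Point.galoisRepModuleEnd (K := Qbar) ℚ
        (V.map (Int.castRingHom ℚ)) p σ)).map f) :
    IsTorsionMatrix (M := EllLocal.PtQ (V.map (Int.castRingHom ℚ))) p ρ := by
  have : NeZero p := ⟨(Fact.out : p.Prime).ne_zero⟩
  have hval : ∀ (c : ZMod p) (i : Fin 2), c.val • ((b i : _) : EllLocal.PtQ (V.map (Int.castRingHom ℚ))) =
      ((c • b i : _) : EllLocal.PtQ (V.map (Int.castRingHom ℚ))) := fun c i => by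
    conv_rhs => rw [← ZMod.natCast_zmod_val c, Nat.cast_smul_eq_nsmul]
    rfl
  refine ⟨fun i => (b i).1, ⟨fun i => ?_, fun z hz => ?_, fun v hv i => ?_⟩, fun σ => ?_⟩
  · rw [← natCast_zsmul]
    exact (Submodule.mem_torsionBy_iff _ _).1 (b i).2
  · have hz' : z ∈ Submodule.torsionBy ℤ (EllLocal.PtQ (V.map (Int.castRingHom ℚ))) (p : ℤ) := by
      rw [Submodule.mem_torsionBy_iff, natCast_zsmul]; exact hz
    refine ⟨fun i => (b.repr ⟨z, hz'⟩ i).val, ?_⟩
    simp only [Fin.sum_univ_two, hval]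
    exact ((congrArg Subtype.val (b.sum_repr ⟨z, hz'⟩)).symm.trans (by rw [Fin.sum_univ_two]; rfl))
  · have h0 : ∑ j, (v j : ZMod p) • b j = 0 := by
      refine Subtype.ext (Eq.trans ?_ hv)
      simp only [Fin.sum_univ_two, Nat.cast_smul_eq_nsmul]
      rfl
    exact (ZMod.natCast_eq_zero_iff _ _).1 (Fintype.linearIndependent_iff.1 b.linearIndependent _ h0 i)
  · set f' := WeierstrassCurve.Affine.Point.galoisRepModuleEnd (K := Qbar) ℚ
      (V.map (Int.castRingHom ℚ)) p σ
    refine ⟨Matrix.of fun i j => (LinearMap.toMatrix b b f' i j).val, fun j => ?_, ?_⟩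
    · have h := congrArg Subtype.val (b.sum_repr (f' (b j)))
      simp only [Fin.sum_univ_two, Matrix.of_apply, hval, LinearMap.toMatrix_apply]
      rw [Fin.sum_univ_two] at h
      exact h.symm
    · rw [hρ σ]
      ext i j
      simp only [Matrix.map_apply, Matrix.of_apply]
      conv_lhs => rw [← ZMod.natCast_zmod_val (LinearMap.toMatrix b b f' i j), map_natCast]

end Torsion

/-- An auxiliary kernel: Fontaine's bound, and the cyclotomic character trivial modulo `p`. -/
theorem exists_cycloKernel (hp : 5 ≤ p) {A : ValuationSubring Qbar} (hA : A.LiesOverPrime p) :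
    ∃ (N : Subgroup GQ) (ρ : GQ →* Matrix (Fin 2) (Fin 2) (ZMod p)),
      IsBoundKernel A p N ρ ∧
      ∀ σ ∈ N, PadicInt.toZModPow 1 (EigenRep.epsilonPadic p σ : ℤ_[p]) = 1 := by
  let E : WeierstrassCurve ℤ := ⟨0, 0, 0, 1, 0⟩
  have hΔ : E.Δ = -64 := by
    simp only [E, WeierstrassCurve.Δ, WeierstrassCurve.b₂, WeierstrassCurve.b₄,
      WeierstrassCurve.b₆, WeierstrassCurve.b₈]
    norm_num
  have hΔ0 : E.Δ ≠ 0 := by rw [hΔ]; norm_num
  have hgood : E.IsGoodPrimeFor p := fun h => by
    rw [hΔ, dvd_neg] at h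
    have h' : p ∣ 64 := by exact_mod_cast h
    have h2 : p ∣ 2 := (Fact.out : p.Prime).dvd_of_dvd_pow (show p ∣ 2 ^ 6 from h')
    have := Nat.le_of_dvd two_pos h2
    omega
  have : (E.map (Int.castRingHom ℚ)).IsElliptic := BigImage.isElliptic_of_Δ_ne_zero hΔ0
  have hcard : Nat.card (Submodule.torsionBy ℤ ((E.map (Int.castRingHom ℚ))⁄Qbar).Point p) = p ^ 2 :=
    EllTorsion.natCard_torsionBy_baseChange (E.map (Int.castRingHom ℚ)) Qbar p
      (Nat.cast_ne_zero.2 (Fact.out : p.Prime).ne_zero)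
  have hker := EllTorsion.galoisFactorsThroughFiniteLevel_galoisRepModuleEnd
    (E.map (Int.castRingHom ℚ)) (Fact.out : p.Prime).ne_zero
  let ρ₀ := (E.map (Int.castRingHom ℚ)).residualGaloisRepOf p hcard hker
  let b : Module.Basis (Fin 2) (ZMod p) ρ₀.V := Module.finBasisOfFinrankEq _ _ ρ₀.finrank_eq
  let ρ : GQ →* Matrix (Fin 2) (Fin 2) (ZMod p) :=
    (LinearMap.toMatrixAlgEquiv b).toRingEquiv.toRingHom.toMonoidHom.comp ρ₀.ρ
  have hρ := isTorsionMatrix_of_basis b (RingHom.id (ZMod p)) ρ fun σ => rfl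
  refine ⟨_, ρ, isBoundKernel_torsionKer hA (by omega) hgood hρ, fun σ hσ => ?_⟩
  have h1 : ρ₀.ρ σ = 1 := LinearMap.ext fun x => Subtype.ext (hσ.2 _ (by
    rw [← natCast_zsmul]
    exact (Submodule.mem_torsionBy_iff _ _).1 x.2))
  obtain ⟨a, ha⟩ := Deform.exists_exponent_level (Fact.out : p.Prime) σ 1
  have hd := (BigImage.residual_detIsCyclotomic (E := E.map (Int.castRingHom ℚ)) (p := p)
    (hcard := hcard) (hker := hker)).2 1 σ a ha
  rw [pow_one, ZMod.natCast_self, Ideal.span_singleton_eq_bot.2 rfl, Ideal.mem_bot,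
    sub_eq_zero] at hd
  change LinearMap.det (ρ₀.ρ σ) = (a : ZMod p) at hd
  rw [h1, map_one] at hd
  obtain ⟨ζ, hζ⟩ := EigenRep.exists_primitiveRoot (p := p) 1
  rw [EigenRep.toZModPow_epsilon_eq hζ (ha ζ hζ.pow_eq_one)]
  exact (show ∀ m, m = p → ((a : ℕ) : ZMod m) = 1 from fun m hm => by subst hm; exact hd.symm) _
    (pow_one p)

variable {W : WeierstrassCurve ℤ} {C : Coeff p}

namespace ResidualData

variable (R : ResidualData W C)

/-- The residual representation is the torsion of the curve in a basis. -/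
theorem isTorsionMatrix :
    IsTorsionMatrix (M := EllLocal.PtQ (W.map (Int.castRingHom ℚ))) p R.D.rbar :=
  isTorsionMatrix_of_basis R.basis C.resHom R.D.rbar R.rbar_eq

/-- Multiplicative reduction at `p`: ordinary shape. -/
theorem isFlatShape_mult (h : Residual W p) (hbad : ¬ W.IsGoodPrimeFor p)
    {A : ValuationSubring Qbar} (hA : A.LiesOverPrime p) : IsFlatShape A p R.D.rbar := by
  have := isElliptic_of_residual h.toOdd
  have hp : p.Prime := Fact.out
  have : NeZero p := ⟨hp.ne_zero⟩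
  obtain ⟨b, hb⟩ := R.exists_tateMat_residue
  have hd : (p : ℤ) ∣ W.Δ := not_not.1 hbad
  obtain ⟨b', hb', -⟩ := exists_adapted_mult h.delta_ne_zero hd (h.semistable p hp hd) hA
  obtain ⟨u, hu⟩ := exists_tateMat_conj b b'
  let r : ℤ_[p] →+* ResidueField C.O := (residue C.O).comp C.ι₀
  let P : (Matrix (Fin 2) (Fin 2) (ResidueField C.O))ˣ := Units.map r.mapMatrix.toMonoidHom u
  have hconj : ∀ σ, conjRep P R.D.rbar σ = r.mapMatrix (tateMat b' σ) := fun σ => by
    rw [conjRep_apply, ← hb σ, hu σ, map_mul, map_mul]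
    rfl
  refine ⟨P, Or.inl ⟨fun σ hσ => ?_, fun σ hσ => ?_, fun σ hσ => ?_, ?_⟩⟩
  · rw [hconj, RingHom.mapMatrix_apply, Matrix.map_apply, hb'.low σ hσ, map_zero]
  · rw [hconj, RingHom.mapMatrix_apply, Matrix.map_apply, hb'.quot σ hσ, map_one]
  · rw [hconj, RingHom.mapMatrix_apply, Matrix.map_apply, hb'.inertia_zero_zero hσ, ← map_pow]
    obtain ⟨a, ha⟩ := Deform.exists_exponent_level hp σ 1
    have h1 := C.residue_cyclo σ a fun μ hμ => ha μ (by rwa [pow_one])
    rw [map_pow, show r (EigenRep.epsilonPadic p σ : ℤ_[p]) = (a : ResidueField C.O) from h1]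
    have h2 : r (EigenRep.epsilonPadic p σ : ℤ_[p]) ≠ 0 :=
      ((EigenRep.epsilonPadic p σ).isUnit.map r).ne_zero
    rw [show r (EigenRep.epsilonPadic p σ : ℤ_[p]) = (a : ResidueField C.O) from h1,
      ← map_natCast C.resHom, Ne, map_eq_zero] at h2
    rw [← map_natCast C.resHom, ← map_pow, ZMod.pow_card_sub_one_eq_one h2, map_one]
  · obtain ⟨c, hc⟩ := Deform.exists_isCycloMod p
    obtain ⟨u₀, hu₀⟩ := IsCyclic.exists_generator (α := (ZMod p)ˣ)
    obtain ⟨g, hg, hgu⟩ := Deform.exists_inertia_cyclo_eq hp hc hA u₀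
    refine ⟨g, hg, fun n hn => ?_⟩
    rw [hconj, RingHom.mapMatrix_apply, Matrix.map_apply, hb'.inertia_zero_zero hg,
      show r (EigenRep.epsilonPadic p g : ℤ_[p]) = (((c g : ZMod p)).val : ResidueField C.O) from
        C.residue_cyclo g _ fun μ hμ => hc g μ hμ,
      ← map_natCast C.resHom, ZMod.natCast_zmod_val, ← map_pow, ← map_one C.resHom] at hn
    have h1 : c g ^ n = 1 := Units.ext (by simpa using C.resHom.injective hn)
    rw [hgu] at h1
    have h2 := orderOf_dvd_of_pow_eq_one h1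
    rwa [orderOf_eq_card_of_forall_mem_zpowers hu₀, Nat.card_eq_fintype_card,
      ZMod.card_units_eq_totient, Nat.totient_prime hp] at h2

end ResidualData

end Fermat.Agent.Engine.Top

end
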