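import Fermat.Agent.Engine.Top.Residual
import Fermat.Agent.EigenSystems.ModelIndependent
import Fermat.Agent.EigenSystems.FromForms

/-!
# The residual system of a residually modular curve

`W[p]` spans the matrix algebra, and residual modularity at level `N` gives integers `a ℓ`, equal
to `a_ℓ(W)` at good primes, which are the residual traces of Frobenius and the coefficients of the
form at every prime `ℓ ∤ N p`.
-/

set_option autoImplicit false
set_option linter.style.haveILetI false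

noncomputable section

open IsLocalRing CongruenceSubgroup WeierstrassCurve.Affine Fermat.Agent.DefRing
open scoped WeierstrassCurve.Affine

namespace Fermat.Agent.Engine.Top

local notation "Qbar" => AlgebraicClosure ℚ

variable {W : WeierstrassCurve ℤ} {p : ℕ} [Fact p.Prime]

namespace ResidualData

variable {C : Coeff p} (R : ResidualData W C)

/-- The image spans the matrices. -/
theorem span_rbar (h : OddResidual W p) :
    Submodule.span (ResidueField C.O) (Set.range R.D.rbar) = ⊤ := by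
  have := isElliptic_of_residual h
  have hp2 : p ≠ 2 := h.ne_two
  let ρ := (W.map (Int.castRingHom ℚ)).residualGaloisRepOf p (natCard_torsion h)
    (torsion_finiteLevel h)
  let φ := C.resHom
  letI : Algebra (ZMod p) (ResidueField C.O) := φ.toAlgebra
  let b : Module.Basis (Fin 2) (ZMod p) ρ.V := R.basis
  let bk : Module.Basis (Fin 2) (ResidueField C.O) (ρ.baseChangeAlong φ).V :=
    Algebra.TensorProduct.basis (ResidueField C.O) b
  have hspan := span_range_eq_top_of_isAbsolutelyIrreducible (ρ.baseChangeAlong φ)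
    (BigImage.residual_baseChangeAlong_isAbsolutelyIrreducible hp2 h.irreducible φ) bk
  rw [show (fun σ => LinearMap.toMatrix bk bk ((ρ.baseChangeAlong φ).ρ σ)) = ⇑R.D.rbar from
    funext fun σ => (LinearMap.toMatrix_baseChange _ (ρ.ρ σ) b b).trans (R.rbar_eq σ).symm] at hspan
  exact hspan

/-- The trace in terms of the curve. -/
theorem trace_rbar (σ : GQ) : (R.D.rbar σ).trace =
    C.resHom (Point.galoisTrace ℚ (W.map (Int.castRingHom ℚ)) p σ) := by
  rw [Point.galoisTrace_def, LinearMap.trace_eq_matrix_trace (ZMod p) R.basis, R.rbar_eq]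
  exact (AddMonoidHom.map_trace C.resHom.toAddMonoidHom _).symm

end ResidualData

/-- **The residual system of a residually modular curve.** -/
theorem exists_system (h : OddResidual W p) {N : ℕ} [NeZero N]
    (hmod : W.IsResiduallyModularOfLevel p N) :
    ∃ (a : ℕ → ℤ) (f : CuspForm (Gamma0 N) 2) (𝔪 : Ideal (integralClosure ℤ ℂ)),
      f.IsNormalizedEigenform ∧ 𝔪.IsMaximal ∧ (p : integralClosure ℤ ℂ) ∈ 𝔪 ∧
      (∀ ℓ : ℕ, ℓ.Prime → W.IsGoodPrimeFor ℓ → a ℓ = W.apOfModel ℓ) ∧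
      ∀ ℓ : ℕ, ℓ.Prime → ¬ ℓ ∣ N → ℓ ≠ p →
        (∃ c : integralClosure ℤ ℂ, (c : ℂ) = ModularFormClass.qCoeff f ℓ ∧
          c - (a ℓ : integralClosure ℤ ℂ) ∈ 𝔪) ∧
        ∀ A : ValuationSubring Qbar, A.LiesOverPrime ℓ → ∀ σ : GQ, A.IsFrobeniusAt σ ℓ →
          Point.galoisTrace ℚ (W.map (Int.castRingHom ℚ)) p σ = (a ℓ : ZMod p) := by
  classical
  obtain ⟨f, 𝔪, hf, h𝔪, hp𝔪, hcong⟩ := hmod
  have := isElliptic_of_residual h
  have hΔ := h.delta_ne_zero
  haveI := h𝔪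
  let k := integralClosure ℤ ℂ ⧸ 𝔪
  letI : Field k := Ideal.Quotient.field 𝔪
  haveI : CharP k p := by
    refine (CharP.charP_iff_prime_eq_zero Fact.out).mpr ?_
    rw [← map_natCast (Ideal.Quotient.mk 𝔪)]
    exact Ideal.Quotient.eq_zero_iff_mem.mpr hp𝔪
  let φ : ZMod p →+* k := ZMod.castHom dvd_rfl k
  let E := W.map (Int.castRingHom ℚ)
  obtain ⟨ρ, hρ, -⟩ := S29.result hf (p := p) Fact.out (Ideal.Quotient.mk 𝔪)
  have hk : ∀ ℓ : ℕ, ℓ.Prime → ℓ ≠ p → (ℓ : k) ≠ 0 := fun ℓ hℓ hℓp h0 => hℓp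
    ((Nat.prime_dvd_prime_iff_eq Fact.out hℓ).mp ((CharP.cast_eq_zero_iff k p ℓ).mp h0)).symm
  have key : ∀ g : GQ, LinearMap.trace k ρ.V (ρ.ρ g) = φ (Point.galoisTrace ℚ E p g) := by
    obtain ⟨L₁, hf₁, hL₁⟩ := ρ.factorsThroughFiniteLevel
    obtain ⟨L₂, hf₂, hL₂⟩ := torsion_finiteLevel h
    refine EigenSystems.eq_of_eq_at_frobenius
      ⟨L₁, hf₁, fun g g' e =>
        congrArg (LinearMap.trace k ρ.V) (EigenSystems.eq_of_fixed ρ.ρ hL₁ g g' e)⟩
      ⟨L₂, hf₂, fun g g' e => by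
        simp only [Point.galoisTrace_def, E]
        rw [EigenSystems.eq_of_fixed _ hL₂ g g' e]⟩
      (insert p (W.Δ.natAbs.primeFactors ∪ N.primeFactors)) fun ℓ hℓ hℓS A hA σ hσ => ?_
    simp only [Finset.mem_insert, Finset.mem_union, Nat.mem_primeFactors, hℓ, true_and, ne_eq,
      Int.natAbs_eq_zero, hΔ, not_false_eq_true, and_true, not_or, NeZero.ne N] at hℓS
    obtain ⟨hℓp, hℓΔ, hd⟩ := hℓS
    have hgood : W.IsGoodPrimeFor ℓ := fun h' => hℓΔ (Int.natCast_dvd.mp h')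
    have := Fact.mk hℓ
    obtain ⟨c, hc, hcp⟩ := hρ ℓ hℓ hd (hk ℓ hℓ hℓp) A hA σ hσ
    obtain ⟨c', hc', hmem⟩ := hcong ℓ hℓ hgood hd hℓp
    obtain rfl : c' = c := Subtype.ext (hc'.trans hc.symm)
    rw [EigenSystems.trace_eq_of_charpoly_eq ρ.finrank_eq hcp,
      EllFrobenius.galoisTrace_eq_apOfModel W ℓ p hℓp hgood A σ hA hσ, map_intCast,
      ← map_intCast (Ideal.Quotient.mk 𝔪)]
    exact Ideal.Quotient.eq.mpr hmem
  -- a Frobenius at each prime
  let a : ℕ → ℤ := fun ℓ =>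
    if hℓ : ℓ.Prime then
      if W.IsGoodPrimeFor ℓ then W.apOfModel ℓ else
        ((Point.galoisTrace ℚ E p (Classical.choose (Frobenius.exists_isFrobeniusAt_qbar hℓ
          (Classical.choose_spec (Frobenius.exists_liesOverPrime Qbar hℓ))))).val : ℤ)
    else 0
  refine ⟨a, f, 𝔪, hf, h𝔪, hp𝔪, fun ℓ hℓ hg => by simp [a, hℓ, hg], fun ℓ hℓ hℓN hℓp => ?_⟩
  have := Fact.mk hℓ
  have hall : ∀ A : ValuationSubring Qbar, A.LiesOverPrime ℓ → ∀ σ : GQ, A.IsFrobeniusAt σ ℓ →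
      φ (Point.galoisTrace ℚ E p σ) =
        Ideal.Quotient.mk 𝔪 ⟨_, EigenSystems.isIntegral_qCoeff hf ℓ⟩ := fun A hA σ hσ => by
    obtain ⟨c, hc, hcp⟩ := hρ ℓ hℓ hℓN (hk ℓ hℓ hℓp) A hA σ hσ
    rw [← key, EigenSystems.trace_eq_of_charpoly_eq ρ.finrank_eq hcp]
    exact congrArg _ (Subtype.ext hc)
  obtain ⟨A₀, σ₀, hA₀, hσ₀, haσ⟩ : ∃ A₀, ∃ σ₀ : GQ, ValuationSubring.LiesOverPrime A₀ ℓ ∧
      A₀.IsFrobeniusAt σ₀ ℓ ∧ (a ℓ : ZMod p) = Point.galoisTrace ℚ E p σ₀ := by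
    have hA := Classical.choose_spec (Frobenius.exists_liesOverPrime Qbar hℓ)
    refine ⟨_, _, hA, Classical.choose_spec (Frobenius.exists_isFrobeniusAt_qbar hℓ hA), ?_⟩
    by_cases hg : W.IsGoodPrimeFor ℓ
    · simp only [a, dif_pos hℓ, if_pos hg]
      exact (EllFrobenius.galoisTrace_eq_apOfModel W ℓ p hℓp hg _ _ hA
        (Classical.choose_spec (Frobenius.exists_isFrobeniusAt_qbar hℓ hA))).symm
    · simp only [a, dif_pos hℓ, if_neg hg]
      rw [Int.cast_natCast]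
      exact ZMod.natCast_rightInverse _
  refine ⟨⟨⟨_, EigenSystems.isIntegral_qCoeff hf ℓ⟩, rfl, Ideal.Quotient.eq.mp ?_⟩,
    fun A hA σ hσ => ?_⟩
  · rw [← hall A₀ hA₀ σ₀ hσ₀, ← haσ, map_intCast, map_intCast]
  · rw [haσ]
    exact φ.injective ((hall A hA σ hσ).trans (hall A₀ hA₀ σ₀ hσ₀).symm)

end Fermat.Agent.Engine.Top

end
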