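import Fermat.Agent.Engine.Top.LiftCases
import Fermat.Agent.Engine.Lifting.RaisingAtP

/-!
# Good ordinary reduction with `a_p ^ 2 ≢ 1`: `p` leaves the level

Without classes below, a power of the defect of the unit root would kill the classes of level
`p M'`; but it is a unit.
-/

set_option autoImplicit false

noncomputable section

open IsLocalRing Fermat.Agent.DefRing Fermat.Agent.Deform

namespace Fermat.Agent.Engine.Top

open HeckeModule TRep Lifting

local notation "Qbar" => AlgebraicClosure ℚ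

variable {W : WeierstrassCurve ℤ} {p : ℕ} [Fact p.Prime] {C : Coeff p}

namespace ResidualData

variable (R : ResidualData W C) (Ch : PlaceChoice C)

/-- Inertia at `p` has residual trace `1 + det`. -/
theorem inertia_trace_rbar (h : Residual W p)
    (hcase : ¬ W.IsGoodPrimeFor p ∨ ¬ (p : ℤ) ∣ W.apOfModel p) {σ : GQ}
    (hσ : σ ∈ Ch.P.inertiaSubgroupIn ℚ) :
    (R.D.rbar σ).trace = 1 + (R.D.rbar σ).det := by
  refine trace_eq_one_add ((Group.isUnit σ).map R.D.rbar) rfl ?_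
  rw [R.det_rbar_algebraMap h σ]
  exact R.isOrdinaryOn_rbar Ch h hcase σ hσ σ hσ

/-- The defect of a level ring reduces to the residual one. -/
theorem toResidue_defect {T S : Finset ℕ} (P : ((R.ordLevel Ch T).withSigma S).RepRing) :
    toResidue P.instIsLocalHom P.residue_surjective (Ch.defect P.rep) = Ch.defect R.D.rbar := by
  rw [Ch.map_defect]
  exact congrArg Ch.defect P.isLift.reduces

/-- **`p` leaves the level.** -/
theorem modular_of_mul_prime_good (hinv : GalCoh.Reciprocity p) (hGW : GalCoh.GreenbergWilesLe p)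
    (h : Residual W p) (hgood : W.IsGoodPrimeFor p) (hap : ¬ (p : ℤ) ∣ W.apOfModel p)
    (hap1 : ¬ (p : ℤ) ∣ W.apOfModel p ^ 2 - 1) {T : Finset ℕ}
    (hT : ∀ q ∈ T, q.Prime ∧ q ≠ p ∧ q ∉ Smin W p)
    (hbad : ∀ q : ℕ, q.Prime → (q : ℤ) ∣ W.Δ → q ≠ p → q ∈ Smin W p ∪ T)
    (L : LocalChoices T) (hL : L.Valid p) (r₀ : T) (Φ₀ : T → Matrix (Fin 2) (Fin 2) C.O)
    (hΦ₀ : ∀ v, (Φ₀ v).map (residue C.O) = R.D.rbar (L.frob v))
    (hF : FramedPrimes p (R.ordLevel Ch T) (fun v : T => (v : ℕ)) L.frob L.tame)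
    (PB : (R.ordLevel Ch T).RepRing) {M' : ℕ} (hM' : Squarefree (p * M'))
    (hM'S : ∀ q : ℕ, q.Prime → q ∣ M' → q ∈ Smin W p)
    (hmod : W.IsResiduallyModularOfLevel p (p * M')) :
    W.IsResiduallyModularOfLevel p M' := by
  classical
  by_contra hno
  have hpp : p.Prime := Fact.out
  have hcase : ¬ W.IsGoodPrimeFor p ∨ ¬ (p : ℤ) ∣ W.apOfModel p := Or.inr hap
  have hpM' : ¬ p ∣ M' := fun hd => (mem_Smin.1 (hM'S p hpp hd)).2.2.2.1 rfl
  have hsq' : Squarefree M' := hM'.squarefree_of_dvd (dvd_mul_left _ _)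
  have : NeZero M' := ⟨hsq'.ne_zero⟩
  have : Fact ((p : C.O) ∈ maximalIdeal C.O) := ⟨C.p_mem⟩
  have hS₀ : ∀ q : ℕ, q.Prime → q ∣ M' → q ∈ Smin W p ∪ T ∪ {p} := fun q hq hd =>
    Finset.mem_union_left _ (Finset.mem_union_left _ (hM'S q hq hd))
  have hS₁ : ∀ q : ℕ, q.Prime → q ∣ p * M' → q ∈ Smin W p ∪ {p} := fun q hq hd => by
    rcases hq.dvd_mul.1 hd with hd | hd
    · exact Finset.mem_union_right _
        (Finset.mem_singleton.2 ((Nat.prime_dvd_prime_iff_eq hq hpp).1 hd))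
    · exact Finset.mem_union_left _ (hM'S q hq hd)
  obtain ⟨r, -, Q, X, -, hX⟩ :=
    R.exists_aux_good Ch hinv hGW h T hT L hL r₀ Φ₀ hΦ₀ PB hgood hap hap1
  have H : LevelSetting p C.ι₀ (p * M') (apLam W C.O) (fun v : T => (v : ℕ)) (R.ordLevel Ch T)
      L.frob L.tame := R.levelSetting_ap h hT hbad hM' hS₁ hmod Ch.P _ hF
  have hplace := R.topPlaceHyp_ap Ch h hcase hbad hsq' hS₀
  have hplace' := R.topPlaceHyp_ap Ch h hcase hbad hM' fun q hq hd => by
    have := hS₁ q hq hd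
    simp only [Finset.mem_union] at this ⊢
    exact this.imp Or.inl id
  obtain ⟨α, ψ, hTW⟩ := H.toBaseSetting.exists_twData hX
  obtain ⟨B, -, hB⟩ := H.exists_liftingLevels hX hplace' hTW
  have e0 : liftLevel M' (fun v : T => (v : ℕ)) ∅ = M' := by simp [liftLevel]
  have : Subsingleton (CohLoc
      (awayMonoid (lamIdeal (Λ := C.O) (residue_surjective (R := C.O))
        (R.ordLevel Ch T).Sigma (apLam W C.O)))
      (scalarRep (1 : (ZMod (liftLevel M' (fun v : T => (v : ℕ)) ∅))ˣ →* C.O) C.O)) := by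
    rw [e0]
    exact not_nontrivial_iff_subsingleton.1 fun hV =>
      hno (R.modular_of_nontrivial h hbad hsq' hS₀ Ch.P _ hV)
  obtain ⟨k, hk⟩ := LevelSetting.exists_pow_act_eq_zero Ch.over_p
    (fun σ hσ => R.inertia_trace_rbar Ch h hcase hσ) (χ := C.cyclo) (fun _ => rfl) Ch.σ₀_mem
    Ch.unit Ch.frob (e := fun n => Ch.defect (X.P n).rep) (fun _ => rfl) hX hTW hpM' H hplace
    hplace' B hB ∅
  have hu : IsUnit (Ch.defect (X.P 0).rep) := notMem_maximalIdeal.1 fun hm => by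
    refine hap1 ((CharP.intCast_eq_zero_iff (ResidueField C.O) p _).1 ?_)
    push_cast
    rw [← R.defect_rbar_good Ch h hgood hap, ← R.toResidue_defect Ch (X.P 0)]
    exact (toResidue_eq_zero_iff _ _).2 hm
  obtain ⟨u, hu'⟩ := (hu.pow k).map (B.act ∅ 0)
  have h0 : (1 : Matrix (Fin (B.rank ∅)) (Fin (B.rank ∅)) (TwQuot C.O p r 0)) = 0 := by
    rw [← u.mul_inv, hu', hk 0, zero_mul]
  have : Nontrivial (TwQuot C.O p r 0) := (twAug C.O p r 0).domain_nontrivial
  exact zero_ne_one ((congrFun (congrFun h0 ⟨0, Nat.pos_of_ne_zero B.rank_ne_zero⟩)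
    ⟨0, Nat.pos_of_ne_zero B.rank_ne_zero⟩).symm.trans (Matrix.one_apply_eq _))

end ResidualData

/-- The case of multiplicative reduction at `p` with the Kummer element in the residual kernel. -/
def LiftingMultUnram (p : ℕ) [Fact p.Prime] : Prop :=
  ∀ (W : WeierstrassCurve ℤ) (C : Coeff p) (R : ResidualData W C) (Ch : PlaceChoice C),
    GalCoh.Reciprocity p → GalCoh.GreenbergWilesLe p → Residual W p → ¬ W.IsGoodPrimeFor p →
    R.D.rbar Ch.s = 1 → ∀ (T : Finset ℕ), (∀ q ∈ T, q.Prime ∧ q ≠ p ∧ q ∉ Smin W p) →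
    (∀ q : ℕ, q.Prime → (q : ℤ) ∣ W.Δ → q ≠ p → q ∈ Smin W p ∪ T) →
    ∀ (L : LocalChoices T), L.Valid p → ∀ (r₀ : T) (Φ₀ : T → Matrix (Fin 2) (Fin 2) C.O),
    (∀ v, (Φ₀ v).map (residue C.O) = R.D.rbar (L.frob v)) →
    FramedPrimes p (R.ordLevel Ch T) (fun v : T => (v : ℕ)) L.frob L.tame →
    (R.ordLevel Ch T).RepRing → ∀ M' : ℕ, Squarefree M' → ¬ p ∣ M' →
    (∀ q : ℕ, q.Prime → q ∣ M' → q ∈ Smin W p) →
    W.IsResiduallyModularOfLevel p (p * M') →
    (∀ s : Finset T, W.IsResiduallyModularOfLevel p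
        (Lifting.liftLevel M' (fun v : T => (v : ℕ)) s) → W.IsResiduallyModularOfLevel p M') →
    ∃ N : ℕ, 0 < N ∧ Squarefree N ∧ (∀ q : ℕ, q.Prime → q ∣ N → (q : ℤ) ∣ W.Δ) ∧
      W.IsModularModelOfLevel N

end Fermat.Agent.Engine.Top

end
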