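import Fermat.Agent.Engine.Top.LiftSetting
import Fermat.Agent.Engine.Top.PlaceQuad

/-!
# The point of the curve on the base ring, and modularity from a kernel inclusion

`exists_curvePoint`: the Tate module of `W` gives a point `x` of the level ring of the ordinary
condition.  `isModularModelOfLevel_of_ker_le`: if the kernel of the action on the classes at `N`
lies in the kernel of `x`, then `W` is modular of level `N`.
-/

set_option autoImplicit false

noncomputable section

open IsLocalRing Matrix Fermat.Agent.DefRing Fermat.Agent.Deform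

namespace Fermat.Agent.Engine.Top

open HeckeModule TRep

local notation "Qbar" => AlgebraicClosure ℚ

variable {W : WeierstrassCurve ℤ} {p : ℕ} [Fact p.Prime] {C : Coeff p}

/-- The point of the curve. -/
structure IsCurvePoint (R : ResidualData W C) (Ch : PlaceChoice C) {T : Finset ℕ}
    (PB : (R.ordLevel Ch T).RepRing) (x : PB.R →ₐ[C.O] C.O) : Prop where
  lift : R.IsCurveLift (mapRep (x : PB.R →+* C.O) PB.rep)

namespace ResidualData

variable (R : ResidualData W C) (Ch : PlaceChoice C) {T : Finset ℕ}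

/-- **The point exists.** -/
theorem exists_curvePoint (h : OddResidual W p)
    (hcase : ¬ W.IsGoodPrimeFor p ∨ ¬ (p : ℤ) ∣ W.apOfModel p)
    (hbad : ∀ q : ℕ, q.Prime → (q : ℤ) ∣ W.Δ → q ≠ p → q ∈ Smin W p ∪ T)
    (PB : (R.ordLevel Ch T).RepRing) : ∃ x, IsCurvePoint R Ch PB x := by
  obtain ⟨N, hN⟩ := R.exists_curveLift h
  have hl : IsLocalHom (algebraMap C.O C.O) := ⟨fun a ha => by simpa using ha⟩
  have hs : Function.Surjective (residue C.O ∘ algebraMap C.O C.O) := fun y => by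
    obtain ⟨x, rfl⟩ := residue_surjective y
    exact ⟨x, rfl⟩
  have hres : ∀ a : C.O, toResidue hl hs a = residue C.O a := fun a =>
    (toResidue hl hs).commutes a
  have hlift : (R.ordLevel Ch T).IsRepLift hl hs N :=
    { normal := hN.normal
      reduces := by
        refine MonoidHom.ext fun σ => ?_
        show (N σ).map (toResidue hl hs) = R.D.rbar σ
        rw [← hN.red σ]
        exact Matrix.ext fun i j => hres _
      cont := hN.cont
      eqs :=
        { det := fun σ => hN.det σ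
          unram := fun q hq hqS A hA σ hσ => by
            obtain ⟨hgood, hqp⟩ := good_of_not_mem hbad hq hqS
            exact hN.unramified q hq hqp hgood A hA σ hσ
          unipotent := fun q hq A hA σ hσ =>
            (hN.unipotent q (mem_Smin.1 hq).1 (mem_Smin.1 hq).2.2.2.1 A hA σ hσ).2 }
      atPlace := (mem'_ordinaryClosed hl hs).2 (hN.ordinary hcase Ch.P Ch.over_p) }
  obtain ⟨x, ⟨-, hx⟩, -⟩ := PB.universal C.O hl hs N hlift
  exact ⟨x, ⟨hx ▸ hN⟩⟩

end ResidualData

namespace IsCurvePoint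

variable {R : ResidualData W C} {Ch : PlaceChoice C} {T : Finset ℕ}
  {PB : (R.ordLevel Ch T).RepRing} {x : PB.R →ₐ[C.O] C.O} (hx : IsCurvePoint R Ch PB x)

include hx

/-- Inertia away from `p` has trace `2` at the point. -/
theorem trace_tame {q : ℕ} (hq : q.Prime) (hqp : q ≠ p) {A : ValuationSubring Qbar}
    (hA : A.LiesOverPrime q) {σ : GQ} (hσ : σ ∈ A.inertiaSubgroupIn ℚ) :
    x (PB.rep σ).trace = 2 := by
  have h := (hx.lift.unipotent q hq hqp A hA σ hσ).1
  rwa [trace_mapRep] at h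

/-- Inertia at a good prime is trivial at the point. -/
theorem eq_zero_of_good {q : ℕ} (hq : q.Prime) (hqp : q ≠ p) (hgood : W.IsGoodPrimeFor q)
    {A : ValuationSubring Qbar} (hA : A.LiesOverPrime q) {σ : GQ}
    (hσ : σ ∈ A.inertiaSubgroupIn ℚ) (i j : Fin 2) : x ((PB.rep σ - 1) i j) = 0 := by
  have h := congrFun (congrFun (hx.lift.unramified q hq hqp hgood A hA σ hσ) i) j
  rw [mapRep_apply, Matrix.map_apply] at h
  rw [Matrix.sub_apply, map_sub]
  change x (PB.rep σ i j) = _ at h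
  rw [h]
  rw [Matrix.one_apply, Matrix.one_apply]
  split_ifs <;> simp

/-- The trace of Frobenius at a good prime. -/
theorem trace_frob {ℓ : ℕ} (hℓ : ℓ.Prime) (hℓp : ℓ ≠ p) (hgood : W.IsGoodPrimeFor ℓ)
    {A : ValuationSubring Qbar} (hA : A.LiesOverPrime ℓ) {σ : GQ} (hσ : A.IsFrobeniusAt σ ℓ) :
    x (PB.rep σ).trace = apLam W C.O ℓ := by
  have h := hx.lift.trace_frob ℓ hℓ hℓp hgood A hA σ hσ
  rwa [trace_mapRep] at h

/-- Multiplicative reduction: the defect dies at the point. -/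
theorem defect_eq_zero (hbad : ¬ W.IsGoodPrimeFor p) : x (Ch.defect PB.rep) = 0 := by
  rw [Ch.map_defect, PlaceChoice.defect,
    hx.lift.unitRoot_mult hbad Ch.P Ch.over_p Ch.σ₀ Ch.σ₀_mem Ch.unit Ch.φ Ch.φ_mem, sub_self]

/-- **Modularity from a kernel inclusion.** -/
theorem isModularModelOfLevel_of_ker_le (h : OddResidual W p)
    (hbad : ∀ q : ℕ, q.Prime → (q : ℤ) ∣ W.Δ → q ≠ p → q ∈ Smin W p ∪ T) {N : ℕ} [NeZero N]
    (H : BaseSetting p C.ι₀ N (apLam W C.O) (R.ordLevel Ch T)) {d : ℕ}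
    (act : PB.R →+* Matrix (Fin d) (Fin d) C.O)
    (hact : ∀ o : C.O, act (algebraMap C.O PB.R o) = o • 1)
    (b : Module.Basis (Fin d) C.O (BaseClasses (O := C.O) (residue_surjective (R := C.O))
      (R.ordLevel Ch T).Sigma (apLam W C.O) N))
    (hb : ∀ (ℓ : ℕ) (hℓ : ℓ.Prime), ℓ ∉ (R.ordLevel Ch T).Sigma → ∀ A : ValuationSubring Qbar,
      A.LiesOverPrime ℓ → ∀ σ : GQ, A.IsFrobeniusAt σ ℓ → ∀ v,
        ⇑(b.repr ((MvPolynomial.X (⟨ℓ, hℓ⟩ : Nat.Primes) : HeckePoly C.O) • v)) =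
          act (PB.rep σ).trace *ᵥ ⇑(b.repr v))
    (hker : RingHom.ker act ≤ RingHom.ker x) :
    W.IsModularModelOfLevel N := by
  classical
  let hsO : Function.Surjective (residue C.O ∘ algebraMap C.O C.O) := residue_surjective (R := C.O)
  have hex : ∀ ℓ : ℕ, ∃ A : ValuationSubring Qbar, ∃ σ : GQ,
      ℓ.Prime → A.LiesOverPrime ℓ ∧ A.IsFrobeniusAt σ ℓ := fun ℓ => by
    by_cases hℓ : ℓ.Prime
    · obtain ⟨A, hA⟩ := Frobenius.exists_liesOverPrime Qbar hℓ
      obtain ⟨σ, hσ⟩ := Frobenius.exists_isFrobeniusAt_qbar hℓ hA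
      exact ⟨A, σ, fun _ => ⟨hA, hσ⟩⟩
    · exact ⟨⊤, 1, fun h => absurd h hℓ⟩
  choose A Fr hFr using hex
  let Ψ : AwayPoly C.O (↑(R.ordLevel Ch T).Sigma : Set ℕ) →+* PB.R := MvPolynomial.eval₂Hom (algebraMap C.O PB.R)
    fun l => (PB.rep (Fr ((l : Nat.Primes) : ℕ))).trace
  have hΨ : ∀ P v, ⇑(b.repr (awayIncl C.O (↑(R.ordLevel Ch T).Sigma : Set ℕ) P • v)) = act (Ψ P) *ᵥ ⇑(b.repr v) := by
    intro P
    induction P using MvPolynomial.induction_on with
    | C o =>
      intro v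
      rw [← MvPolynomial.algebraMap_eq, AlgHom.commutes, algebraMap_smul, map_smul,
        MvPolynomial.algebraMap_eq, MvPolynomial.eval₂Hom_C, hact, Matrix.smul_mulVec,
        Matrix.one_mulVec]
      rfl
    | add P P' h h' =>
      intro v
      rw [map_add, add_smul, map_add, Finsupp.coe_add, h, h', map_add, map_add, Matrix.add_mulVec]
    | mul_X P l h =>
      intro v
      rw [map_mul, mul_smul, h, map_mul, map_mul, ← Matrix.mulVec_mulVec,
        MvPolynomial.eval₂Hom_X']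
      refine congrArg _ ?_
      rw [← hb _ (l : Nat.Primes).2 l.2 _ (hFr _ (l : Nat.Primes).2).1 _ (hFr _ (l : Nat.Primes).2).2 v]
      simp [awayIncl]
  let K := FractionRing C.O
  let φ : AwayPoly C.O (↑(R.ordLevel Ch T).Sigma : Set ℕ) →+* K :=
    (algebraMap C.O K).comp ((x : PB.R →+* C.O).comp Ψ)
  have hφker : ∀ P, (∀ v : BaseClasses hsO (R.ordLevel Ch T).Sigma (apLam W C.O) N,
      awayIncl C.O (↑(R.ordLevel Ch T).Sigma : Set ℕ) P • v = 0) → φ P = 0 := fun P hP => by
    have h0 : act (Ψ P) = 0 := Matrix.toLin'.injective (LinearMap.ext fun c => by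
      obtain ⟨v, rfl⟩ : ∃ v, ⇑(b.repr v) = c := ⟨b.equivFun.symm c, b.equivFun.apply_symm_apply c⟩
      rw [Matrix.toLin'_apply, ← hΨ, hP, map_zero, map_zero]
      rfl)
    show algebraMap C.O K (x (Ψ P)) = 0
    rw [show x (Ψ P) = 0 from hker h0, map_zero]
  have hexact : ExactHyp (awayMonoid (lamIdeal hsO (R.ordLevel Ch T).Sigma (apLam W C.O))) (1 : (ZMod N)ˣ →* C.O) := by
    have := H.exactHyp (Λ := C.O) hsO (Finset.Subset.refl _) (fun _ => 1) ∅ N H.three (by simp)
    simpa [charSq] using this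
  have : Module.Finite C.O (BaseClasses hsO (R.ordLevel Ch T).Sigma (apLam W C.O) N) :=
    finite_cohLoc _ _ (maximalIdeal_le_lamIdeal hsO (R.ordLevel Ch T).Sigma (apLam W C.O))
  have hgood : ∀ ℓ : ℕ, ℓ.Prime → ℓ ∉ (R.ordLevel Ch T).Sigma → W.IsGoodPrimeFor ℓ ∧ ℓ ≠ p := fun ℓ hℓ hℓS =>
    ResidualData.good_of_not_mem hbad hℓ hℓS
  have hocc := occurs_of_cohChar (lamIdeal hsO (R.ordLevel Ch T).Sigma (apLam W C.O)) hexact φ hφker
    (lam := fun ℓ => algebraMap C.O K (apLam W C.O ℓ)) fun l => by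
      show algebraMap C.O K (apLam W C.O _) = algebraMap C.O K (x (Ψ (MvPolynomial.X l)))
      rw [MvPolynomial.eval₂Hom_X', hx.trace_frob (l : Nat.Primes).2
        (hgood _ (l : Nat.Primes).2 l.2).2 (hgood _ (l : Nat.Primes).2 l.2).1
        (hFr _ (l : Nat.Primes).2).1 (hFr _ (l : Nat.Primes).2).2]
  rw [MonoidHom.comp_one] at hocc
  refine EigenSystems.isModularModelOfLevel_of_occurs h.delta_ne_zero hocc ?_ ∅ fun ℓ _ _ => by
    rw [apLam, map_intCast]
  obtain ⟨l, hl1, hl2, -, hlS, hne⟩ :=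
    H.exists_nonEisenstein _ (Finset.Subset.refl _) (Nat.pos_of_ne_zero (NeZero.ne N))
  refine ⟨l, hl1, hlS, hl2, fun he => hne ?_⟩
  have he' : apLam W C.O l = (l : C.O) + 1 :=
    IsFractionRing.injective C.O K (by simpa using he)
  rw [he', map_add, map_natCast, map_one]

end IsCurvePoint

end Fermat.Agent.Engine.Top

end
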