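import Fermat.Agent.Engine.Top.LowerPoint
import Fermat.Agent.Engine.TRep.EigenPoint
import Fermat.Agent.Frobenius.Exists

/-!
# The eigen system below, for lowering

From matrices of the Hecke operators on the localised classes at `N₀ = M₁ q` given by the traces of
the universal representation, and a prime at which inertia at `q` is trivial, a congruent system at
level `M₁`.
-/

set_option autoImplicit false

noncomputable section

open IsLocalRing Matrix Fermat.Agent.DefRing Fermat.Agent.Deform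

namespace Fermat.Agent.Engine.Top

open HeckeModule TRep

local notation "Qbar" => AlgebraicClosure ℚ

/-- `UnramifiedIsOld` over every coefficient ring. -/
def UnramifiedIsOldAll (p M q : ℕ) : Prop :=
  ∀ (O' : Type) [CommRing O'] [IsDomain O'] [IsDiscreteValuationRing O']
    [IsAdicComplete (maximalIdeal O') O'] [Finite (ResidueField O')] [CharZero O'],
    UnramifiedIsOld O' p M q

variable {O : Type} [CommRing O] [IsDomain O] [IsDiscreteValuationRing O]
  [IsAdicComplete (maximalIdeal O) O] [Finite (ResidueField O)] [CharZero O] {p : ℕ} [Fact p.Prime]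
  [CharP (ResidueField O) p] {T : Type} {qv : T → ℕ} {frob tame : T → GQ} {L₀ : LevelData O}

/-- The classes at level `N` localised at the residual system. -/
abbrev BaseClasses (hsO : Function.Surjective (residue O ∘ algebraMap O O)) (S : Finset ℕ)
    (lam : ℕ → O) (N : ℕ) : Type _ :=
  CohLoc (awayMonoid (lamIdeal hsO S lam)) (scalarRep (1 : (ZMod N)ˣ →* O) O)

omit [IsAdicComplete (maximalIdeal O) O] [Finite (ResidueField O)] [CharZero O] in
/-- The residual traces of a lift. -/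
theorem toResidue_trace_rep (PB : L₀.RepRing) (σ : GQ) :
    toResidue PB.instIsLocalHom PB.residue_surjective (PB.rep σ).trace = (L₀.D.rbar σ).trace := by
  rw [← DFunLike.congr_fun PB.isLift.reduces σ]
  exact AddMonoidHom.map_trace
    (toResidue PB.instIsLocalHom PB.residue_surjective).toRingHom.toAddMonoidHom _

omit [IsAdicComplete (maximalIdeal O) O] [Finite (ResidueField O)] [CharZero O] in
/-- A point respects the residual system. -/
theorem point_trace_sub_mem (PB : L₀.RepRing) {O' : Type} [CommRing O'] [IsLocalRing O']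
    [Algebra O O'] (θ : PB.R →ₐ[O] O') (hθ : IsLocalHom (θ : PB.R →+* O')) {σ : GQ} {o : O}
    (h : (L₀.D.rbar σ).trace = residue O o) :
    θ (PB.rep σ).trace - algebraMap O O' o ∈ maximalIdeal O' := by
  have h1 : (PB.rep σ).trace - algebraMap O PB.R o ∈ maximalIdeal PB.R := by
    rw [← toResidue_eq_zero_iff PB.instIsLocalHom PB.residue_surjective, map_sub,
      toResidue_trace_rep, h, AlgHom.commutes]
    exact sub_self _
  rw [← θ.commutes o, ← map_sub]
  exact map_nonunit (θ : PB.R →+* O') _ h1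

/-- **The congruent system below.** -/
theorem exists_congruent_system (hsO : Function.Surjective (residue O ∘ algebraMap O O))
    (PB : L₀.RepRing) (hF : FramedPrimes p L₀ qv frob tame) (v : T) {N₀ M₁ : ℕ} [NeZero N₀]
    {lam : ℕ → O} {d : ℕ} (act : PB.R →+* Matrix (Fin d) (Fin d) O)
    (hact : ∀ o : O, act (algebraMap O PB.R o) = o • 1)
    (b : Module.Basis (Fin d) O (BaseClasses hsO L₀.Sigma lam N₀))
    (hb : ∀ (ℓ : ℕ) (hℓ : ℓ.Prime), ℓ ∉ L₀.Sigma → ∀ A : ValuationSubring Qbar,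
      A.LiesOverPrime ℓ → ∀ σ : GQ, A.IsFrobeniusAt σ ℓ → ∀ x,
        ⇑(b.repr ((MvPolynomial.X (⟨ℓ, hℓ⟩ : Nat.Primes) : HeckePoly O) • x)) =
          act (PB.rep σ).trace *ᵥ ⇑(b.repr x))
    (hexact : ExactHyp (awayMonoid (lamIdeal hsO L₀.Sigma lam)) (1 : (ZMod N₀)ˣ →* O))
    {Q : Ideal PB.R} (hQ : Q.IsPrime) (hker : RingHom.ker act ≤ Q)
    (hv : ∀ i j, (PB.rep (tame v) - 1) i j ∈ Q)
    (hO : ∀ o : O, algebraMap O PB.R o ∈ Q ↔ o = 0)
    (hdet : IsPadicCyclotomic p L₀.detChar) (hp : (p : O) ∈ maximalIdeal O)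
    (hlam : ∀ ℓ : ℕ, ℓ.Prime → ℓ ∉ L₀.Sigma → ∀ A : ValuationSubring Qbar, A.LiesOverPrime ℓ →
      ∀ σ : GQ, A.IsFrobeniusAt σ ℓ → (L₀.D.rbar σ).trace = residue O (lam ℓ))
    (hspan : Submodule.span (ResidueField O) (Set.range L₀.D.rbar) = ⊤) (hp5 : 5 ≤ p)
    (hold : UnramifiedIsOldAll p M₁ (qv v)) (hN : N₀ = M₁ * qv v) (hM₁ : ¬ qv v ∣ M₁)
    (hS : ∀ r : ℕ, r.Prime → r ∣ N₀ * p → r ∈ L₀.Sigma) :
    ∃ (O' : Type) (_ : CommRing O') (_ : IsDomain O') (_ : IsDiscreteValuationRing O')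
      (_ : CharZero O') (_ : Algebra O O') (_ : IsLocalHom (algebraMap O O')) (a : ℕ → O'),
      Engine.Occurs (FractionRing O') M₁ 1 L₀.Sigma
          (fun ℓ => algebraMap O' (FractionRing O') (a ℓ)) ∧
        ∀ ℓ : ℕ, ℓ.Prime → ℓ ∉ L₀.Sigma → a ℓ - algebraMap O O' (lam ℓ) ∈ maximalIdeal O' := by
  classical
  obtain ⟨O', _, _, _, _, _, _, _, hl, θ, hθ, hkθ, hinert⟩ :=
    exists_lowering_point hF v act hact hQ hker hv hO
  -- Frobenius elements
  have hex : ∀ ℓ : ℕ, ∃ A : ValuationSubring Qbar, ∃ σ : GQ,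
      ℓ.Prime → A.LiesOverPrime ℓ ∧ A.IsFrobeniusAt σ ℓ := fun ℓ => by
    by_cases hℓ : ℓ.Prime
    · obtain ⟨A, hA⟩ := Frobenius.exists_liesOverPrime Qbar hℓ
      obtain ⟨σ, hσ⟩ := Frobenius.exists_isFrobeniusAt_qbar hℓ hA
      exact ⟨A, σ, fun _ => ⟨hA, hσ⟩⟩
    · exact ⟨⊤, 1, fun h => absurd h hℓ⟩
  choose A Fr hFr using hex
  have heq : ∀ ℓ : ℕ, ℓ.Prime → ℓ ∉ L₀.Sigma → ∀ B : ValuationSubring Qbar, B.LiesOverPrime ℓ →
      ∀ σ : GQ, B.IsFrobeniusAt σ ℓ → θ (PB.rep σ).trace = θ (PB.rep (Fr ℓ)).trace := by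
    intro ℓ hℓ hℓS B hB σ hσ
    rw [← sub_eq_zero, ← map_sub]
    refine hkθ (RingHom.mem_ker.2 (Matrix.toLin'.injective (LinearMap.ext fun c => ?_)))
    rw [map_sub, map_sub, map_zero, LinearMap.sub_apply, Matrix.toLin'_apply, Matrix.toLin'_apply,
      LinearMap.zero_apply]
    obtain ⟨x, rfl⟩ : ∃ x, ⇑(b.repr x) = c := ⟨b.equivFun.symm c, b.equivFun.apply_symm_apply c⟩
    rw [← hb ℓ hℓ hℓS B hB σ hσ x, ← hb ℓ hℓ hℓS _ (hFr ℓ hℓ).1 _ (hFr ℓ hℓ).2 x, sub_self]
  obtain ⟨ρ, hρ, hunr, hρs⟩ := exists_attached θ hθ hl hp hdet hspan Fr L₀.Sigma heq hinert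
  set a := traceSystem θ Fr with ha
  set K := FractionRing O'
  -- the system occurs at `N₀`
  let Ψ : AwayPoly O (↑L₀.Sigma : Set ℕ) →+* PB.R := MvPolynomial.eval₂Hom (algebraMap O PB.R)
    fun l => (PB.rep (Fr ((l : Nat.Primes) : ℕ))).trace
  have hΨ : ∀ P x, ⇑(b.repr (awayIncl O (↑L₀.Sigma : Set ℕ) P • x)) =
      act (Ψ P) *ᵥ ⇑(b.repr x) := by
    intro P
    induction P using MvPolynomial.induction_on with
    | C o =>
      intro x
      rw [← MvPolynomial.algebraMap_eq, AlgHom.commutes, algebraMap_smul, map_smul,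
        MvPolynomial.algebraMap_eq, MvPolynomial.eval₂Hom_C, hact, Matrix.smul_mulVec,
        Matrix.one_mulVec]
      rfl
    | add P P' h h' =>
      intro x
      rw [map_add, add_smul, map_add, Finsupp.coe_add, h, h', map_add, map_add, Matrix.add_mulVec]
    | mul_X P l h =>
      intro x
      rw [map_mul, mul_smul, h, map_mul, map_mul, ← Matrix.mulVec_mulVec,
        MvPolynomial.eval₂Hom_X']
      refine congrArg _ ?_
      rw [← hb _ (l : Nat.Primes).2 l.2 _ (hFr _ (l : Nat.Primes).2).1 _ (hFr _ (l : Nat.Primes).2).2 x]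
      simp [awayIncl]
  let φ : AwayPoly O (↑L₀.Sigma : Set ℕ) →+* K :=
    (algebraMap O' K).comp ((θ : PB.R →+* O').comp Ψ)
  have hφker : ∀ P, (∀ x : BaseClasses hsO L₀.Sigma lam N₀,
      awayIncl O (↑L₀.Sigma : Set ℕ) P • x = 0) → φ P = 0 := fun P hP => by
    have h0 : act (Ψ P) = 0 := Matrix.toLin'.injective (LinearMap.ext fun c => by
      obtain ⟨x, rfl⟩ : ∃ x, ⇑(b.repr x) = c := ⟨b.equivFun.symm c, b.equivFun.apply_symm_apply c⟩
      rw [Matrix.toLin'_apply, ← hΨ, hP, map_zero, map_zero]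
      rfl)
    show algebraMap O' K (θ (Ψ P)) = 0
    rw [show θ (Ψ P) = 0 from hkθ h0, map_zero]
  have : Module.Finite O (BaseClasses hsO L₀.Sigma lam N₀) :=
    finite_cohLoc _ _ (maximalIdeal_le_lamIdeal hsO L₀.Sigma lam)
  have hocc := occurs_of_cohChar (lamIdeal hsO L₀.Sigma lam) hexact φ hφker
    (lam := fun ℓ => algebraMap O' K (a ℓ)) fun l => by
      show algebraMap O' K (θ _) = algebraMap O' K (θ (Ψ (MvPolynomial.X l)))
      rw [MvPolynomial.eval₂Hom_X']
  rw [MonoidHom.comp_one] at hocc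
  subst hN
  have hq : (qv v).Prime := hF.prime v
  refine ⟨O', inferInstance, inferInstance, inferInstance, inferInstance, inferInstance, hl, a,
    hold O' hp5 hq (hF.ne_p v) hM₁ L₀.Sigma a ρ (hS _ hq ((dvd_mul_left _ M₁).mul_right p))
      (hS p Fact.out (dvd_mul_left p _))
      (fun r hr hrM => hS r hr ((hrM.mul_right _).mul_right p)) hocc hρ hρs hunr,
    fun ℓ hℓ hℓS => point_trace_sub_mem PB θ hθ (hlam ℓ hℓ hℓS _ (hFr ℓ hℓ).1 _ (hFr ℓ hℓ).2)⟩

end Fermat.Agent.Engine.Top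

end
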