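import Fermat.Agent.Engine.Top.ModEigen
import Fermat.Agent.Engine.TRep.TwistAlgebra
import Fermat.Agent.Engine.TRep.Compare
import Fermat.Agent.EigenSystems.Points

/-!
# The Hecke modules of a level where the residual system occurs do not vanish

A mod `p` eigenvector of the Hecke matrices gives a class which no element prime to the ideal of
the system kills.
-/

set_option autoImplicit false

noncomputable section

open IsLocalRing CongruenceSubgroup Matrix
open scoped MatrixGroups

namespace Fermat.Agent.Engine.Top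

open HeckeModule TRep EigenSystems

variable {O : Type} [CommRing O] {N : ℕ} [NeZero N]

omit [NeZero N] in
/-- Scalars `1` are the trivial action. -/
theorem scalarRep_one_trivRep : scalarRep (1 : (ZMod N)ˣ →* O) O = trivRep N O O :=
  MonoidHom.ext fun u => LinearMap.ext fun a => by
    rw [scalarRep_apply, MonoidHom.one_apply, one_smul]; rfl

/-- The class with given integral coordinates. -/
def coordsClass (a : Fin (HeckeJ0.rk N) → O) : Coh1 (trivRep N O O) :=
  toCoh (trivRep N O O) ⟨fun γ => HeckeJ0.ofCoords N a (Additive.ofMul γ), fun g h => by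
      show HeckeJ0.ofCoords N a (Additive.ofMul (g * h)) =
        HeckeJ0.ofCoords N a (Additive.ofMul g) + HeckeJ0.ofCoords N a (Additive.ofMul h)
      rw [ofMul_mul, map_add],
    fun k hk => by
      rw [Set.mem_singleton_iff] at hk
      subst hk
      exact HeckeJ0.isGoodHom_ofCoords N a _
        (by simp [HeckeJ0.smallTrace, negOne, Matrix.trace_fin_two])⟩

/-- The homomorphism of a class with given coordinates. -/
theorem classHom_coordsClass (a : Fin (HeckeJ0.rk N) → O) :
    classHom (coordsClass (N := N) a) = HeckeJ0.ofCoords N a :=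
  (classHom_toCoh _).trans (AddMonoidHom.ext fun _ => rfl)

/-- A class determines its coordinates. -/
theorem coordsClass_injective : Function.Injective (coordsClass (N := N) (O := O)) := fun a b h => by
  have h1 := congrArg (fun u => HeckeJ0.coords N (classHom u)) h
  simpa only [classHom_coordsClass, HeckeJ0.coords_ofCoords] using h1

/-- The class of a sum. -/
theorem coordsClass_add (a b : Fin (HeckeJ0.rk N) → O) :
    coordsClass (N := N) (a + b) = coordsClass a + coordsClass b := by
  apply classHom_injective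
  rw [classHom_add, classHom_coordsClass, classHom_coordsClass, classHom_coordsClass]
  exact AddMonoidHom.ext fun g => by
    simp [HeckeJ0.ofCoords_apply, Finset.sum_add_distrib]

/-- The class of a multiple. -/
theorem coordsClass_smul (c : O) (a : Fin (HeckeJ0.rk N) → O) :
    coordsClass (N := N) (c • a) = c • coordsClass a := by
  rw [coordsClass, coordsClass, ← map_smul]
  refine congrArg _ (Subtype.ext (funext fun γ => ?_))
  show HeckeJ0.ofCoords N (c • a) (Additive.ofMul γ) = c * HeckeJ0.ofCoords N a (Additive.ofMul γ)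
  simp [HeckeJ0.ofCoords_apply, Finset.mul_sum, mul_left_comm]

variable [IsDomain O] [CharZero O]

/-- The Hecke operators in coordinates. -/
theorem heckeGen_coordsClass (l : Nat.Primes) (a : Fin (HeckeJ0.rk N) → O) :
    heckeGen (trivRep N O O) l (coordsClass a) =
      coordsClass (intAct (HeckeJ0.heckeMatAt N l) a) := by
  have : Fact (l : ℕ).Prime := ⟨l.2⟩
  have : NeZero (l : ℕ) := ⟨l.2.ne_zero⟩
  apply classHom_injective
  show classHom (heckeOp (trivRep N O O) (l : ℕ) (coordsClass a)) = _
  rw [classHom_heckeOp, classHom_coordsClass, classHom_coordsClass,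
    ← ofCoords_coords_torsionFree
      (HeckeJ0.isGoodHom_cohHecke (l : ℕ) (HeckeJ0.isGoodHom_ofCoords N a)),
    coords_cohHecke_ofCoords']
  rfl

variable {k : Type} [CommRing k] {S : Set ℕ}

/-- Hecke polynomials on classes congruent to an eigenvector. -/
theorem exists_smul_coordsClass (r : O →+* k) (ev : AwayPoly O S →+* k)
    (hC : ∀ c, ev (MvPolynomial.C c) = r c) {v : Fin (HeckeJ0.rk N) → k}
    (hv : ∀ (l : AwayIndex S) i, ∑ j, (HeckeJ0.heckeMatAt N (l : Nat.Primes) i j : k) * v j =
      ev (MvPolynomial.X l) * v i) (P : AwayPoly O S) :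
    ∀ a : Fin (HeckeJ0.rk N) → O, (∀ i, r (a i) = v i) →
      ∃ w, awayIncl O S P • coordsClass (N := N) a = coordsClass w ∧
        ∀ i, r (w i) = ev P * v i := by
  induction P using MvPolynomial.induction_on with
  | C c =>
    intro a ha
    refine ⟨c • a, ?_, fun i => ?_⟩
    · rw [← MvPolynomial.algebraMap_eq, AlgHom.commutes, algebraMap_smul, coordsClass_smul]
    · rw [Pi.smul_apply, smul_eq_mul, map_mul, ha, hC]
  | add P Q hP hQ =>
    intro a ha
    obtain ⟨w, hw, hw'⟩ := hP a ha
    obtain ⟨u, hu, hu'⟩ := hQ a ha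
    exact ⟨w + u, by rw [map_add, add_smul, hw, hu, coordsClass_add], fun i => by
      rw [Pi.add_apply, map_add, hw', hu', map_add, add_mul]⟩
  | mul_X P l hP =>
    intro a ha
    obtain ⟨w, hw, hw'⟩ := hP a ha
    refine ⟨intAct (HeckeJ0.heckeMatAt N (l : Nat.Primes)) w, ?_, fun i => ?_⟩
    · rw [map_mul, mul_comm, mul_smul, hw, awayIncl_X,
        heckePoly_smul_def _ (MvPolynomial.X (l : Nat.Primes)), heckeHom_X, heckeGen_coordsClass]
    · simp only [intAct, map_sum, zsmul_eq_mul, map_mul, map_intCast, hw']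
      calc ∑ j, (HeckeJ0.heckeMatAt N (l : Nat.Primes) i j : k) * (ev P * v j)
          = ev P * ∑ j, (HeckeJ0.heckeMatAt N (l : Nat.Primes) i j : k) * v j := by
            rw [Finset.mul_sum]
            exact Finset.sum_congr rfl fun j _ => mul_left_comm _ _ _
        _ = ev P * ev (MvPolynomial.X l) * v i := by rw [hv, mul_assoc]

/-- A congruent eigenvector keeps the localised classes from vanishing. -/
theorem nontrivial_cohLoc [IsDomain k] (m : Ideal (AwayPoly O S)) [m.IsPrime] (r : O →+* k)
    (hr : Function.Surjective r) (ev : AwayPoly O S →+* k) (hm : ∀ P, P ∉ m → ev P ≠ 0)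
    (hC : ∀ c, ev (MvPolynomial.C c) = r c) {v : Fin (HeckeJ0.rk N) → k} (hv0 : v ≠ 0)
    (hv : ∀ (l : AwayIndex S) i, ∑ j, (HeckeJ0.heckeMatAt N (l : Nat.Primes) i j : k) * v j =
      ev (MvPolynomial.X l) * v i) (χ : (ZMod N)ˣ →* O) (hχ : χ = 1) :
    Nontrivial (CohLoc (awayMonoid m) (scalarRep χ O)) := by
  subst hχ
  rw [scalarRep_one_trivRep]
  choose ã hã using fun i => hr (v i)
  refine ⟨toLoc _ _ (coordsClass ã), 0, fun h => ?_⟩
  rw [toLoc, LocalizedModule.mkLinearMap_apply, ← LocalizedModule.zero_mk (1 : awayMonoid m),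
    LocalizedModule.mk_eq] at h
  obtain ⟨u, hu⟩ := h
  obtain ⟨P, hP, hPu⟩ := u.2
  simp only [one_smul, smul_zero] at hu
  obtain ⟨w, hw, hw'⟩ := exists_smul_coordsClass (N := N) r ev hC hv P ã hã
  have hw0 : w = 0 := coordsClass_injective (N := N) (by
    rw [← hw, show coordsClass (N := N) (0 : Fin (HeckeJ0.rk N) → O) = 0 by
      rw [← zero_smul O ã, coordsClass_smul, zero_smul], show awayIncl O S P =
      (u : HeckePoly O) from hPu]
    exact hu)
  refine hv0 (funext fun i => ?_)
  have h := hw' i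
  rw [hw0, Pi.zero_apply, map_zero] at h
  exact (mul_eq_zero.1 h.symm).resolve_left (hm P hP)

section Residual

variable [IsLocalRing O] [IsNoetherianRing O] [IsAdicComplete (maximalIdeal O) O]

/-- **The base module is not zero** when the system occurs residually at the level. -/
theorem nontrivial_levelCoh {p : ℕ} [Fact p.Prime] [CharP (ResidueField O) p]
    (hsO : Function.Surjective (residue O ∘ algebraMap O O)) (S : Finset ℕ) (lam : ℕ → O)
    (a : ℕ → ℤ) (hlam : ∀ ℓ, lam ℓ = a ℓ) (ψ : ∀ q : ℕ, (ZMod q)ˣ →* O) {J : Type} [Fintype J]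
    (M : J → ℕ) [∀ j, NeZero (M j)] (j : J)
    (hS : ∀ ℓ : ℕ, ℓ.Prime → ℓ ∉ S → ¬ ℓ ∣ M j)
    {f : CuspForm (Gamma0 (M j)) 2} (hf : f.IsNormalizedEigenform)
    {𝔪 : Ideal (integralClosure ℤ ℂ)} (h𝔪 : 𝔪.IsPrime) (hp : (p : integralClosure ℤ ℂ) ∈ 𝔪)
    (hcong : ∀ ℓ : ℕ, ℓ.Prime → ℓ ∉ S → ∃ c : integralClosure ℤ ℂ,
      (c : ℂ) = ModularFormClass.qCoeff f ℓ ∧ c - (a ℓ : integralClosure ℤ ℂ) ∈ 𝔪) :
    Nontrivial (LevelCoh hsO S lam ψ ∅ M j) := by
  classical
  obtain ⟨v, hv0, hv⟩ := exists_modEigen (p := p) hf h𝔪 hp a {l : Nat.Primes | (l : ℕ) ∉ S}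
    (fun l hl => hS l l.2 hl) fun l hl => hcong l l.2 hl
  let φ : ZMod p →+* ResidueField O := ZMod.castHom dvd_rfl (ResidueField O)
  have hC : ∀ c, lamHom O O hsO S lam (MvPolynomial.C c) = residue O c := fun c => by
    have h := lamHom_algebraMap hsO S lam c
    rwa [MvPolynomial.algebraMap_eq] at h
  have hX : ∀ (l : AwayIndex (↑S : Set ℕ)) i,
      ∑ k, (HeckeJ0.heckeMatAt (M j) (l : Nat.Primes) i k : ResidueField O) * φ (v k) =
        lamHom O O hsO S lam (MvPolynomial.X l) * φ (v i) := fun l i => by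
    have h := congrArg φ (congrFun (hv (l : Nat.Primes) l.2) i)
    simp only [Matrix.mulVec, dotProduct, Matrix.map_apply, map_sum, map_mul, map_intCast,
      Pi.smul_apply, smul_eq_mul] at h
    rw [lamHom_X, hlam, map_intCast]
    exact h
  have key := nontrivial_cohLoc (N := M j) (S := (↑S : Set ℕ)) (lamIdeal hsO S lam) (residue O)
    residue_surjective (lamHom O O hsO S lam) (fun P hP h0 => hP (RingHom.mem_ker.2 h0)) hC
    (v := fun i => φ (v i))
    (fun h => hv0 (funext fun i => φ.injective ((congrFun h i).trans (map_zero φ).symm))) hX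
    (charSq ψ ∅ (M j)) (by simp [charSq])
  exact key

end Residual

end Fermat.Agent.Engine.Top
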