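import Fermat.Agent.Engine.Top.Setup
import Fermat.Agent.Engine.Top.Lam
import Fermat.Agent.Engine.Top.NonVanishing
import Fermat.Agent.Engine.Top.LowerCore
import Fermat.Agent.Engine.LoweringSetting

/-!
# The setting at the base level for lowering

From `W` residually modular of squarefree level `M` with every superfluous prime other than `p`
congruent to `1` modulo `p`: the residual system, the setting at the level `M`, and the non-vanishing
of the localised classes.
-/

set_option autoImplicit false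

noncomputable section

open IsLocalRing Fermat.Agent.DefRing Fermat.Agent.Deform

namespace Fermat.Agent.Engine.Top

open HeckeModule TRep

local notation "Qbar" => AlgebraicClosure ℚ

variable {W : WeierstrassCurve ℤ} {p : ℕ} [Fact p.Prime]

/-- The superfluous primes of the level. -/
def extraPrimes (W : WeierstrassCurve ℤ) (p M : ℕ) : Finset ℕ := by
  classical exact M.primeFactors.filter fun r => r ≠ p ∧ Unramified W p r

omit [Fact p.Prime] in
/-- Membership in the extra primes. -/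
theorem mem_extraPrimes {M r : ℕ} : r ∈ extraPrimes W p M ↔
    r.Prime ∧ r ∣ M ∧ M ≠ 0 ∧ r ≠ p ∧ Unramified W p r := by
  simp only [extraPrimes, Finset.mem_filter, Nat.mem_primeFactors, and_assoc, ne_eq]

omit [Fact p.Prime] in
/-- The extra primes avoid `Smin`. -/
theorem disjoint_Smin_extraPrimes (W : WeierstrassCurve ℤ) (p M : ℕ) :
    Disjoint (Smin W p) (extraPrimes W p M) :=
  Finset.disjoint_left.2 fun _ hS hT => (mem_Smin.1 hS).2.2.2.2 (mem_extraPrimes.1 hT).2.2.2.2

namespace ResidualData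

variable {C : Coeff p} (R : ResidualData W C)

include R

/-- The prime divisors of the level are in the ramification set. -/
theorem mem_sigma_of_dvd (h : OddResidual W p) {M : ℕ} (hM : Squarefree M) {ℓ : ℕ} (hℓ : ℓ.Prime)
    (hd : ℓ ∣ M * p) : ℓ ∈ Smin W p ∪ extraPrimes W p M ∪ {p} := by
  simp only [Finset.mem_union, Finset.mem_singleton]
  by_cases hp : ℓ = p
  · exact Or.inr hp
  have hdM : ℓ ∣ M := ((Nat.Prime.dvd_mul hℓ).1 hd).resolve_right fun hd' =>
    hp ((Nat.prime_dvd_prime_iff_eq hℓ Fact.out).1 hd')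
  by_cases hu : Unramified W p ℓ
  · exact Or.inl (Or.inr (mem_extraPrimes.2 ⟨hℓ, hdM, hM.ne_zero, hp, hu⟩))
  · refine Or.inl (Or.inl (mem_Smin.2 ⟨hℓ, ?_, h.delta_ne_zero, hp, hu⟩))
    by_contra hgood
    exact hu (R.unramified_iff.2 fun A hA σ hσ => R.rbar_inertia_good hℓ hp hgood hA hσ)

/-- The residual representation is continuous. -/
theorem isCont_rbar (h : OddResidual W p) : IsCont R.D.rbar := fun n => by
  obtain ⟨L, hL, hσ⟩ := R.finiteLevel h
  exact ⟨L, hL, fun σ hs i j => by rw [hσ σ hs, sub_self]; exact zero_mem _⟩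

/-- **The base setting.** -/
theorem baseSetting (h : Residual W p) {M : ℕ} (hM : Squarefree M) (a : ℕ → ℤ)
    (htr : ∀ ℓ : ℕ, ℓ.Prime → ¬ ℓ ∣ M → ℓ ≠ p → ∀ A : ValuationSubring Qbar, A.LiesOverPrime ℓ →
      ∀ σ : GQ, A.IsFrobeniusAt σ ℓ →
        WeierstrassCurve.Affine.Point.galoisTrace ℚ (W.map (Int.castRingHom ℚ)) p σ =
          (a ℓ : ZMod p))
    (P : ValuationSubring Qbar) (cl : Closed C.O (P.decompositionSubgroup ℚ × Fin 2 × Fin 2)) :
    BaseSetting p C.ι₀ M (fun ℓ => (a ℓ : C.O)) (R.levelData (extraPrimes W p M) P cl) where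
  three_le := by have := h.five_le; omega
  three := HeckeModule.ThreeOK.of_ne (by have := h.five_le; omega)
  p_mem := C.p_mem
  sigma ℓ hℓ hd := R.mem_sigma_of_dvd h hM hℓ hd
  smin q hq := by
    obtain ⟨hqp, -, -, hqne, -⟩ := mem_Smin.1 hq
    exact ⟨hqp, hqne, fun hd => Nat.squarefree_iff_prime_squarefree.1 hM q hqp hd,
      Finset.mem_union_left _ (Finset.mem_union_left _ hq)⟩
  det _ := rfl
  detbar σ := R.det_rbar h _ C.residue_cyclo σ
  cont := R.isCont_rbar h
  span := R.span_rbar h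
  split := R.exists_eigenvalues
  trace_frob ℓ hℓ hℓS A hA σ hσ := by
    have hd : ¬ ℓ ∣ M := fun hd => hℓS (R.mem_sigma_of_dvd h hM hℓ (hd.mul_right p))
    have hp : ℓ ≠ p := fun he => hℓS (he ▸ Finset.mem_union_right _ (Finset.mem_singleton_self _))
    show (R.D.rbar σ).trace = _
    rw [R.trace_rbar, htr ℓ hℓ hd hp A hA σ hσ, map_intCast, map_intCast]

/-- **The setting for lowering.** -/
theorem loweringSetting (h : Residual W p) {M q : ℕ} (hM : Squarefree M) (hq1 : p ∣ q - 1)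
    (hqT : q ∈ extraPrimes W p M) (a : ℕ → ℤ)
    (htr : ∀ ℓ : ℕ, ℓ.Prime → ¬ ℓ ∣ M → ℓ ≠ p → ∀ A : ValuationSubring Qbar, A.LiesOverPrime ℓ →
      ∀ σ : GQ, A.IsFrobeniusAt σ ℓ →
        WeierstrassCurve.Affine.Point.galoisTrace ℚ (W.map (Int.castRingHom ℚ)) p σ =
          (a ℓ : ZMod p))
    (P : ValuationSubring Qbar) (cl : Closed C.O (P.decompositionSubgroup ℚ × Fin 2 × Fin 2))
    {frob tame : extraPrimes W p M → GQ}
    (hF : FramedPrimes p (R.levelData (extraPrimes W p M) P cl)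
      (fun v : extraPrimes W p M => (v : ℕ)) frob tame) :
    LoweringSetting p C.ι₀ M (fun ℓ => (a ℓ : C.O)) (fun v : extraPrimes W p M => (v : ℕ))
      (R.levelData (extraPrimes W p M) P cl) frob tame ⟨q, hqT⟩ C.ζ C.ζ' where
  toBaseSetting := R.baseSetting h hM a htr P cl
  qv_inj := Subtype.val_injective
  framed := hF
  dvd := (mem_extraPrimes.1 hqT).2.1
  not_sq w := fun hd =>
    Nat.squarefree_iff_prime_squarefree.1 hM _ (mem_extraPrimes.1 w.2).1 hd
  one_mod := hq1
  zeta_mul := C.ζ_mul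
  zeta_pow := C.ζ_primitive.pow_eq_one
  zeta_mem := C.ζ_sub_one_mem
  sigma_qv w := Finset.mem_union_left _ (Finset.mem_union_right _ w.2)
  smin_v hq := Finset.disjoint_left.1 (disjoint_Smin_extraPrimes W p M) hq hqT

/-- The localised classes at level `M` are non-zero. -/
theorem nontrivial_baseClasses (h : Residual W p) {M : ℕ} [NeZero M] (hM : Squarefree M)
    (a : ℕ → ℤ) {f : CuspForm (CongruenceSubgroup.Gamma0 M) 2} (hf : f.IsNormalizedEigenform)
    {𝔪 : Ideal (integralClosure ℤ ℂ)} (h𝔪 : 𝔪.IsMaximal) (hp : (p : integralClosure ℤ ℂ) ∈ 𝔪)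
    (hcong : ∀ ℓ : ℕ, ℓ.Prime → ¬ ℓ ∣ M → ℓ ≠ p → ∃ c : integralClosure ℤ ℂ,
      (c : ℂ) = ModularFormClass.qCoeff f ℓ ∧ c - (a ℓ : integralClosure ℤ ℂ) ∈ 𝔪)
    (P : ValuationSubring Qbar) (cl : Closed C.O (P.decompositionSubgroup ℚ × Fin 2 × Fin 2)) :
    Nontrivial (BaseClasses (O := C.O) (residue_surjective (R := C.O))
      (R.levelData (extraPrimes W p M) P cl).Sigma (fun ℓ => (a ℓ : C.O)) M) := by
  set S := (R.levelData (extraPrimes W p M) P cl).Sigma
  have hS : ∀ ℓ : ℕ, ℓ.Prime → ℓ ∉ S → ¬ ℓ ∣ M := fun ℓ hℓ hℓS hd =>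
    hℓS (R.mem_sigma_of_dvd h hM hℓ (hd.mul_right p))
  have key := nontrivial_levelCoh (p := p) (residue_surjective (R := C.O)) S
    (fun ℓ => (a ℓ : C.O)) a (fun _ => rfl) (fun _ => 1) (fun _ : Unit => M) () hS hf h𝔪.isPrime hp
    fun ℓ hℓ hℓS => hcong ℓ hℓ (hS ℓ hℓ hℓS) fun he =>
      hℓS (he ▸ Finset.mem_union_right _ (Finset.mem_singleton_self _))
  have he : charSq (R := C.O) (fun _ => 1) ∅ M = 1 := by simp [charSq]
  unfold BaseClasses
  rw [← he]
  exact key

end ResidualData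

end Fermat.Agent.Engine.Top

end
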