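import Fermat.Agent.Engine.Top.TopPlace
import Fermat.Agent.Engine.Top.BaseSystem
import Fermat.Agent.Engine.Top.Lam
import Fermat.Agent.Engine.Top.Convert
import Fermat.Agent.Engine.Top.LowerSetting
import Fermat.Agent.Engine.Lifting.Setting

/-!
# The settings for lifting

With the traces `a_ℓ(W)` as residual system: the setting at a level whose prime divisors are
allowed, the condition at the place, and non-vanishing of the classes exactly at the levels where
`W` is residually modular.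
-/

set_option autoImplicit false

noncomputable section

open IsLocalRing Fermat.Agent.DefRing Fermat.Agent.Deform
open WeierstrassCurve.Affine

namespace Fermat.Agent.Engine.Top

open HeckeModule TRep

local notation "Qbar" => AlgebraicClosure ℚ

variable {W : WeierstrassCurve ℤ} {p : ℕ} [Fact p.Prime]

/-- The coefficients of the curve in the coefficient ring. -/
def apLam (W : WeierstrassCurve ℤ) (O : Type) [CommRing O] (ℓ : ℕ) : O := (W.apOfModel ℓ : O)

namespace ResidualData

variable {C : Coeff p} (R : ResidualData W C)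

/-- Residual traces of Frobenius at good primes. -/
theorem trace_rbar_good {ℓ : ℕ} (hℓ : ℓ.Prime) (hℓp : ℓ ≠ p) (hgood : W.IsGoodPrimeFor ℓ)
    {A : ValuationSubring Qbar} (hA : A.LiesOverPrime ℓ) {σ : GQ} (hσ : A.IsFrobeniusAt σ ℓ) :
    (R.D.rbar σ).trace = residue C.O (apLam W C.O ℓ) := by
  have := Fact.mk hℓ
  rw [R.trace_rbar, EllFrobenius.galoisTrace_eq_apOfModel W ℓ p hℓp hgood A σ hA hσ, apLam,
    map_intCast, map_intCast]

omit [Fact (Nat.Prime p)] in
/-- Outside the allowed primes the reduction is good. -/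
theorem good_of_not_mem {T : Finset ℕ}
    (hbad : ∀ q : ℕ, q.Prime → (q : ℤ) ∣ W.Δ → q ≠ p → q ∈ Smin W p ∪ T) {q : ℕ} (hq : q.Prime)
    (hqS : q ∉ Smin W p ∪ T ∪ {p}) : W.IsGoodPrimeFor q ∧ q ≠ p := by
  simp only [Finset.mem_union, Finset.mem_singleton, not_or] at hqS
  refine ⟨fun hd => ?_, hqS.2⟩
  have := hbad q hq hd hqS.2
  simp only [Finset.mem_union] at this
  exact this.elim hqS.1.1 hqS.1.2

/-- **The setting at a level.** -/
theorem baseSetting_ap (h : Residual W p) {T : Finset ℕ}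
    (hbad : ∀ q : ℕ, q.Prime → (q : ℤ) ∣ W.Δ → q ≠ p → q ∈ Smin W p ∪ T) {N : ℕ}
    (hN : Squarefree N) (hNS : ∀ q : ℕ, q.Prime → q ∣ N → q ∈ Smin W p ∪ T ∪ {p})
    (P : ValuationSubring Qbar) (cl : Closed C.O (P.decompositionSubgroup ℚ × Fin 2 × Fin 2)) :
    BaseSetting p C.ι₀ N (apLam W C.O) (R.levelData T P cl) where
  three_le := by have := h.five_le; omega
  three := HeckeModule.ThreeOK.of_ne (by have := h.five_le; omega)
  p_mem := C.p_mem
  sigma ℓ hℓ hd := by
    rcases hℓ.dvd_mul.1 hd with hd | hd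
    · exact hNS ℓ hℓ hd
    · exact Finset.mem_union_right _
        (Finset.mem_singleton.2 ((Nat.prime_dvd_prime_iff_eq hℓ Fact.out).1 hd))
  smin q hq := by
    obtain ⟨hqp, -, -, hqne, -⟩ := mem_Smin.1 hq
    exact ⟨hqp, hqne, fun hd => Nat.squarefree_iff_prime_squarefree.1 hN q hqp hd,
      Finset.mem_union_left _ (Finset.mem_union_left _ hq)⟩
  det _ := rfl
  detbar σ := R.det_rbar h _ C.residue_cyclo σ
  cont := R.isCont_rbar h
  span := R.span_rbar h
  split := R.exists_eigenvalues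
  trace_frob ℓ hℓ hℓS A hA σ hσ := by
    obtain ⟨hgood, hℓp⟩ := good_of_not_mem hbad hℓ hℓS
    exact R.trace_rbar_good hℓ hℓp hgood hA hσ

variable (Ch : PlaceChoice C)

/-- The condition at the place. -/
theorem topPlaceHyp_ap (h : Residual W p)
    (hcase : ¬ W.IsGoodPrimeFor p ∨ ¬ (p : ℤ) ∣ W.apOfModel p) {T : Finset ℕ}
    (hbad : ∀ q : ℕ, q.Prime → (q : ℤ) ∣ W.Δ → q ≠ p → q ∈ Smin W p ∪ T) {N : ℕ}
    (hN : Squarefree N) (hNS : ∀ q : ℕ, q.Prime → q ∣ N → q ∈ Smin W p ∪ T ∪ {p}) :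
    TopPlaceHyp p C.ι₀ N (apLam W C.O) (R.ordLevel Ch T) :=
  topPlaceHyp_ordinary (R.baseSetting_ap h hbad hN hNS Ch.P _)
    (fun hd => Nat.squarefree_iff_prime_squarefree.1 hN p Fact.out hd) Ch.over_p rfl
    (R.isOrdinaryOn_rbar Ch h hcase)

/-- Classes do not vanish where `W` is residually modular. -/
theorem nontrivial_of_modular {T : Finset ℕ}
    (hbad : ∀ q : ℕ, q.Prime → (q : ℤ) ∣ W.Δ → q ≠ p → q ∈ Smin W p ∪ T) {N : ℕ} [NeZero N]
    (hNS : ∀ q : ℕ, q.Prime → q ∣ N → q ∈ Smin W p ∪ T ∪ {p})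
    (P : ValuationSubring Qbar) (cl : Closed C.O (P.decompositionSubgroup ℚ × Fin 2 × Fin 2))
    (hmod : W.IsResiduallyModularOfLevel p N) :
    Nontrivial (BaseClasses (O := C.O) (residue_surjective (R := C.O))
      (R.levelData T P cl).Sigma (apLam W C.O) N) := by
  obtain ⟨f, 𝔪, hf, h𝔪, hp, hcong⟩ := hmod
  set S := (R.levelData T P cl).Sigma
  have hS : ∀ ℓ : ℕ, ℓ.Prime → ℓ ∉ S → ¬ ℓ ∣ N := fun ℓ hℓ hℓS hd => hℓS (hNS ℓ hℓ hd)
  have key := nontrivial_levelCoh (p := p) (residue_surjective (R := C.O)) S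
    (apLam W C.O) W.apOfModel (fun _ => rfl) (fun _ => 1) (fun _ : Unit => N) () hS hf h𝔪.isPrime hp
    fun ℓ hℓ hℓS => by
      obtain ⟨hgood, hℓp⟩ := good_of_not_mem hbad hℓ hℓS
      exact hcong ℓ hℓ hgood (hS ℓ hℓ hℓS) hℓp
  have he : charSq (R := C.O) (fun _ => 1) ∅ N = 1 := by simp [charSq]
  unfold BaseClasses
  rw [← he]
  exact key

/-- `W` is residually modular where classes do not vanish. -/
theorem modular_of_nontrivial (h : Residual W p) {T : Finset ℕ}
    (hbad : ∀ q : ℕ, q.Prime → (q : ℤ) ∣ W.Δ → q ≠ p → q ∈ Smin W p ∪ T) {N : ℕ} [NeZero N]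
    (hN : Squarefree N) (hNS : ∀ q : ℕ, q.Prime → q ∣ N → q ∈ Smin W p ∪ T ∪ {p})
    (P : ValuationSubring Qbar) (cl : Closed C.O (P.decompositionSubgroup ℚ × Fin 2 × Fin 2))
    (hV : Nontrivial (BaseClasses (O := C.O) (residue_surjective (R := C.O))
      (R.levelData T P cl).Sigma (apLam W C.O) N)) :
    W.IsResiduallyModularOfLevel p N := by
  classical
  have H := R.baseSetting_ap h hbad hN hNS P cl
  obtain ⟨O', _, _, _, _, _, hl, a, hocc, hcong⟩ := H.exists_system_of_nontrivial hV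
  have hp' : (p : O') ∈ maximalIdeal O' := by
    rw [← map_natCast (algebraMap C.O O')]
    exact map_nonunit (algebraMap C.O O') _ C.p_mem
  have hinj := IsFractionRing.injective O' (FractionRing O')
  refine isResiduallyModularOfLevel_of_occurs h.delta_ne_zero hp' hinj hocc ?_
    (R.levelData T P cl).Sigma fun ℓ hℓ hℓS => ?_
  · obtain ⟨l, hl1, hl2, -, hlS, hne⟩ :=
      H.exists_nonEisenstein _ (Finset.Subset.refl _) (Nat.pos_of_ne_zero (NeZero.ne N))
    refine ⟨l, hl1, hlS, hl2, fun he => hne ?_⟩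
    have he' : a l = (l : O') + 1 := hinj (by simpa using he)
    have h1 := hcong l hl1 hlS
    rw [he', ← map_natCast (algebraMap C.O O'), ← map_one (algebraMap C.O O'), ← map_add,
      ← map_sub] at h1
    have h2 : residue C.O ((l : C.O) + 1 - apLam W C.O l) = 0 :=
      (residue_eq_zero_iff _).2 fun hu => h1 (hu.map _)
    rw [map_sub, sub_eq_zero, map_add, map_natCast, map_one] at h2
    exact h2.symm
  · have h1 := hcong ℓ hℓ hℓS
    rwa [apLam, map_intCast] at h1

/-- **The setting for lifting.** -/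
theorem levelSetting_ap (h : Residual W p) {T : Finset ℕ}
    (hT : ∀ q ∈ T, q.Prime ∧ q ≠ p ∧ q ∉ Smin W p)
    (hbad : ∀ q : ℕ, q.Prime → (q : ℤ) ∣ W.Δ → q ≠ p → q ∈ Smin W p ∪ T) {N : ℕ}
    (hN : Squarefree N) (hNS : ∀ q : ℕ, q.Prime → q ∣ N → q ∈ Smin W p ∪ {p})
    (hmod : W.IsResiduallyModularOfLevel p N)
    (P : ValuationSubring Qbar) (cl : Closed C.O (P.decompositionSubgroup ℚ × Fin 2 × Fin 2))
    {frob tame : T → GQ}
    (hF : FramedPrimes p (R.levelData T P cl) (fun v : T => (v : ℕ)) frob tame) :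
    LevelSetting p C.ι₀ N (apLam W C.O) (fun v : T => (v : ℕ)) (R.levelData T P cl) frob tame where
  toBaseSetting := R.baseSetting_ap h hbad hN (fun q hq hd => by
    have := hNS q hq hd
    simp only [Finset.mem_union] at this ⊢
    exact this.imp Or.inl id) P cl
  qv_inj := Subtype.val_injective
  framed := hF
  not_dvd v hd := by
    obtain ⟨hv, hvp, hvS⟩ := hT v v.2
    have := hNS v hv hd
    simp only [Finset.mem_union, Finset.mem_singleton] at this
    exact this.elim hvS hvp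
  sigma_qv v := Finset.mem_union_left _ (Finset.mem_union_right _ v.2)
  ne_zero := hN.ne_zero
  base := by
    have : NeZero N := ⟨hN.ne_zero⟩
    exact R.nontrivial_of_modular hbad (fun q hq hd => by
      have := hNS q hq hd
      simp only [Finset.mem_union] at this ⊢
      exact this.imp Or.inl id) P cl hmod

end ResidualData

end Fermat.Agent.Engine.Top

end
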