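import Fermat.Agent.Engine.Top.LiftPoint
import Fermat.Agent.Engine.Levels
import Mathlib.Data.Nat.Squarefree

/-!
# From a kernel inclusion at the ramified primes of the point to a level of modularity

The level is the product of the base level and of the framed primes where the point of the curve
ramifies; its prime divisors divide the discriminant.
-/

set_option autoImplicit false

noncomputable section

open IsLocalRing Fermat.Agent.DefRing Fermat.Agent.Deform
open scoped Classical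

namespace Fermat.Agent.Engine.Top

open HeckeModule TRep Lifting

local notation "Qbar" => AlgebraicClosure ℚ

variable {W : WeierstrassCurve ℤ} {p : ℕ} [Fact p.Prime] {C : Coeff p}

/-- A product of a squarefree number and distinct primes not dividing it is squarefree. -/
theorem squarefree_liftLevel {T : Type} {N₀ : ℕ} {qv : T → ℕ} (hN₀ : Squarefree N₀)
    (hprime : ∀ v, (qv v).Prime) (hinj : Function.Injective qv) (hnot : ∀ v, ¬ qv v ∣ N₀)
    (L : Finset T) : Squarefree (liftLevel N₀ qv L) := by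
  induction L using Finset.induction_on with
  | empty => simpa [liftLevel] using hN₀
  | insert v L hv ih =>
    rw [liftLevel_insert _ _ hv]
    exact (Nat.squarefree_mul_iff).2 ⟨(hprime v).coprime_iff_not_dvd.2
      (not_dvd_liftLevel hprime hinj hnot hv), (hprime v).squarefree, ih⟩

/-- A prime divisor of a level over `N₀`. -/
theorem dvd_liftLevel_iff {T : Type} {N₀ : ℕ} {qv : T → ℕ} (hprime : ∀ v, (qv v).Prime)
    {L : Finset T} {q : ℕ} (hq : q.Prime) :
    q ∣ liftLevel N₀ qv L ↔ q ∣ N₀ ∨ ∃ v ∈ L, q = qv v := by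
  rw [liftLevel, hq.dvd_mul, Prime.dvd_finsetProd_iff hq.prime]
  exact or_congr_right (exists_congr fun v => and_congr_right fun _ =>
    Nat.prime_dvd_prime_iff_eq hq (hprime v))

variable {R : ResidualData W C} {Ch : PlaceChoice C} {T : Finset ℕ}
  {PB : (R.ordLevel Ch T).RepRing} {x : PB.R →ₐ[C.O] C.O}

/-- **The level of modularity.** -/
theorem IsCurvePoint.exists_level (hx : IsCurvePoint R Ch PB x) (h : Residual W p)
    (hT : ∀ q ∈ T, q.Prime ∧ q ≠ p ∧ q ∉ Smin W p)
    (hbad : ∀ q : ℕ, q.Prime → (q : ℤ) ∣ W.Δ → q ≠ p → q ∈ Smin W p ∪ T) {N₀ : ℕ}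
    (hN₀ : Squarefree N₀) (hN₀S : ∀ q : ℕ, q.Prime → q ∣ N₀ → q ∈ Smin W p ∪ {p})
    (hpN₀ : p ∣ N₀ → (p : ℤ) ∣ W.Δ) {frob tame : T → GQ}
    (hF : FramedPrimes p (R.ordLevel Ch T) (fun v : T => (v : ℕ)) frob tame) {r : ℕ} {r₀ : T}
    {Φ₀ : T → Matrix (Fin 2) (Fin 2) C.O}
    {X : AuxLevels r r₀ frob tame Φ₀ (R.ordLevel Ch T) PB}
    (B : LiftingLevels p (fun v : T => (v : ℕ)) X)
    (hexp : ∀ (L : Finset T) [NeZero (liftLevel N₀ (fun v : T => (v : ℕ)) L)],
      ∃ e : Module.Basis (Fin (B.rank L)) C.O (CohLoc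
          (awayMonoid (lamIdeal (Λ := C.O) (residue_surjective (R := C.O))
            (R.ordLevel Ch T).Sigma (apLam W C.O)))
          (scalarRep (1 : (ZMod (liftLevel N₀ (fun v : T => (v : ℕ)) L))ˣ →* C.O) C.O)),
        ∀ ℓ : ℕ, ∀ hℓ : ℓ.Prime, ℓ ∉ (R.ordLevel Ch T).Sigma → ∀ A : ValuationSubring Qbar,
          A.LiesOverPrime ℓ → ∀ σ : GQ, A.IsFrobeniusAt σ ℓ → ∀ y,
            (e.repr ((MvPolynomial.X ⟨ℓ, hℓ⟩ : HeckePoly C.O) • y) : Fin (B.rank L) → C.O) =
              Matrix.mulVec (B.act₀ L (PB.rep σ).trace) (e.repr y))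
    (hker : RingHom.ker (B.act₀
        (Finset.univ.filter fun v => ∃ i j, (x : PB.R →+* C.O) ((PB.rep (tame v) - 1) i j) ≠ 0)) ≤
      RingHom.ker (x : PB.R →+* C.O)) :
    ∃ N : ℕ, 0 < N ∧ Squarefree N ∧ (∀ q : ℕ, q.Prime → q ∣ N → (q : ℤ) ∣ W.Δ) ∧
      W.IsModularModelOfLevel N := by
  set L := Finset.univ.filter fun v => ∃ i j, (x : PB.R →+* C.O) ((PB.rep (tame v) - 1) i j) ≠ 0
    with hLdef
  set N := liftLevel N₀ (fun v : T => (v : ℕ)) L with hNdef
  have hnot : ∀ v : T, ¬ (v : ℕ) ∣ N₀ := fun v hd => by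
    obtain ⟨hv, hvp, hvS⟩ := hT v v.2
    have := hN₀S v hv hd
    simp only [Finset.mem_union, Finset.mem_singleton] at this
    exact this.elim hvS hvp
  have hprime : ∀ v : T, (v : ℕ).Prime := fun v => (hT v v.2).1
  have hsq : Squarefree N := squarefree_liftLevel hN₀ hprime Subtype.val_injective hnot L
  have : NeZero N := ⟨hsq.ne_zero⟩
  have hNS : ∀ q : ℕ, q.Prime → q ∣ N → q ∈ Smin W p ∪ T ∪ {p} := fun q hq hd => by
    rcases (dvd_liftLevel_iff hprime hq).1 hd with hd | ⟨v, -, rfl⟩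
    · have := hN₀S q hq hd
      simp only [Finset.mem_union] at this ⊢
      exact this.imp Or.inl id
    · exact Finset.mem_union_left _ (Finset.mem_union_right _ v.2)
  refine ⟨N, Nat.pos_of_ne_zero hsq.ne_zero, hsq, fun q hq hd => ?_, ?_⟩
  · rcases (dvd_liftLevel_iff hprime hq).1 hd with hd₀ | ⟨v, hv, rfl⟩
    · rcases Finset.mem_union.1 (hN₀S q hq hd₀) with hS | hS
      · exact (mem_Smin.1 hS).2.1
      · rw [Finset.mem_singleton] at hS
        exact hS ▸ hpN₀ (hS ▸ hd₀)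
    · by_contra hgood
      obtain ⟨A, hA, -, ht, -⟩ := hF.place v
      obtain ⟨i, j, hij⟩ := (Finset.mem_filter.1 hv).2
      exact hij (hx.eq_zero_of_good (hprime v) (hT v v.2).2.1 hgood hA ht i j)
  obtain ⟨e, he⟩ := hexp L
  refine hx.isModularModelOfLevel_of_ker_le h hbad (R.baseSetting_ap h hbad hsq hNS Ch.P _)
    (B.act₀ L) (fun o => ?_) e (fun ℓ hℓ hℓS A hA σ hσ v => he ℓ hℓ hℓS A hA σ hσ v) hker
  rw [← (X.toBase 0).commutes, ← B.act_base, B.act_const]
  ext i j
  simp only [Matrix.map_apply, Matrix.smul_apply, Matrix.one_apply, smul_eq_mul]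
  split_ifs <;> simp [twAug, twConst]

end Fermat.Agent.Engine.Top

end
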