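import Fermat.Agent.Engine.Top.LowerMain
import Fermat.Agent.Engine.Top.FlatKer
import Fermat.Agent.Engine.Top.FlatShape
import Fermat.Agent.Engine.Top.PlaceAux
import Fermat.Agent.Engine.FlatAux

/-!
# Lowering in the two cases at `p`

`LoweringBuildHyp` is what is used of the modules of auxiliary levels.  `lowering_flat`: `p` prime
to the level, with the flat condition.  `lowering_ordinary`: `p` in the level.
-/

set_option autoImplicit false

noncomputable section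

open IsLocalRing Fermat.Agent.DefRing Fermat.Agent.Deform Fermat.Agent.FlatJ0 Fermat.Agent.EigenRep ModularCurve

namespace Fermat.Agent.Engine.Top

open HeckeModule TRep

local notation "Qbar" => AlgebraicClosure ℚ

/-- The modules of lowering levels exist. -/
def LoweringBuildHyp (p : ℕ) [Fact p.Prime] : Prop :=
  ∀ (O : Type) [CommRing O] [IsDomain O] [IsDiscreteValuationRing O]
    [IsAdicComplete (maximalIdeal O) O] [Finite (ResidueField O)] [CharZero O]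
    [CharP (ResidueField O) p]
    (ι₀ : ℤ_[p] →+* O) (N₀ : ℕ) [NeZero N₀] (lam : ℕ → O) (T : Type) [Fintype T] (qv : T → ℕ)
    (L₀ : LevelData O) (frob tame : T → GQ) (v : T) (ζ ζ' : O),
    LoweringSetting p ι₀ N₀ lam qv L₀ frob tame v ζ ζ' → TopPlaceHyp p ι₀ N₀ lam L₀ →
    ∀ (r : ℕ) (r₀ : T) (Φ₀ : T → Matrix (Fin 2) (Fin 2) O) (PB : L₀.RepRing)
      (X : AuxLevels r r₀ frob tame Φ₀ L₀ PB) (Q : ℕ → Fin r → ℕ), AuxPrimes p X Q →
      Nontrivial (BaseClasses (O := O) (residue_surjective (R := O)) L₀.Sigma lam N₀) →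
      ((∀ i, ∃ k : ℕ, ∀ n, (MvPowerSeries.C (X.extra n i) : (X.P n).Framed r₀) ^ k ∈
          Ideal.span (Set.image (X.θ n)
            {x : LocRing O T X.g | MvPowerSeries.constantCoeff x ∈ maximalIdeal O})) ∨
        ∃ (A : ValuationSubring Qbar) (N : ℕ → Subgroup GQ), FlatLevelsNil p X N ∧
          ∀ n, ∀ s ∈ N n, L₀.D.rbar s = 1 ∧ ∀ (M : ℕ) [NeZero M],
            (M = N₀ * (∏ q ∈ Finset.univ.image (Q n), q) * (∏ q ∈ Finset.univ.image (Q n), q) ∨
              M = N₀ * (∏ q ∈ Finset.univ.image (Q n), q) *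
                ((∏ q ∈ Finset.univ.image (Q n), q) * qv v)) →
            s ∈ torsionKer A p (JZero M)) →
      ∃ (B : LoweringLevels p X v ζ ζ') (b : Module.Basis (Fin B.rank) O
          (BaseClasses (O := O) (residue_surjective (R := O)) L₀.Sigma lam N₀)),
        ∀ (ℓ : ℕ) (hℓ : ℓ.Prime), ℓ ∉ L₀.Sigma → ∀ A : ValuationSubring Qbar, A.LiesOverPrime ℓ →
          ∀ σ : GQ, A.IsFrobeniusAt σ ℓ → ∀ x,
            ⇑(b.repr ((MvPolynomial.X (⟨ℓ, hℓ⟩ : Nat.Primes) : HeckePoly O) • x)) =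
              Matrix.mulVec (B.act₀' (PB.rep σ).trace) ⇑(b.repr x)

variable {W : WeierstrassCurve ℤ} {p : ℕ} [Fact p.Prime] {C : Coeff p}

omit [Fact p.Prime] in
/-- The properties of an extra prime. -/
theorem extraPrimes_spec {M r : ℕ} (hr : r ∈ extraPrimes W p M) :
    r.Prime ∧ r ≠ p ∧ r ∉ Smin W p :=
  ⟨(mem_extraPrimes.1 hr).1, (mem_extraPrimes.1 hr).2.2.2.1,
    fun hS => Finset.disjoint_left.1 (disjoint_Smin_extraPrimes W p M) hS hr⟩

namespace ResidualData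

variable (R : ResidualData W C) (h : Residual W p) {M q : ℕ} [NeZero M] (hM : Squarefree M)
  (hqT : q ∈ extraPrimes W p M) (hone : ∀ r ∈ extraPrimes W p M, p ∣ r - 1) (a : ℕ → ℤ)
  (ha : ∀ ℓ : ℕ, ℓ.Prime → W.IsGoodPrimeFor ℓ → a ℓ = W.apOfModel ℓ)
  (htr : ∀ ℓ : ℕ, ℓ.Prime → ¬ ℓ ∣ M → ℓ ≠ p → ∀ A : ValuationSubring Qbar, A.LiesOverPrime ℓ →
      ∀ σ : GQ, A.IsFrobeniusAt σ ℓ →
        WeierstrassCurve.Affine.Point.galoisTrace ℚ (W.map (Int.castRingHom ℚ)) p σ =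
          (a ℓ : ZMod p))
  {f : CuspForm (CongruenceSubgroup.Gamma0 M) 2} (hf : f.IsNormalizedEigenform)
  {𝔪 : Ideal (integralClosure ℤ ℂ)} (h𝔪 : 𝔪.IsMaximal) (hp𝔪 : (p : integralClosure ℤ ℂ) ∈ 𝔪)
  (hcong : ∀ ℓ : ℕ, ℓ.Prime → ¬ ℓ ∣ M → ℓ ≠ p → ∃ c : integralClosure ℤ ℂ,
      (c : ℂ) = ModularFormClass.qCoeff f ℓ ∧ c - (a ℓ : integralClosure ℤ ℂ) ∈ 𝔪)
  (hbuild : LoweringBuildHyp p) (hold : UnramifiedIsOldAll p (M / q) q)
  (hinv : GalCoh.Reciprocity p) (hGW : GalCoh.GreenbergWilesLe p)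

include R h hM hone ha htr hf h𝔪 hp𝔪 hcong hbuild hold hinv hGW hqT

/-- **Lowering, `p` prime to the level.** -/
theorem lowering_flat (hpM : ¬ p ∣ M) : W.IsResiduallyModularOfLevel p (M / q) := by
  classical
  have := isElliptic_of_residual h.toOdd
  have hpp : p.Prime := Fact.out
  have hp5 := h.five_le
  obtain ⟨A, hA⟩ := Frobenius.exists_liesOverPrime Qbar hpp
  set T := extraPrimes W p M
  let cl : Closed C.O (A.decompositionSubgroup ℚ × Fin 2 × Fin 2) := freeClosed _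
  let L₀ := R.levelData T A cl
  have h₀ : L₀.IsResidual := R.isResidual_levelData h T A cl (mem_freeClosed _)
  obtain ⟨Ch, Φ₀, hCh, hΦ₀, hF⟩ := R.exists_localChoices h T (fun _ => extraPrimes_spec) A cl
  have H := R.loweringSetting h hM (hone q hqT) hqT a htr A cl hF
  have hbase := R.nontrivial_baseClasses h hM a hf h𝔪 hp𝔪 hcong A cl
  have hplace : TopPlaceHyp p C.ι₀ M (fun ℓ => (a ℓ : C.O)) L₀ := by
    intro N _ hes _ _ S _ Λ _ _ _ _ _ _ _ _ _ hsΛ Rρ _ B _ _ _ _ _ _ _ _ _ F g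
    exact mem'_freeClosed _
  -- the kernels
  obtain ⟨K, ρE, hK, hKε⟩ := exists_cycloKernel hp5 hA
  have hes : EichlerShimuraRelations M p := SemistableRed.allRelations _ p
  have hK₀ := isBoundKernel_torsionKer_inf (stdInputs hes) hA (FlatJ0.jZeroBound hpM) hK
  have htriv : ∀ s ∈ torsionKer A p (JZero M) ⊓ K, R.D.rbar s = 1 := fun s hs =>
    rbar_eq_one_of_fixed H.toBaseSetting h₀ hplace hbase hs.1.2 (hKε s hs.2)
  have hK₁ : IsBoundKernel A p (torsionKer A p (JZero M) ⊓ K) R.D.rbar :=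
    { le := hK₀.le
      normal := hK₀.normal
      isOpen := hK₀.isOpen
      bound := hK₀.bound
      trivial := htriv
      continuous := by
        obtain ⟨L, hL, hσ⟩ := R.finiteLevel h
        exact ⟨L, hL, fun σ hs => hσ σ fun x hx =>
          (IntermediateField.mem_fixingSubgroup_iff L σ).1 hs x hx⟩ }
  have hshape : IsFlatShape A p R.D.rbar := by
    by_cases hgood : W.IsGoodPrimeFor p
    · exact isFlatShape_torsion hA (by omega) hgood R.isTorsionMatrix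
    · exact R.isFlatShape_mult h hgood hA
  obtain ⟨atP, hplaceA, hatP⟩ := exists_flat_condAtP p hp5 R.D.rbar A hA hshape hK₁
  subst hplaceA
  let N : Finset ℕ → Subgroup GQ := fun Qs =>
    torsionKer atP.place p (JZero (M * (∏ x ∈ Qs, x) * (∏ x ∈ Qs, x))) ⊓
      (torsionKer atP.place p (JZero (M * (∏ x ∈ Qs, x) * ((∏ x ∈ Qs, x) * q))) ⊓
        (torsionKer atP.place p (JZero M) ⊓ K))
  have hN : ∀ Qs : Finset ℕ, (∀ x ∈ Qs, x.Prime ∧ x ≠ p) →
      IsBoundKernel atP.place p (N Qs) L₀.D.rbar := by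
    intro Qs hQs
    obtain ⟨hqp, -, -, hqne, -⟩ := mem_extraPrimes.1 hqT
    have hP : ¬ p ∣ ∏ x ∈ Qs, x := fun hd => by
      obtain ⟨x, hx, hd⟩ := (Prime.dvd_finsetProd_iff hpp.prime _).mp hd
      exact (hQs x hx).2 ((Nat.prime_dvd_prime_iff_eq hpp (hQs x hx).1).mp hd).symm
    have hP0 : (∏ x ∈ Qs, x) ≠ 0 := Finset.prod_ne_zero_iff.2 fun x hx => (hQs x hx).1.ne_zero
    have : NeZero (M * (∏ x ∈ Qs, x) * (∏ x ∈ Qs, x)) :=
      ⟨mul_ne_zero (mul_ne_zero (NeZero.ne M) hP0) hP0⟩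
    have : NeZero (M * (∏ x ∈ Qs, x) * ((∏ x ∈ Qs, x) * q)) :=
      ⟨mul_ne_zero (mul_ne_zero (NeZero.ne M) hP0) (mul_ne_zero hP0 hqp.ne_zero)⟩
    refine isBoundKernel_torsionKer_inf (stdInputs (SemistableRed.allRelations _ p)) hA
      (FlatJ0.jZeroBound ?_) (isBoundKernel_torsionKer_inf
        (stdInputs (SemistableRed.allRelations _ p)) hA (FlatJ0.jZeroBound ?_) hK₁)
    · rw [hpp.dvd_mul, hpp.dvd_mul]
      tauto
    · rw [hpp.dvd_mul, hpp.dvd_mul, hpp.dvd_mul]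
      have : ¬ p ∣ q := fun hd => hqne ((Nat.prime_dvd_prime_iff_eq hpp hqp).1 hd).symm
      tauto
  obtain ⟨PB⟩ := LevelData.nonempty_repRing h₀
  obtain ⟨r, -, Q, X, hX, hnil⟩ := exists_flat_auxLevels_tw p hp5 hinv hGW L₀ PB h₀
    (R.indexTwo h) _ C.residue_cyclo (R.det_rbar h _ C.residue_cyclo)
    (R.imageVanishing h C.residue_cyclo) atP hatP N hN T
    ⟨fun hp => (mem_Smin.1 hp).2.2.2.1 rfl, fun hp => (extraPrimes_spec hp).2.1 rfl⟩
    (disjoint_Smin_extraPrimes W p M)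
    (fun x hx => (Finset.mem_union.1 hx).elim (fun hx => (mem_Smin.1 hx).1)
      fun hx => (extraPrimes_spec hx).1) rfl (fun x hx => R.exists_ramified hx)
    (fun x hx hxS hxp B hB σ hσ => R.rbar_inertia_of_not_mem h hx hxS hxp hB hσ) Ch hCh ⟨q, hqT⟩
    Φ₀ hΦ₀
  obtain ⟨B, b, hb⟩ := hbuild C.O C.ι₀ M _ T _ L₀ Ch.frob Ch.tame ⟨q, hqT⟩ C.ζ C.ζ' H hplace r
    ⟨q, hqT⟩ Φ₀ PB X Q hX hbase (Or.inr ⟨atP.place, _, hnil, fun n s hs => ⟨htriv s hs.2.2,
      fun M' _ hM' => by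
        rcases hM' with rfl | rfl
        exacts [hs.1, hs.2.1]⟩⟩)
  exact lowering_of_levels R h hM hqT hone a ha H B b hb hold

/-- **Lowering, `p` in the level.** -/
theorem lowering_ordinary (Pc : PlaceChoice C) (hord : OrdinaryIfInLevel W p M) (hpM : p ∣ M)
    (hplace : TopPlaceHyp p C.ι₀ M (fun ℓ => (a ℓ : C.O)) (R.ordLevel Pc (extraPrimes W p M))) :
    W.IsResiduallyModularOfLevel p (M / q) := by
  classical
  set T := extraPrimes W p M
  have hcase : ¬ W.IsGoodPrimeFor p ∨ ¬ (p : ℤ) ∣ W.apOfModel p :=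
    (hord hpM).imp_right And.left
  obtain ⟨Ch, Φ₀, hCh, hΦ₀, hF⟩ := R.exists_localChoices h T (fun _ => extraPrimes_spec) Pc.P
    (ordinaryClosed Pc.P C.cyclo)
  have H := R.loweringSetting h hM (hone q hqT) hqT a htr Pc.P _ hF
  have hbase := R.nontrivial_baseClasses h hM a hf h𝔪 hp𝔪 hcong Pc.P
    (ordinaryClosed Pc.P C.cyclo)
  obtain ⟨PB⟩ := LevelData.nonempty_repRing (R.isResidual_ordLevel Pc h hcase T)
  -- auxiliary levels with the relation of the further generators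
  obtain ⟨r, Q, X, hX, hnil⟩ : ∃ (r : ℕ) (Q : ℕ → Fin r → ℕ)
      (X : AuxLevels r (⟨q, hqT⟩ : T) Ch.frob Ch.tame Φ₀ (R.ordLevel Pc T) PB), AuxPrimes p X Q ∧
      ∀ i, ∃ k : ℕ, ∀ n, (MvPowerSeries.C (X.extra n i) : (X.P n).Framed ⟨q, hqT⟩) ^ k ∈
        Ideal.span (Set.image (X.θ n)
          {x : LocRing C.O T X.g | MvPowerSeries.constantCoeff x ∈ maximalIdeal C.O}) := by
    by_cases hgood : W.IsGoodPrimeFor p
    · obtain ⟨hap, hap1⟩ := (hord hpM).resolve_left (not_not.2 hgood)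
      obtain ⟨r, -, Q, X, hX0, hX⟩ := R.exists_aux_good Pc hinv hGW h T
        (fun _ => extraPrimes_spec) Ch hCh ⟨q, hqT⟩ Φ₀ hΦ₀ PB hgood hap hap1
      exact ⟨r, Q, X, hX, fun i => (finCongr hX0 i).elim0⟩
    · by_cases hs : R.D.rbar Pc.s = 1
      · obtain ⟨i, j, r, -, Q, X, -, hX, hext, l, hl⟩ := R.exists_aux_unram Pc hinv hGW h T
          (fun _ => extraPrimes_spec) Ch hCh ⟨q, hqT⟩ Φ₀ hΦ₀ PB hgood hs
        refine ⟨r, Q, X, hX, fun e => ⟨2, fun n => ?_⟩⟩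
        have hlift := (X.P n).isLift
        have h0 := Pc.defect_smul_sub_one (X.P n).instIsLocalHom (X.P n).residue_surjective
          hlift.cont (fun σ _ => hlift.eqs.det σ)
          ((mem'_ordinaryClosed (X.P n).instIsLocalHom (X.P n).residue_surjective).1 hlift.atPlace)
        have h1 : Pc.defect (X.P n).rep * (((X.P n).rep Pc.s - 1) i j) = 0 :=
          congrFun (congrFun h0 i) j
        rw [hext n e, ← map_pow, show ((((X.P n).rep Pc.s - 1) i j)) ^ 2 =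
          (((X.P n).rep Pc.s - 1) i j) *
            (Pc.defect (X.P n).rep + (((X.P n).rep Pc.s - 1) i j)) by linear_combination -h1,
          map_mul, ← hl n]
        refine Ideal.mul_mem_left _ _ (Ideal.subset_span ⟨_, ?_, rfl⟩)
        simp
      · obtain ⟨r, -, Q, X, hX0, hX⟩ := R.exists_aux_ram Pc hinv hGW h T
          (fun _ => extraPrimes_spec) Ch hCh ⟨q, hqT⟩ Φ₀ hΦ₀ PB hgood hs
        exact ⟨r, Q, X, hX, fun i => (finCongr hX0 i).elim0⟩
  obtain ⟨B, b, hb⟩ := hbuild C.O C.ι₀ M _ T _ _ Ch.frob Ch.tame ⟨q, hqT⟩ C.ζ C.ζ' H hplace r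
    ⟨q, hqT⟩ Φ₀ PB X Q hX hbase (Or.inl hnil)
  exact lowering_of_levels R h hM hqT hone a ha H B b hb hold

end ResidualData

end Fermat.Agent.Engine.Top

end
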