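import Fermat.Agent.Engine.Top.LowerSetting
import Fermat.Agent.Engine.Top.Convert
import Mathlib.RingTheory.Localization.FractionRing

/-!
# Lowering from the modules of the auxiliary levels

Given the modules of the auxiliary levels of a level `M` of residual modularity, with the Hecke
action on the classes at `M` through traces, `W` is residually modular of level `M / q`.
-/

set_option autoImplicit false

noncomputable section

open IsLocalRing Matrix Fermat.Agent.DefRing Fermat.Agent.Deform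

namespace Fermat.Agent.Engine.Top

open HeckeModule TRep

local notation "Qbar" => AlgebraicClosure ℚ

variable {W : WeierstrassCurve ℤ} {p : ℕ} [Fact p.Prime] {C : Coeff p}

/-- **Lowering from levels.** -/
theorem lowering_of_levels (R : ResidualData W C) (h : Residual W p) {M q : ℕ} [NeZero M]
    (hM : Squarefree M) (hqT : q ∈ extraPrimes W p M)
    (hone : ∀ r ∈ extraPrimes W p M, p ∣ r - 1) (a : ℕ → ℤ)
    (ha : ∀ ℓ : ℕ, ℓ.Prime → W.IsGoodPrimeFor ℓ → a ℓ = W.apOfModel ℓ)
    {P : ValuationSubring Qbar} {cl : Closed C.O (P.decompositionSubgroup ℚ × Fin 2 × Fin 2)}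
    {frob tame : extraPrimes W p M → GQ}
    (H : LoweringSetting p C.ι₀ M (fun ℓ => (a ℓ : C.O))
      (fun v : extraPrimes W p M => (v : ℕ)) (R.levelData (extraPrimes W p M) P cl) frob tame
      ⟨q, hqT⟩ C.ζ C.ζ')
    {PB : (R.levelData (extraPrimes W p M) P cl).RepRing} {r : ℕ} {r₀ : extraPrimes W p M}
    {Φ₀ : extraPrimes W p M → Matrix (Fin 2) (Fin 2) C.O}
    {X : AuxLevels r r₀ frob tame Φ₀ (R.levelData (extraPrimes W p M) P cl) PB}
    (B : LoweringLevels p X ⟨q, hqT⟩ C.ζ C.ζ')
    (b : Module.Basis (Fin B.rank) C.O (BaseClasses (O := C.O) (residue_surjective (R := C.O))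
      (R.levelData (extraPrimes W p M) P cl).Sigma (fun ℓ => (a ℓ : C.O)) M))
    (hb : ∀ (ℓ : ℕ) (hℓ : ℓ.Prime), ℓ ∉ (R.levelData (extraPrimes W p M) P cl).Sigma →
      ∀ A : ValuationSubring Qbar, A.LiesOverPrime ℓ → ∀ σ : GQ, A.IsFrobeniusAt σ ℓ → ∀ x,
        ⇑(b.repr ((MvPolynomial.X (⟨ℓ, hℓ⟩ : Nat.Primes) : HeckePoly C.O) • x)) =
          B.act₀' (PB.rep σ).trace *ᵥ ⇑(b.repr x))
    (hold : UnramifiedIsOldAll p (M / q) q) :
    W.IsResiduallyModularOfLevel p (M / q) := by
  classical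
  have hact : ∀ o : C.O, B.act₀' (algebraMap C.O PB.R o) = o • 1 := fun o => by
    rw [← (X.toBase 0).commutes, ← B.act'_base, B.act'_const]
    ext i j
    simp only [Matrix.map_apply, Matrix.smul_apply, Matrix.one_apply, smul_eq_mul]
    split_ifs <;> simp [twAug, twConst]
  obtain ⟨hqp, hqM, -, -, -⟩ := mem_extraPrimes.1 hqT
  obtain ⟨hd, hsq, hnd, -⟩ := div_prime_facts hqp hqM hM
  have hqv : ∀ w : extraPrimes W p M, ((w : ℕ) : C.O) - 1 ∈ maximalIdeal C.O := fun w => by
    obtain ⟨c, hc⟩ := hone _ w.2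
    have h1 : (w : ℕ) = p * c + 1 := by
      have := (mem_extraPrimes.1 w.2).1.one_le
      omega
    rw [h1, Nat.cast_add, Nat.cast_mul, Nat.cast_one, add_sub_cancel_right]
    exact Ideal.mul_mem_right _ _ C.p_mem
  have hne : C.ζ ≠ 1 := C.ζ_primitive.ne_one (Fact.out : p.Prime).one_lt
  obtain ⟨Q, hQ, hker, hv, hO⟩ := B.exists_prime H.framed H.two H.zeta_mul H.zeta_pow
    H.zeta_mem hne hqv
  have hexact : ExactHyp (awayMonoid (lamIdeal (residue_surjective (R := C.O))
      (R.levelData (extraPrimes W p M) P cl).Sigma (fun ℓ => (a ℓ : C.O))))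
      (1 : (ZMod M)ˣ →* C.O) := by
    have := H.exactHyp (Λ := C.O) (residue_surjective (R := C.O)) (Finset.Subset.refl _)
      (fun _ => 1) ∅ M (H.three.of_dvd dvd_rfl) (by simp)
    simpa [charSq] using this
  obtain ⟨O', _, _, _, _, _, hl, a', hocc, hcong⟩ := exists_congruent_system
    (residue_surjective (R := C.O)) PB H.framed ⟨q, hqT⟩ B.act₀' hact b hb hexact hQ hker hv hO
    C.isPadicCyclotomic C.p_mem H.trace_frob H.span h.five_le hold (Nat.div_mul_cancel hqM).symm hnd H.sigma
  have hM0 : M / q ≠ 0 := hsq.ne_zero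
  have : NeZero (M / q) := ⟨hM0⟩
  have hp' : (p : O') ∈ maximalIdeal O' := by
    rw [← map_natCast (algebraMap C.O O')]
    exact map_nonunit (algebraMap C.O O') _ C.p_mem
  refine isResiduallyModularOfLevel_of_occurs h.delta_ne_zero hp'
    (IsFractionRing.injective O' (FractionRing O')) hocc ?_
    ((R.levelData (extraPrimes W p M) P cl).Sigma ∪ W.Δ.natAbs.primeFactors) fun ℓ hℓ hℓT => ?_
  · obtain ⟨l, hl1, hl2, -, hlS, hne'⟩ := H.exists_nonEisenstein _ (Finset.Subset.refl _)
      (Nat.pos_of_ne_zero hM0)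
    refine ⟨l, hl1, hlS, hl2, fun he => hne' ?_⟩
    have he' : a' l = (l : O') + 1 := IsFractionRing.injective O' (FractionRing O') (by
      simpa using he)
    have h1 := hcong l hl1 hlS
    rw [he', ← map_natCast (algebraMap C.O O'), ← map_one (algebraMap C.O O'), ← map_add,
      ← map_sub] at h1
    have h2 : residue C.O ((l : C.O) + 1 - (a l : C.O)) = 0 :=
      (residue_eq_zero_iff _).2 fun hu => h1 (hu.map _)
    rw [map_sub, sub_eq_zero, map_add, map_natCast, map_one] at h2
    exact h2.symm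
  · simp only [Finset.mem_union, Nat.mem_primeFactors, hℓ, true_and, ne_eq, Int.natAbs_eq_zero,
      h.delta_ne_zero, not_false_eq_true, and_true, not_or] at hℓT
    have h1 := hcong ℓ hℓ hℓT.1
    rwa [ha ℓ hℓ (fun hd' => hℓT.2 (Int.natCast_dvd.1 hd')), map_intCast] at h1

end Fermat.Agent.Engine.Top

end
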