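import Fermat.Agent.Engine.LoweringFraming
import Fermat.Agent.Engine.TRep.NilPoint
import Fermat.Agent.Engine.TSide
import Fermat.Agent.Engine.Top.AtP

/-!
# The point and the attached representation for lowering

A prime of the base ring over zero in `O`, of the module without character, at which inertia at
`qv v` is trivial, gives a point in a finite extension of `O` whose representation is unramified at
`qv v` and attached to the traces of the universal representation.
-/

set_option autoImplicit false

noncomputable section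

open IsLocalRing GaloisRep Fermat.Agent.DefRing Fermat.Agent.Deform

namespace Fermat.Agent.Engine.Top

local notation "Qbar" => AlgebraicClosure ℚ

variable {O : Type} [CommRing O] [IsDomain O] [IsDiscreteValuationRing O]
  [IsAdicComplete (maximalIdeal O) O] [Finite (ResidueField O)] [CharZero O] {p : ℕ} [Fact p.Prime]
  [CharP (ResidueField O) p] {T : Type} {qv : T → ℕ} {frob tame : T → GQ} {L₀ : LevelData O}
  {PB : L₀.RepRing}

omit [IsAdicComplete (maximalIdeal O) O] [Finite (ResidueField O)] [CharZero O] in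
/-- A quotient of a ring acting by matrices, through the kernel of the action, is finite. -/
theorem finite_quotient_of_matrix {R : Type} [CommRing R] [Algebra O R] {d : ℕ}
    (act : R →+* Matrix (Fin d) (Fin d) O) (hact : ∀ o : O, act (algebraMap O R o) = o • 1)
    {Q : Ideal R} (hQ : RingHom.ker act ≤ Q) : Module.Finite O (R ⧸ Q) := by
  let f : R →ₐ[O] Matrix (Fin d) (Fin d) O :=
    { act with
      commutes' := fun o => by
        change act (algebraMap O R o) = _
        rw [hact, Algebra.algebraMap_eq_smul_one] }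
  have : Module.Finite O (R ⧸ RingHom.ker f) :=
    Module.Finite.of_injective (Ideal.kerLiftAlg f).toLinearMap (Ideal.kerLiftAlg_injective f)
  exact Module.Finite.of_surjective
    (Ideal.Quotient.factorₐ O (show RingHom.ker f ≤ Q from hQ)).toLinearMap
    (Ideal.Quotient.factor_surjective hQ)

/-- **The point.** -/
theorem exists_lowering_point (hF : FramedPrimes p L₀ qv frob tame) (v : T) {d : ℕ}
    (act : PB.R →+* Matrix (Fin d) (Fin d) O) (hact : ∀ o : O, act (algebraMap O PB.R o) = o • 1)
    {Q : Ideal PB.R} (hQ : Q.IsPrime) (hker : RingHom.ker act ≤ Q)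
    (hv : ∀ i j, (PB.rep (tame v) - 1) i j ∈ Q)
    (hO : ∀ o : O, algebraMap O PB.R o ∈ Q ↔ o = 0) :
    ∃ (O' : Type) (_ : CommRing O') (_ : IsDomain O') (_ : IsDiscreteValuationRing O')
      (_ : IsAdicComplete (maximalIdeal O') O') (_ : Finite (ResidueField O')) (_ : CharZero O')
      (_ : Algebra O O') (_ : IsLocalHom (algebraMap O O'))
      (θ : PB.R →ₐ[O] O'), IsLocalHom (θ : PB.R →+* O') ∧ RingHom.ker act ≤ RingHom.ker θ ∧
        ∀ Pl : ValuationSubring Qbar, Pl.LiesOverPrime (qv v) →
          ∀ σ ∈ Pl.inertiaSubgroupIn ℚ, (PB.rep σ).map θ = 1 := by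
  have := finite_quotient_of_matrix act hact hker
  have htf : ∀ (o : O) (x : PB.R ⧸ Q), o ≠ 0 → algebraMap O (PB.R ⧸ Q) o * x = 0 → x = 0 :=
    fun o x ho h => (mul_eq_zero.1 h).resolve_left fun h0 =>
      ho ((hO o).1 (Ideal.Quotient.eq_zero_iff_mem.1 h0))
  obtain ⟨O', _, _, _, _, _, _, _, _, hlh, θ, -⟩ :=
    TRep.exists_point O (PB.R ⧸ Q) htf (x := 1) not_isNilpotent_one
  let θ₀ : PB.R →ₐ[O] O' := θ.comp (Ideal.Quotient.mkₐ O Q)
  refine ⟨O', inferInstance, inferInstance, inferInstance, inferInstance, inferInstance,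
    inferInstance, inferInstance, hlh, θ₀, TRep.isLocalHom_point θ₀, fun x hx => ?_,
    fun Pl hPl σ hσ => Matrix.ext fun i j => ?_⟩
  · show θ (Ideal.Quotient.mk Q x) = 0
    rw [Ideal.Quotient.eq_zero_iff_mem.2 (hker hx), map_zero]
  · have h := inertia_sub_one_mem hF v hQ.ne_top hv hPl hσ i j
    rw [Matrix.sub_apply, ← Ideal.Quotient.eq] at h
    show θ (Ideal.Quotient.mk Q (PB.rep σ i j)) = _
    rw [h, Matrix.one_apply, Matrix.one_apply]
    split_ifs <;> simp

variable {O' : Type} [CommRing O'] [IsDomain O'] [IsDiscreteValuationRing O']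
  [IsAdicComplete (maximalIdeal O') O'] [Algebra O O'] (θ : PB.R →ₐ[O] O')

omit [IsAdicComplete (maximalIdeal O) O] [Finite (ResidueField O)] [CharZero O] in
/-- The trace of the universal representation at a chosen Frobenius, at a point. -/
def traceSystem (Fr : ℕ → GQ) (ℓ : ℕ) : O' := θ ((PB.rep (Fr ℓ)).trace)

/-- A representation spanning all endomorphisms, from the residual matrices. -/
theorem span_rho_eq_top_of_residual {A : Type} [CommRing A] [IsLocalRing A] (ρ : GaloisRepAdic A)
    (b : Module.Basis (Fin 2) A ρ.V)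
    (h : Submodule.span (ResidueField A) (Set.range fun σ =>
      (LinearMap.toMatrix b b (ρ.ρ σ)).map (residue A)) = ⊤) :
    Submodule.span A (Set.range fun σ => ρ.ρ σ) = ⊤ := by
  classical
  have : Module.Finite A ρ.V := Module.Finite.of_basis b
  refine top_le_iff.mp (Submodule.le_of_le_smul_of_le_jacobson_bot (I := maximalIdeal A)
    Module.Finite.fg_top (maximalIdeal_le_jacobson _) fun f _ => ?_)
  set Φ := LinearMap.toMatrix b b
  set W := Submodule.span A (Set.range fun σ => ρ.ρ σ)
  have key : ∀ X ∈ Submodule.span (ResidueField A) (Set.range fun σ => (Φ (ρ.ρ σ)).map (residue A)),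
      ∃ g ∈ W, (Φ g).map (residue A) = X := fun X hX => by
    induction hX using Submodule.span_induction with
    | mem X hX => obtain ⟨σ, rfl⟩ := hX; exact ⟨_, Submodule.subset_span ⟨σ, rfl⟩, rfl⟩
    | zero => exact ⟨0, zero_mem _, by simp⟩
    | add X Y _ _ hX hY =>
      obtain ⟨g, hg, rfl⟩ := hX
      obtain ⟨g', hg', rfl⟩ := hY
      exact ⟨g + g', add_mem hg hg', by rw [map_add, Matrix.map_add _ (map_add _)]⟩
    | smul c X _ hX =>
      obtain ⟨g, hg, rfl⟩ := hX
      obtain ⟨c, rfl⟩ := residue_surjective c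
      exact ⟨c • g, W.smul_mem c hg, by ext i j; simp⟩
  obtain ⟨g, hg, hgf⟩ := key ((Φ f).map (residue A)) (h ▸ Submodule.mem_top)
  rw [← add_sub_cancel g f]
  refine Submodule.add_mem_sup hg ?_
  rw [← Φ.symm_apply_apply (f - g), Matrix.matrix_eq_sum_single (Φ (f - g)), map_sum]
  refine Submodule.sum_mem _ fun i _ => ?_
  rw [map_sum]
  refine Submodule.sum_mem _ fun j _ => ?_
  rw [← mul_one (Φ (f - g) i j), ← smul_eq_mul, ← Matrix.smul_single, map_smul]
  refine Submodule.smul_mem_smul ?_ Submodule.mem_top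
  rw [← residue_eq_zero_iff, map_sub, Matrix.sub_apply, map_sub, sub_eq_zero]
  exact (congrFun (congrFun hgf i) j).symm

omit [IsAdicComplete (maximalIdeal O) O] [Finite (ResidueField O)] [CharZero O]
  [CharP (ResidueField O) p] [Fact p.Prime] [IsAdicComplete (maximalIdeal O') O'] in
/-- The specialised representation spans all endomorphisms if the residual one does. -/
theorem span_toAdic_eq_top (hθ : IsLocalHom (θ : PB.R →+* O')) (hl : IsLocalHom (algebraMap O O'))
    (hspan : Submodule.span (ResidueField O) (Set.range L₀.D.rbar) = ⊤) :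
    Submodule.span O' (Set.range fun σ =>
      (toAdic (mapRep (θ : PB.R →+* O') PB.rep) (PB.isLift.cont.map _ hθ)).ρ σ) = ⊤ := by
  refine span_rho_eq_top_of_residual _ (toAdicBasis _ _) ?_
  let g : ResidueField O →+* ResidueField O' := ResidueField.map (algebraMap O O')
  have key : ∀ Y ∈ Submodule.span (ResidueField O) (Set.range L₀.D.rbar),
      Y.map g ∈ Submodule.span (ResidueField O') (Set.range fun σ =>
        ((PB.rep σ).map θ).map (residue O')) := fun Y hY => by
    induction hY using Submodule.span_induction with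
    | mem Y hY =>
      obtain ⟨σ, rfl⟩ := hY
      refine Submodule.subset_span ⟨σ, ?_⟩
      ext i j
      rw [← DFunLike.congr_fun PB.isLift.reduces σ]
      obtain ⟨o, ho⟩ := residue_surjective
        (toResidue PB.instIsLocalHom PB.residue_surjective (PB.rep σ i j))
      show residue O' (θ (PB.rep σ i j)) = g (toResidue PB.instIsLocalHom PB.residue_surjective _)
      have h1 : PB.rep σ i j - algebraMap O PB.R o ∈ maximalIdeal PB.R := by
        rw [← toResidue_eq_zero_iff PB.instIsLocalHom PB.residue_surjective, map_sub,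
          AlgHom.commutes, ← ho]
        exact sub_self _
      rw [← ho, ResidueField.map_residue, ← sub_eq_zero, ← map_sub, residue_eq_zero_iff,
        ← θ.commutes o]
      show θ (PB.rep σ i j) - θ (algebraMap O PB.R o) ∈ _
      rw [← map_sub]
      exact map_nonunit (θ : PB.R →+* O') _ h1
    | zero => simp
    | add X Y _ _ hX hY => simpa [Matrix.map_add _ (map_add g)] using add_mem hX hY
    | smul c X _ hX =>
      convert Submodule.smul_mem _ (g c) hX using 1
      ext i j; simp
  refine eq_top_iff.mpr fun X _ => ?_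
  rw [Matrix.matrix_eq_sum_single X]
  refine Submodule.sum_mem _ fun i _ => Submodule.sum_mem _ fun j _ => ?_
  have h1 := key (Matrix.single i j 1) (hspan ▸ Submodule.mem_top)
  convert Submodule.smul_mem _ (X i j) h1 using 1
  · rw [show (fun σ => (LinearMap.toMatrix (toAdicBasis _ _) (toAdicBasis _ _)
      ((toAdic (mapRep (θ : PB.R →+* O') PB.rep) (PB.isLift.cont.map _ hθ)).ρ σ)).map (residue O')) =
      fun σ => ((PB.rep σ).map θ).map (residue O') from funext fun σ => by
        show ((LinearMap.toMatrix' (Matrix.toLin' ((PB.rep σ).map θ))).map (residue O')) = _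
        rw [LinearMap.toMatrix'_toLin']]
  · simp [Matrix.map_single]

omit [IsAdicComplete (maximalIdeal O) O] [Finite (ResidueField O)] [CharZero O]
  [CharP (ResidueField O) p] [Fact p.Prime] [IsAdicComplete (maximalIdeal O') O'] in
/-- **The attached representation.** -/
theorem exists_attached (hθ : IsLocalHom (θ : PB.R →+* O')) (hl : IsLocalHom (algebraMap O O'))
    (hp : (p : O) ∈ maximalIdeal O) (hdet : IsPadicCyclotomic p L₀.detChar)
    (hspan : Submodule.span (ResidueField O) (Set.range L₀.D.rbar) = ⊤)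
    (Fr : ℕ → GQ) (S : Finset ℕ)
    (hFr : ∀ ℓ : ℕ, ℓ.Prime → ℓ ∉ S → ∀ A : ValuationSubring Qbar, A.LiesOverPrime ℓ →
      ∀ σ : GQ, A.IsFrobeniusAt σ ℓ → θ (PB.rep σ).trace = θ (PB.rep (Fr ℓ)).trace)
    {q : ℕ} (hq : ∀ Pl : ValuationSubring Qbar, Pl.LiesOverPrime q →
      ∀ σ ∈ Pl.inertiaSubgroupIn ℚ, (PB.rep σ).map θ = 1) :
    ∃ ρ : GaloisRepAdic O', IsAttachedSystem O' p ρ S (traceSystem θ Fr) ∧ ρ.IsUnramifiedAt q ∧
      Submodule.span O' (Set.range fun σ => ρ.ρ σ) = ⊤ := by
  let ρ := toAdic (mapRep (θ : PB.R →+* O') PB.rep) (PB.isLift.cont.map _ hθ)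
  refine ⟨ρ, ⟨⟨?_, fun n σ a ha => ?_⟩, fun ℓ hℓ hℓS A hA σ hσ => ?_⟩, fun Pl hPl σ hσ => ?_,
    span_toAdic_eq_top θ hθ hl hspan⟩
  · rw [← map_natCast (algebraMap O O')]
    exact fun hu => hp (hl.map_nonunit _ hu)
  · obtain ⟨c, hc⟩ := Ideal.mem_span_singleton.1 (hdet n σ a ha)
    refine Ideal.mem_span_singleton.2 ⟨algebraMap O O' c, ?_⟩
    show LinearMap.det (Matrix.toLin' ((PB.rep σ).map θ)) - _ = _
    rw [LinearMap.det_toLin', show ((PB.rep σ).map θ).det = θ (PB.rep σ).det from
      (RingHom.map_det (θ : PB.R →+* O') _).symm, PB.isLift.eqs.det σ]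
    rw [AlgHom.commutes, ← map_natCast (algebraMap O O') a, ← map_sub, hc, map_mul,
      map_pow, map_natCast (algebraMap O O'), Nat.cast_pow]
  · show LinearMap.trace O' (Fin 2 → O') (Matrix.toLin' ((PB.rep σ).map θ)) = _
    rw [Matrix.trace_toLin'_eq, traceSystem, ← hFr ℓ hℓ hℓS A hA σ hσ]
    exact (AddMonoidHom.map_trace θ.toRingHom.toAddMonoidHom _).symm
  · show Matrix.toLin' ((PB.rep σ).map θ) = 1
    rw [hq Pl hPl σ hσ, Matrix.toLin'_one]
    rfl

end Fermat.Agent.Engine.Top

end
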