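import Fermat.Agent.HeckeJ0.Periods
import Fermat.Agent.LevelRaising.LiftLemmas
import Fermat.Agent.EigenSystems.FromForms

/-!
# A mod `p` eigenvector of the integral Hecke matrices from a congruent eigenform

An integral matrix commuting with the Hecke matrices has algebraic integers as eigenvalues on the
eigenspace of the form, so a polynomial killing the mod `p` module vanishes modulo `p` at the form.
-/

set_option autoImplicit false

noncomputable section

open CongruenceSubgroup Matrix Polynomial Fermat.Agent.LevelRaising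

namespace Fermat.Agent.Engine.Top

variable {N : ℕ} [NeZero N]

/-- The periods of an eigenform are an eigenvector of the Hecke matrices prime to the level. -/
theorem exists_period_eigenvector {f : CuspForm (Gamma0 N) 2} (hf : f.IsNormalizedEigenform) :
    ∃ v : Fin (HeckeJ0.rk N) → ℂ, v ≠ 0 ∧ ∀ l : Nat.Primes, ¬ (l : ℕ) ∣ N →
      (HeckeJ0.heckeMatAt N l).map (Int.cast : ℤ → ℂ) *ᵥ v =
        ModularFormClass.qCoeff f l • v := by
  refine ⟨HeckeJ0.perMap N f, fun h => hf.ne_zero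
    (HeckeJ0.perMap_injective N (h.trans (map_zero _).symm)), fun l hl => ?_⟩
  rw [← HeckeJ0.perMap_formsOp, ← map_smul]
  refine congrArg _ ?_
  rw [show EigenRep.formsOp N l = CuspForm.heckeTLin 2 l.2 hl from dif_neg hl]
  exact HeckeEigen.heckeTLin_apply_of_isNormalizedEigenform hf l.2 hl

/-- **A mod `p` eigenvector** with the eigenvalues of a congruent family of integers. -/
theorem exists_modEigen {p : ℕ} [Fact p.Prime] {f : CuspForm (Gamma0 N) 2}
    (hf : f.IsNormalizedEigenform) {𝔪 : Ideal (integralClosure ℤ ℂ)} (h𝔪 : 𝔪.IsPrime)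
    (hp : (p : integralClosure ℤ ℂ) ∈ 𝔪) (a : ℕ → ℤ) (R : Set Nat.Primes)
    (hR : ∀ l ∈ R, ¬ (l : ℕ) ∣ N)
    (hcong : ∀ l ∈ R, ∃ c : integralClosure ℤ ℂ, (c : ℂ) = ModularFormClass.qCoeff f (l : ℕ) ∧
      c - (a l : integralClosure ℤ ℂ) ∈ 𝔪) :
    ∃ v : Fin (HeckeJ0.rk N) → ZMod p, v ≠ 0 ∧ ∀ l ∈ R,
      (HeckeJ0.heckeMatAt N l).map (Int.cast : ℤ → ZMod p) *ᵥ v = (a l : ZMod p) • v := by
  classical
  let T : R → Module.End (ZMod p) (Fin (HeckeJ0.rk N) → ZMod p) := fun l =>
    Matrix.toLinAlgEquiv' ((HeckeJ0.heckeMatAt N l).map (Int.cast : ℤ → ZMod p))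
  have hTc : ∀ i j, Commute (T i) (T j) := fun i j => by
    refine Commute.map ?_ Matrix.toLinAlgEquiv'
    show _ * _ = _ * _
    rw [← Matrix.map_mul_intCast, ← Matrix.map_mul_intCast, HeckeJ0.heckeMatAt_comm]
  rcases exists_eigen_or_annihilator T hTc (fun l : R => (a (l : Nat.Primes) : ZMod p)) with
    ⟨v, hv0, hv⟩ | ⟨l, hl, hl0⟩
  · exact ⟨v, hv0, fun r hr => hv ⟨r, hr⟩⟩
  exfalso
  obtain ⟨L, rfl⟩ := exists_listMap_eq (Int.castRingHom (ZMod p)) ZMod.intCast_surjective l
  let TZ : R → Module.End ℤ (Fin (HeckeJ0.rk N) → ℤ) := fun l =>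
    Matrix.toLinAlgEquiv' (HeckeJ0.heckeMatAt N l)
  let TC : R → Module.End ℂ (Fin (HeckeJ0.rk N) → ℂ) := fun l =>
    Matrix.toLinAlgEquiv' ((HeckeJ0.heckeMatAt N l).map (Int.cast : ℤ → ℂ))
  set E := listOp TZ L with hE
  -- the operator is divisible by `p`
  let cp : (Fin (HeckeJ0.rk N) → ℤ) →+ (Fin (HeckeJ0.rk N) → ZMod p) :=
    AddMonoidHom.compLeft (Int.castAddHom (ZMod p)) _
  have hEp : ∀ x i, (p : ℤ) ∣ E x i := fun x i => by
    have h := listOp_semilinear (Int.castRingHom (ZMod p)) (T := TZ) (S := T) cp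
      (fun c y => funext fun j => by simp [cp]) (fun r y => funext fun j => by
        simp [cp, TZ, T, Matrix.toLinAlgEquiv'_apply, Matrix.mulVec, dotProduct]) L x
    rw [hl0, LinearMap.zero_apply] at h
    exact (ZMod.intCast_zmod_eq_zero_iff_dvd _ p).1 (congrFun h i)
  choose X hX using hEp
  let XM : Matrix (Fin (HeckeJ0.rk N)) (Fin (HeckeJ0.rk N)) ℤ :=
    Matrix.of fun i j => X (Pi.single j 1) i
  have hEM : LinearMap.toMatrix' E = (p : ℤ) • XM := by
    ext i j
    rw [LinearMap.toMatrix'_apply, hX, Matrix.smul_apply, smul_eq_mul]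
    rfl
  let cC : (Fin (HeckeJ0.rk N) → ℤ) →+ (Fin (HeckeJ0.rk N) → ℂ) :=
    AddMonoidHom.compLeft (Int.castAddHom ℂ) _
  set EC := listOp TC (listMap (Int.castRingHom ℂ) L) with hEC
  have hECX : EC = (p : ℂ) • Matrix.toLinAlgEquiv' (XM.map (Int.cast : ℤ → ℂ)) := by
    refine LinearMap.pi_ext' fun j => LinearMap.ext_ring ?_
    funext i
    have h := congrFun (listOp_semilinear (Int.castRingHom ℂ) (T := TZ) (S := TC) cC
      (fun c y => funext fun j => by simp [cC]) (fun r y => funext fun k => by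
        simp [cC, TZ, TC, Matrix.toLinAlgEquiv'_apply, Matrix.mulVec, dotProduct]) L
      (Pi.single j 1)) i
    have hs : cC (Pi.single j 1) = Pi.single j 1 := funext fun k => by
      rcases eq_or_ne k j with rfl | hk <;> simp [cC, *]
    rw [hs, ← hEC] at h
    show EC (Pi.single j 1) i = ((p : ℂ) • Matrix.toLinAlgEquiv' (XM.map Int.cast)) (Pi.single j 1) i
    rw [← h, LinearMap.smul_apply, Pi.smul_apply, Matrix.toLinAlgEquiv'_apply,
      Matrix.mulVec_single_one]
    simp [cC, hE.symm, hX, XM, Matrix.col]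
  -- the eigenspace of the form
  obtain ⟨v, hv0, hv⟩ := exists_period_eigenvector hf
  choose c hc hc' using fun l : R => hcong l l.2
  let W : Submodule ℂ (Fin (HeckeJ0.rk N) → ℂ) :=
    ⨅ l : R, LinearMap.ker (TC l - (c l : ℂ) • LinearMap.id)
  have hmemW : ∀ x, x ∈ W ↔ ∀ l, TC l x = (c l : ℂ) • x := fun x => by
    simp [W, sub_eq_zero, Submodule.mem_iInf]
  have hvW : v ∈ W := (hmemW v).2 fun l => by
    rw [hc]
    exact hv l (hR l l.2)
  set Y := Matrix.toLinAlgEquiv' (XM.map (Int.cast : ℤ → ℂ)) with hY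
  have hTCc : ∀ i j, Commute (TC i) (TC j) := fun i j => by
    refine Commute.map ?_ Matrix.toLinAlgEquiv'
    show _ * _ = _ * _
    rw [← Matrix.map_mul_intCast, ← Matrix.map_mul_intCast, HeckeJ0.heckeMatAt_comm]
  have hYc : ∀ l, Commute (TC l) Y := fun l => by
    have h1 : Commute (TC l) EC := by
      refine Commute.list_prod_right _ _ fun y hy => ?_
      obtain ⟨x, -, rfl⟩ := List.mem_map.1 hy
      exact (Algebra.commute_of_mem_adjoin_singleton_of_commute
        (aeval_mem_adjoin_singleton ℂ (TC x.1)) (hTCc x.1 l).symm)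
    rw [hECX] at h1
    refine smul_right_injective _ (Nat.cast_ne_zero.2 (Fact.out : p.Prime).ne_zero : (p : ℂ) ≠ 0) ?_
    simpa only [Commute, SemiconjBy, mul_smul_comm, smul_mul_assoc] using h1
  have hYW : ∀ x ∈ W, Y x ∈ W := fun x hx => (hmemW _).2 fun l => by
    rw [← Module.End.mul_apply, (hYc l).eq, Module.End.mul_apply, (hmemW x).1 hx l, map_smul]
  have : Nontrivial W := ⟨⟨v, hvW⟩, 0, fun h => hv0 (congrArg Subtype.val h)⟩
  obtain ⟨x, hx⟩ := Module.End.exists_eigenvalue (Y.restrict hYW)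
  obtain ⟨u, hu⟩ := hx.exists_hasEigenvector
  have hu0 : (u : Fin (HeckeJ0.rk N) → ℂ) ≠ 0 := fun h => hu.2 (Subtype.ext h)
  have hYu : Y (u : Fin (HeckeJ0.rk N) → ℂ) = x • (u : Fin (HeckeJ0.rk N) → ℂ) :=
    congrArg Subtype.val hu.apply_eq_smul
  have hxint : IsIntegral ℤ x := by
    refine ⟨XM.charpoly, XM.charpoly_monic, ?_⟩
    rw [Polynomial.eval₂_eq_eval_map, ← Matrix.charpoly_map, Matrix.eval_charpoly,
      ← Matrix.exists_mulVec_eq_zero_iff]
    refine ⟨_, hu0, ?_⟩
    rw [Matrix.sub_mulVec, Matrix.scalar_apply, sub_eq_zero, ← Matrix.smul_one_eq_diagonal,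
      Matrix.smul_mulVec, Matrix.one_mulVec]
    exact hYu.symm
  have hval : listVal (fun l => (c l : ℂ)) (listMap (Int.castRingHom ℂ) L) = (p : ℂ) * x := by
    have h1 := listOp_eigen (T := TC) (t := fun l => (c l : ℂ)) ((hmemW _).1 u.2)
      (listMap (Int.castRingHom ℂ) L)
    rw [← hEC, hECX, LinearMap.smul_apply, hYu, smul_smul] at h1
    exact (smul_left_injective ℂ hu0 h1).symm
  -- the value is in `𝔪`
  have hmem : listVal c (listMap (Int.castRingHom (integralClosure ℤ ℂ)) L) ∈ 𝔪 := by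
    have h2 : listVal c (listMap (Int.castRingHom (integralClosure ℤ ℂ)) L) =
        (p : integralClosure ℤ ℂ) * ⟨x, hxint⟩ := by
      refine Subtype.ext ?_
      have h3 := map_listVal (algebraMap (integralClosure ℤ ℂ) ℂ) c
        (listMap (Int.castRingHom (integralClosure ℤ ℂ)) L)
      rw [show listMap (algebraMap (integralClosure ℤ ℂ) ℂ)
          (listMap (Int.castRingHom (integralClosure ℤ ℂ)) L) =
          listMap (Int.castRingHom ℂ) L from by
        simp only [listMap, List.map_map]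
        refine List.map_congr_left fun y _ => ?_
        simp only [Function.comp_apply, Polynomial.map_map,
          RingHom.ext_int ((algebraMap (integralClosure ℤ ℂ) ℂ).comp
            (Int.castRingHom (integralClosure ℤ ℂ))) (Int.castRingHom ℂ)]] at h3
      exact h3.trans (hval.trans rfl)
    rw [h2]
    exact Ideal.mul_mem_right _ _ hp
  -- and prime to `p`
  set z := listVal (fun l : R => a (l : Nat.Primes)) L with hz
  have hz0 : (z : ZMod p) ≠ 0 := by
    have h4 := map_listVal (Int.castRingHom (ZMod p)) (fun l : R => a (l : Nat.Primes)) L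
    intro h5
    exact hl (h4.symm.trans h5)
  have hz𝔪 : (z : integralClosure ℤ ℂ) ∈ 𝔪 := by
    rw [← Ideal.Quotient.eq_zero_iff_mem]
    have hce : Ideal.Quotient.mk 𝔪 ∘ c =
        Ideal.Quotient.mk 𝔪 ∘ fun l : R => (a (l : Nat.Primes) : integralClosure ℤ ℂ) :=
      funext fun l => Ideal.Quotient.eq.2 (hc' l)
    have h6 := Ideal.Quotient.eq_zero_iff_mem.2 hmem
    rw [map_listVal, hce, ← map_listVal] at h6
    rw [hz, ← eq_intCast (Int.castRingHom (integralClosure ℤ ℂ)), map_listVal]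
    exact h6
  have := h𝔪
  have hpd : ¬ (p : ℤ) ∣ z := fun h => hz0 ((ZMod.intCast_zmod_eq_zero_iff_dvd z p).2 h)
  obtain ⟨m, n, hmn⟩ : IsCoprime (p : ℤ) z :=
    (Nat.prime_iff_prime_int.1 Fact.out).coprime_iff_not_dvd.2 hpd
  refine h𝔪.ne_top ((Ideal.eq_top_iff_one _).2 ?_)
  have h7 := congrArg (fun t : ℤ => (t : integralClosure ℤ ℂ)) hmn
  simp only [Int.cast_add, Int.cast_mul, Int.cast_one, Int.cast_natCast] at h7
  rw [← h7]
  exact add_mem (Ideal.mul_mem_left _ _ hp) (Ideal.mul_mem_left _ _ hz𝔪)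

end Fermat.Agent.Engine.Top
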